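/-
S53 team project: common basic definitions (GQ, FrameIdx, gram).
-/
import Mathlib
import Fermat.Prelude.Def_GaloisRep_DeformationRingData
import Fermat.Prelude.Def_GaloisRep_DeformationCondition

set_option autoImplicit false

namespace Fermat.Agent.S53Lib

open Matrix IsLocalRing

/-- The absolute Galois group of ℚ, as used by the Prelude. -/
abbrev GQ := AlgebraicClosure ℚ ≃ₐ[ℚ] AlgebraicClosure ℚ

/-- index type of a frame (four group elements) -/
abbrev FrameIdx := Fin 2 × Fin 2

/-- Gram matrix `(t (g a * g b))` of a "trace function" `t` at a frame of monoid elements. -/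
def gram {A : Type*} [CommRing A] {G : Type*} [Monoid G] (t : G → A) (g : FrameIdx → G) :
    Matrix FrameIdx FrameIdx A :=
  Matrix.of fun a b => t (g a * g b)

theorem gram_apply {A : Type*} [CommRing A] {G : Type*} [Monoid G] (t : G → A) (g : FrameIdx → G)
    (a b : FrameIdx) : gram t g a b = t (g a * g b) := rfl

/-- Functoriality of `gram` in the coefficient ring. -/
theorem gram_map {A B : Type*} [CommRing A] [CommRing B] (φ : A →+* B) {G : Type*} [Monoid G]
    (t : G → A) (g : FrameIdx → G) : gram (fun x => φ (t x)) g = (gram t g).map φ := by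
  ext a b
  rfl

theorem det_gram_map {A B : Type*} [CommRing A] [CommRing B] (φ : A →+* B) {G : Type*} [Monoid G]
    (t : G → A) (g : FrameIdx → G) : (gram (fun x => φ (t x)) g).det = φ (gram t g).det := by
  rw [gram_map, ← RingHom.mapMatrix_apply, ← RingHom.map_det]

end Fermat.Agent.S53Lib
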