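/-
S53 library (helper1): the trace form on `M₂(A)` and Gram determinants.

For a family `v : Fin 2 × Fin 2 → M₂(A)` over a commutative ring `A`:
* `gramMat v a b = tr (v a * v b)`;
* `coordMatrix v a (i, j) = (v a) i j`;
* `det (gramMat v) = sign * (det (coordMatrix v))^2`, with `sign = ±1`;
* `IsUnit (det (gramMat v)) ↔ v` is an `A`-basis of `M₂(A)`.
-/
import Mathlib
import Fermat.Agent.Lib.S53.Basic

set_option autoImplicit false

namespace Fermat.Agent.S53Lib

open Matrix Module

variable {A : Type*} [CommRing A]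

/-- The Gram matrix of a family of `2 × 2` matrices with respect to the trace form. -/
def gramMat (v : FrameIdx → Matrix (Fin 2) (Fin 2) A) : Matrix FrameIdx FrameIdx A :=
  fun a b => (v a * v b).trace

/-- The matrix of coordinates (entries) of a family of `2 × 2` matrices. -/
def coordMatrix (v : FrameIdx → Matrix (Fin 2) (Fin 2) A) : Matrix FrameIdx FrameIdx A :=
  fun a p => v a p.1 p.2

theorem gramMat_apply (v : FrameIdx → Matrix (Fin 2) (Fin 2) A) (a b : FrameIdx) :
    gramMat v a b = (v a * v b).trace := rfl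

omit [CommRing A] in
theorem coordMatrix_apply (v : FrameIdx → Matrix (Fin 2) (Fin 2) A) (a p : FrameIdx) :
    coordMatrix v a p = v a p.1 p.2 := rfl

/-- `gramMat v = M * (M with columns permuted by swap)ᵀ`, where `M = coordMatrix v`. -/
theorem gramMat_eq_mul (v : FrameIdx → Matrix (Fin 2) (Fin 2) A) :
    gramMat v = coordMatrix v * ((coordMatrix v).submatrix id (Equiv.prodComm (Fin 2) (Fin 2)))ᵀ := by
  ext a b
  simp only [gramMat, coordMatrix, Matrix.trace, Matrix.diag_apply, Matrix.mul_apply,
    Matrix.transpose_apply, Matrix.submatrix_apply, id_eq, Equiv.prodComm_apply, Prod.fst_swap,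
    Prod.snd_swap, Fintype.sum_prod_type]

/-- The Gram determinant is, up to the sign of the swap permutation, the square of the determinant
of the coordinate matrix. -/
theorem det_gramMat (v : FrameIdx → Matrix (Fin 2) (Fin 2) A) :
    (gramMat v).det =
      ((Equiv.Perm.sign (Equiv.prodComm (Fin 2) (Fin 2)) : ℤˣ) : ℤ) * (coordMatrix v).det ^ 2 := by
  rw [gramMat_eq_mul, Matrix.det_mul, Matrix.det_transpose, Matrix.det_permute']
  ring

theorem isUnit_det_gramMat_iff (v : FrameIdx → Matrix (Fin 2) (Fin 2) A) :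
    IsUnit (gramMat v).det ↔ IsUnit (coordMatrix v).det := by
  rw [det_gramMat]
  have hs : IsUnit ((((Equiv.Perm.sign (Equiv.prodComm (Fin 2) (Fin 2)) : ℤˣ) : ℤ) : A)) := by
    have := (Equiv.Perm.sign (Equiv.prodComm (Fin 2) (Fin 2)) : ℤˣ).isUnit
    exact (this.map (Int.castRingHom A))
  rw [IsUnit.mul_iff, isUnit_pow_iff (by norm_num)]
  exact ⟨fun h => h.2, fun h => ⟨hs, h⟩⟩

/-- The determinant of the family `v` with respect to the standard basis of `M₂(A)` is the
determinant of the coordinate matrix. -/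
theorem stdBasis_det_eq (v : FrameIdx → Matrix (Fin 2) (Fin 2) A) :
    (Matrix.stdBasis A (Fin 2) (Fin 2)).det v = (coordMatrix v).det := by
  rw [Basis.det_apply, ← Matrix.det_transpose]
  congr 1

/-- A family of four `2 × 2` matrices is a basis of `M₂(A)` iff its Gram determinant is a unit. -/
theorem isUnit_det_gramMat_iff_basis (v : FrameIdx → Matrix (Fin 2) (Fin 2) A) :
    IsUnit (gramMat v).det ↔
      (LinearIndependent A v ∧ Submodule.span A (Set.range v) = ⊤) := by
  rw [isUnit_det_gramMat_iff, ← stdBasis_det_eq, Basis.is_basis_iff_det]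

/-- The basis of `M₂(A)` attached to a family with unit Gram determinant. -/
noncomputable def gramBasis (v : FrameIdx → Matrix (Fin 2) (Fin 2) A) (h : IsUnit (gramMat v).det) :
    Basis FrameIdx A (Matrix (Fin 2) (Fin 2) A) :=
  Basis.mk ((isUnit_det_gramMat_iff_basis v).1 h).1 ((isUnit_det_gramMat_iff_basis v).1 h).2.ge

@[simp]
theorem gramBasis_apply (v : FrameIdx → Matrix (Fin 2) (Fin 2) A) (h : IsUnit (gramMat v).det)
    (a : FrameIdx) : gramBasis v h a = v a := by
  simp [gramBasis]

/-- Functoriality of the Gram matrix under ring homomorphisms. -/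
theorem gramMat_map {B : Type*} [CommRing B] (φ : A →+* B) (v : FrameIdx → Matrix (Fin 2) (Fin 2) A) :
    gramMat (fun a => (v a).map φ) = (gramMat v).map φ := by
  ext a b
  simp only [gramMat, Matrix.map_apply, Matrix.trace, Matrix.diag_apply, Matrix.mul_apply,
    Fin.sum_univ_two, map_add, map_mul]

theorem det_gramMat_map {B : Type*} [CommRing B] (φ : A →+* B)
    (v : FrameIdx → Matrix (Fin 2) (Fin 2) A) :
    (gramMat (fun a => (v a).map φ)).det = φ (gramMat v).det := by
  rw [gramMat_map, ← RingHom.mapMatrix_apply, ← RingHom.map_det]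

/-- Conjugation invariance of the Gram matrix. -/
theorem gramMat_conj (u : (Matrix (Fin 2) (Fin 2) A)ˣ) (v : FrameIdx → Matrix (Fin 2) (Fin 2) A) :
    gramMat (fun a => (u : Matrix (Fin 2) (Fin 2) A) * v a * ((u⁻¹ : (Matrix (Fin 2) (Fin 2) A)ˣ) :
      Matrix (Fin 2) (Fin 2) A)) = gramMat v := by
  ext a b
  simp only [gramMat]
  have : (u : Matrix (Fin 2) (Fin 2) A) * v a * ((u⁻¹ : (Matrix (Fin 2) (Fin 2) A)ˣ) :
      Matrix (Fin 2) (Fin 2) A) * ((u : Matrix (Fin 2) (Fin 2) A) * v b *
      ((u⁻¹ : (Matrix (Fin 2) (Fin 2) A)ˣ) : Matrix (Fin 2) (Fin 2) A)) =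
      (u : Matrix (Fin 2) (Fin 2) A) * (v a * v b) * ((u⁻¹ : (Matrix (Fin 2) (Fin 2) A)ˣ) :
      Matrix (Fin 2) (Fin 2) A) := by
    simp only [mul_assoc, Units.inv_mul_cancel_left]
  rw [this, Matrix.trace_mul_cycle, Units.inv_mul, one_mul]

/-- The Gram matrix of the trace function of a matrix representation at a frame `g` is the Gram
matrix of the matrices `r (g a)`. -/
theorem gram_trace_eq_gramMat {G : Type*} [Monoid G] (r : G →* Matrix (Fin 2) (Fin 2) A)
    (g : FrameIdx → G) : gram (fun x => (r x).trace) g = gramMat (fun a => r (g a)) := by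
  ext a b
  rw [gram_apply, gramMat_apply, map_mul]

end Fermat.Agent.S53Lib
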