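/-
S53 library (helper1), task M3: Burnside for the residual representation, Gram form.
-/
import Mathlib
import Fermat.Agent.Lib.S53.Basic
import Fermat.Agent.Lib.S53.Gram
import Fermat.Agent.Lib.Helper1.Frame

set_option autoImplicit false

namespace Fermat.Agent.S53Lib

open Matrix Module

/-- Over a field, a linearly independent family of four `2 × 2` matrices has nonzero Gram
determinant. -/
theorem det_gramMat_ne_zero_of_linearIndependent {k : Type*} [Field k]
    (v : FrameIdx → Matrix (Fin 2) (Fin 2) k) (hv : LinearIndependent k v) :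
    (gramMat v).det ≠ 0 := by
  have hcard : Fintype.card FrameIdx = finrank k (Matrix (Fin 2) (Fin 2) k) := by
    rw [Module.finrank_matrix]
    simp
  have hspan : Submodule.span k (Set.range v) = ⊤ :=
    hv.span_eq_top_of_card_eq_finrank' hcard
  exact ((isUnit_det_gramMat_iff_basis v).2 ⟨hv, hspan⟩).ne_zero

/-- **Task M3**: an absolutely irreducible residual representation admits a frame whose Gram
determinant (for the trace function) is nonzero. -/
theorem exists_gram_ne_zero {k : Type} [Field k] (ρbar : ResidualGaloisRep k)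
    (habs : ρbar.IsAbsolutelyIrreducible) :
    ∃ g : FrameIdx → GQ,
      (gram (fun σ => LinearMap.trace k ρbar.V (ρbar.ρ σ)) g).det ≠ 0 := by
  obtain ⟨g, hg⟩ :=
    Fermat.Agent.Lib.Helper1.exists_linearIndependent_of_isAbsolutelyIrreducible ρbar habs
  refine ⟨g, ?_⟩
  let b : Basis (Fin 2) k ρbar.V := Module.finBasisOfFinrankEq k ρbar.V ρbar.finrank_eq
  let T : Module.End k ρbar.V ≃ₐ[k] Matrix (Fin 2) (Fin 2) k := LinearMap.toMatrixAlgEquiv b
  set v : FrameIdx → Matrix (Fin 2) (Fin 2) k := fun a => T (ρbar.ρ (g a)) with hvdef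
  have hv : LinearIndependent k v := by
    have : v = T.toLinearEquiv ∘ (fun i => ρbar.ρ (g i)) := rfl
    rw [this]
    exact hg.map' T.toLinearEquiv.toLinearMap T.toLinearEquiv.ker
  have hgram : gram (fun σ => LinearMap.trace k ρbar.V (ρbar.ρ σ)) g = gramMat v := by
    ext a c
    rw [gram_apply, gramMat_apply, hvdef]
    simp only
    rw [← map_mul T, ← map_mul ρbar.ρ, LinearMap.trace_eq_matrix_trace k b]
    rfl
  rw [hgram]
  exact det_gramMat_ne_zero_of_linearIndependent v hv

end Fermat.Agent.S53Lib
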