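/-
S53 library (helper1): matrix units in `M₂(A)` over a local ring are conjugate to the standard
ones; Skolem–Noether for `M₂(A)`, `A` local.
-/
import Mathlib

set_option autoImplicit false

namespace Fermat.Agent.S53Lib

open Matrix

variable {A : Type*} [CommRing A]

/-- A system of `2 × 2` matrix units in a ring `E`. -/
structure IsMatrixUnits {E : Type*} [Ring E] (e : Fin 2 → Fin 2 → E) : Prop where
  mul : ∀ i j k l, e i j * e k l = if j = k then e i l else 0
  sum : e 0 0 + e 1 1 = 1

theorem isMatrixUnits_single : IsMatrixUnits (fun i j => (Matrix.single i j (1 : A) :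
    Matrix (Fin 2) (Fin 2) A)) where
  mul i j k l := by
    by_cases h : j = k
    · subst h; simp
    · simp [h, Matrix.single_mul_single_of_ne]
  sum := by
    ext i j
    fin_cases i <;> fin_cases j <;> simp

theorem IsMatrixUnits.map {E F : Type*} [Ring E] [Ring F] {e : Fin 2 → Fin 2 → E}
    (he : IsMatrixUnits e) (φ : E →+* F) : IsMatrixUnits (fun i j => φ (e i j)) where
  mul i j k l := by
    rw [← map_mul, he.mul]
    split_ifs <;> simp
  sum := by rw [← map_add, he.sum, map_one]

/-- **Matrix units in `M₂(A)`, `A` local, are conjugate to the standard ones.** -/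
theorem IsMatrixUnits.exists_conj [IsLocalRing A] {e : Fin 2 → Fin 2 → Matrix (Fin 2) (Fin 2) A}
    (he : IsMatrixUnits e) :
    ∃ u : (Matrix (Fin 2) (Fin 2) A)ˣ, ∀ i j,
      e i j = (u : Matrix (Fin 2) (Fin 2) A) * Matrix.single i j 1 *
        ((u⁻¹ : (Matrix (Fin 2) (Fin 2) A)ˣ) : Matrix (Fin 2) (Fin 2) A) := by
  -- some entry of `e 0 0` is a unit
  obtain ⟨p, q, hpq⟩ : ∃ p q, IsUnit (e 0 0 p q) := by
    by_contra hcon
    push Not at hcon
    have hmem : ∀ p q, e 0 0 p q ∈ IsLocalRing.maximalIdeal A := fun p q =>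
      (IsLocalRing.mem_maximalIdeal _).2 (hcon p q)
    have h11 : e 1 1 = e 1 0 * e 0 0 * e 0 1 := by
      rw [he.mul 1 0 0 0, if_pos rfl, he.mul 1 0 0 1, if_pos rfl]
    have hmem' : ∀ p q, e 1 1 p q ∈ IsLocalRing.maximalIdeal A := by
      intro p q
      rw [h11]
      simp only [Matrix.mul_apply]
      refine Ideal.sum_mem _ fun k _ => ?_
      refine Ideal.mul_mem_right _ _ ?_
      refine Ideal.sum_mem _ fun m _ => ?_
      exact Ideal.mul_mem_left _ _ (hmem m k)
    have h1 : (1 : A) ∈ IsLocalRing.maximalIdeal A := by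
      have := congrFun (congrFun he.sum 0) 0
      rw [Matrix.add_apply, Matrix.one_apply_eq] at this
      rw [← this]
      exact Ideal.add_mem _ (hmem 0 0) (hmem' 0 0)
    exact (Ideal.ne_top_iff_one _).1 (IsLocalRing.maximalIdeal.isMaximal A).ne_top h1
  set c : A := e 0 0 p q with hc
  -- `U` has columns `e j 0 • std q`; `V` has rows `stdᵀ p • e 0 i`
  let U : Matrix (Fin 2) (Fin 2) A := fun i j => e j 0 i q
  let V : Matrix (Fin 2) (Fin 2) A := fun i j => e 0 i p j
  have hVU : V * U = c • (1 : Matrix (Fin 2) (Fin 2) A) := by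
    ext i j
    have : (V * U) i j = (e 0 i * e j 0) p q := by
      simp only [Matrix.mul_apply, U, V]
    rw [this, he.mul]
    by_cases hij : i = j
    · subst hij; simp [hc]
    · simp [hij]
  have hUdet : IsUnit U.det := by
    have h1 : V.det * U.det = c ^ 2 := by
      rw [← Matrix.det_mul, hVU, Matrix.det_smul, Matrix.det_one, mul_one, Fintype.card_fin]
    have h2 : IsUnit (V.det * U.det) := by rw [h1]; exact hpq.pow 2
    exact (IsUnit.mul_iff.1 h2).2
  have hU : IsUnit U := (Matrix.isUnit_iff_isUnit_det U).2 hUdet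
  obtain ⟨u, hu⟩ := hU
  refine ⟨u, fun i j => ?_⟩
  have hcomm : e i j * U = U * Matrix.single i j 1 := by
    ext k l
    have h1 : (e i j * U) k l = (e i j * e l 0) k q := by
      simp only [Matrix.mul_apply, U]
    rw [h1, he.mul]
    by_cases hjl : j = l
    · subst hjl
      simp [Matrix.mul_apply, Matrix.single_apply, U]
    · simp [Matrix.mul_apply, hjl]
  rw [hu, ← hcomm, mul_assoc, ← hu, Units.mul_inv, mul_one]

/-- **Skolem–Noether for `M₂(A)`, `A` local**: every `A`-algebra endomorphism is inner. -/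
theorem skolem_noether_local [IsLocalRing A]
    (Φ : Matrix (Fin 2) (Fin 2) A →ₐ[A] Matrix (Fin 2) (Fin 2) A) :
    ∃ u : (Matrix (Fin 2) (Fin 2) A)ˣ, ∀ X,
      Φ X = (u : Matrix (Fin 2) (Fin 2) A) * X *
        ((u⁻¹ : (Matrix (Fin 2) (Fin 2) A)ˣ) : Matrix (Fin 2) (Fin 2) A) := by
  obtain ⟨u, hu⟩ := ((isMatrixUnits_single (A := A)).map Φ.toRingHom).exists_conj
  refine ⟨u, fun X => ?_⟩
  conv_lhs => rw [Matrix.matrix_eq_sum_single X]
  conv_rhs => rw [Matrix.matrix_eq_sum_single X]
  simp only [map_sum, Finset.mul_sum, Finset.sum_mul]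
  refine Finset.sum_congr rfl fun i _ => Finset.sum_congr rfl fun j _ => ?_
  have h1 : (Matrix.single i j (X i j) : Matrix (Fin 2) (Fin 2) A) =
      X i j • Matrix.single i j (1 : A) := by
    rw [Matrix.smul_single, smul_eq_mul, mul_one]
  rw [h1, map_smul, Matrix.mul_smul, Matrix.smul_mul]
  congr 1
  exact hu i j

end Fermat.Agent.S53Lib
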