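/-
S53 library (helper1), task M1: trace rigidity over a local ring.
Two matrix representations `r₁ r₂ : G →* M₂(A)` with the same trace function, such that the Gram
determinant of the trace function at some frame is a unit, are conjugate.
-/
import Mathlib
import Fermat.Agent.Lib.S53.Basic
import Fermat.Agent.Lib.S53.Gram
import Fermat.Agent.Lib.S53.SkolemNoether

set_option autoImplicit false

namespace Fermat.Agent.S53Lib

open Matrix Module

variable {A : Type*} [CommRing A]

/-- The coordinates of `X` in a basis family `v` with unit Gram determinant are determined by the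
traces `tr (X * v b)`:  `(repr X) ᵥ* Γ = (tr (X * v b))_b`. -/
theorem gramBasis_repr_vecMul (v : FrameIdx → Matrix (Fin 2) (Fin 2) A)
    (h : IsUnit (gramMat v).det) (X : Matrix (Fin 2) (Fin 2) A) :
    Matrix.vecMul (fun a => (gramBasis v h).repr X a) (gramMat v) = fun b => (X * v b).trace := by
  funext b
  have hX : X = ∑ a, (gramBasis v h).repr X a • v a := by
    conv_lhs => rw [← (gramBasis v h).sum_repr X]
    simp only [gramBasis_apply]
  conv_rhs => rw [hX]
  simp only [Matrix.vecMul, dotProduct, gramMat_apply, Finset.sum_mul, Matrix.trace_sum,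
    Matrix.smul_mul, Matrix.trace_smul, smul_eq_mul]

/-- Two matrices with the same "trace coordinates" with respect to two basis families having the
same (unit) Gram matrix have the same coordinates. -/
theorem gramBasis_repr_eq (v₁ v₂ : FrameIdx → Matrix (Fin 2) (Fin 2) A)
    (h₁ : IsUnit (gramMat v₁).det) (h₂ : IsUnit (gramMat v₂).det) (hΓ : gramMat v₁ = gramMat v₂)
    (X₁ X₂ : Matrix (Fin 2) (Fin 2) A) (htr : ∀ b, (X₁ * v₁ b).trace = (X₂ * v₂ b).trace) (a : FrameIdx) :
    (gramBasis v₁ h₁).repr X₁ a = (gramBasis v₂ h₂).repr X₂ a := by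
  have e1 := gramBasis_repr_vecMul v₁ h₁ X₁
  have e2 := gramBasis_repr_vecMul v₂ h₂ X₂
  have e3 : Matrix.vecMul (fun a => (gramBasis v₁ h₁).repr X₁ a) (gramMat v₁) =
      Matrix.vecMul (fun a => (gramBasis v₂ h₂).repr X₂ a) (gramMat v₁) := by
    rw [e1, hΓ, e2]
    funext b
    exact htr b
  have hinv : ∀ w : FrameIdx → A,
      Matrix.vecMul (Matrix.vecMul w (gramMat v₁)) (gramMat v₁)⁻¹ = w := by
    intro w
    rw [Matrix.vecMul_vecMul, Matrix.mul_nonsing_inv _ h₁, Matrix.vecMul_one]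
  have e4 := congrArg (fun w => Matrix.vecMul w (gramMat v₁)⁻¹) e3
  simp only [hinv] at e4
  exact congrFun e4 a

/-- **Task M1: trace rigidity over a local ring.** -/
theorem trace_rigidity [IsLocalRing A] {G : Type*} [Monoid G]
    (r₁ r₂ : G →* Matrix (Fin 2) (Fin 2) A) (htr : ∀ x, (r₁ x).trace = (r₂ x).trace)
    (g : FrameIdx → G) (hΓ : IsUnit (gram (fun x => (r₁ x).trace) g).det) :
    ∃ u : (Matrix (Fin 2) (Fin 2) A)ˣ, ∀ x,
      (u : Matrix (Fin 2) (Fin 2) A) * r₁ x * ((u⁻¹ : (Matrix (Fin 2) (Fin 2) A)ˣ) :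
        Matrix (Fin 2) (Fin 2) A) = r₂ x := by
  set v₁ : FrameIdx → Matrix (Fin 2) (Fin 2) A := fun a => r₁ (g a) with hv₁
  set v₂ : FrameIdx → Matrix (Fin 2) (Fin 2) A := fun a => r₂ (g a) with hv₂
  have hΓeq : gramMat v₁ = gramMat v₂ := by
    rw [← gram_trace_eq_gramMat r₁ g, ← gram_trace_eq_gramMat r₂ g]
    congr 1
    funext x
    exact htr x
  have h₁ : IsUnit (gramMat v₁).det := by rwa [← gram_trace_eq_gramMat r₁ g]
  have h₂ : IsUnit (gramMat v₂).det := by rwa [← hΓeq]
  set b₁ := gramBasis v₁ h₁ with hb₁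
  set b₂ := gramBasis v₂ h₂ with hb₂
  -- the "same coordinates" linear map
  let Φ : Matrix (Fin 2) (Fin 2) A →ₗ[A] Matrix (Fin 2) (Fin 2) A := b₁.constr A v₂
  have hΦv : ∀ a, Φ (v₁ a) = v₂ a := by
    intro a
    have : Φ (b₁ a) = v₂ a := b₁.constr_basis A v₂ a
    rwa [hb₁, gramBasis_apply] at this
  have hΦr : ∀ x, Φ (r₁ x) = r₂ x := by
    intro x
    have hrepr : ∀ a, b₁.repr (r₁ x) a = b₂.repr (r₂ x) a := by
      intro a
      refine gramBasis_repr_eq v₁ v₂ h₁ h₂ hΓeq (r₁ x) (r₂ x) (fun b => ?_) a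
      rw [hv₁, hv₂]
      simp only
      rw [← map_mul, ← map_mul, htr]
    have h1 : Φ (r₁ x) = ∑ a, b₁.repr (r₁ x) a • v₂ a := by
      simp only [Φ, Basis.constr_apply_fintype, Basis.equivFun_apply]
    rw [h1]
    conv_rhs => rw [← b₂.sum_repr (r₂ x)]
    refine Finset.sum_congr rfl fun a _ => ?_
    rw [hrepr a, hb₂, gramBasis_apply]
  have hΦone : Φ 1 = 1 := by
    have := hΦr 1
    rwa [map_one r₁, map_one r₂] at this
  have hΦmul : ∀ X Y, Φ (X * Y) = Φ X * Φ Y := by
    have hbil : (LinearMap.mul A (Matrix (Fin 2) (Fin 2) A)).compr₂ Φ =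
        (LinearMap.mul A (Matrix (Fin 2) (Fin 2) A)).compl₁₂ Φ Φ := by
      refine b₁.ext fun a => b₁.ext fun b => ?_
      simp only [LinearMap.compr₂_apply, LinearMap.mul_apply', LinearMap.compl₁₂_apply]
      rw [hb₁, gramBasis_apply, gramBasis_apply, hΦv, hΦv]
      simp only [hv₁, hv₂]
      rw [← map_mul, hΦr, map_mul]
    intro X Y
    have := congrArg (fun B => B X Y) hbil
    simpa only [LinearMap.compr₂_apply, LinearMap.mul_apply', LinearMap.compl₁₂_apply] using this
  obtain ⟨u, hu⟩ := skolem_noether_local (AlgHom.ofLinearMap Φ hΦone hΦmul)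
  refine ⟨u, fun x => ?_⟩
  rw [← hu (r₁ x)]
  exact hΦr x

end Fermat.Agent.S53Lib
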