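/-
S53 support library: multivariate power series rings over a complete local ring.

* `mem_span_X_pow_of_coeff_eq_zero`: tails of power series lie in powers of the ideal `(X)`.
* `idealMX m = m·P + (X)`; `idealMX_pow_eq_coeffFiltration`: coefficientwise description of powers.
* `isAdicComplete_idealMX`: `P = R⟦X_σ⟧` is `(m·P + (X))`-adically complete if `R` is `m`-adically
  complete (`σ` finite).
* `maximalIdeal_eq_idealMX`, `isAdicComplete_maximalIdeal`, `isLocalHom_algebraMap`,
  `residue_comp_algebraMap_surjective` for local `R`.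
* `evalAdic`: evaluation `R⟦X_σ⟧ →ₐ[R] A` at elements of an ideal `I` of an `I`-adically complete
  `R`-algebra `A`; uniqueness `algHom_ext_of_X`; locality `isLocalHom_evalAdic`.
-/
import Mathlib

set_option autoImplicit false

open IsLocalRing MvPowerSeries

namespace Fermat.Agent.S53Lib

/-! ### Tails of power series -/

section Tail

variable {σ : Type*} {R : Type*} [CommRing R]

/-- The coercion of a polynomial in `idealOfVars ^ n` lies in `(span (range X)) ^ n`. -/
theorem coe_mem_span_X_pow {n : ℕ} {p : MvPolynomial σ R}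
    (hp : p ∈ MvPolynomial.idealOfVars σ R ^ n) :
    (p : MvPowerSeries σ R) ∈ (Ideal.span (Set.range (X : σ → MvPowerSeries σ R))) ^ n := by
  have h1 : (MvPolynomial.idealOfVars σ R).map
      (MvPolynomial.coeToMvPowerSeries.ringHom (σ := σ) (R := R))
      ≤ Ideal.span (Set.range (X : σ → MvPowerSeries σ R)) := by
    rw [MvPolynomial.idealOfVars, Ideal.map_span]
    refine Ideal.span_le.mpr ?_
    rintro _ ⟨_, ⟨i, rfl⟩, rfl⟩
    exact Ideal.subset_span ⟨i, by simp⟩
  have h2 := Ideal.pow_right_mono h1 n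
  rw [← Ideal.map_pow] at h2
  exact h2 (Ideal.mem_map_of_mem _ hp)

/-- A power series all of whose coefficients of total degree `< n` vanish lies in the `n`-th power
of the ideal generated by the variables (finitely many variables). -/
theorem mem_span_X_pow_of_coeff_eq_zero [Finite σ] {n : ℕ} {f : MvPowerSeries σ R}
    (hf : ∀ x : σ →₀ ℕ, x.degree < n → coeff x f = 0) :
    f ∈ (Ideal.span (Set.range (X : σ → MvPowerSeries σ R))) ^ n := by
  classical
  set J := MvPolynomial.idealOfVars σ R with hJ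
  let e := toAdicCompletionAlgEquiv σ R
  have hker : e f ∈ (AdicCompletion.eval J (MvPolynomial σ R) n).ker := by
    rw [LinearMap.mem_ker, AdicCompletion.eval_apply, toAdicCompletionAlgEquiv_apply,
      toAdicCompletion_apply_eq_mk_truncTotal]
    rw [Ideal.Quotient.eq_zero_iff_mem, smul_eq_mul, Ideal.mul_top,
      MvPolynomial.mem_pow_idealOfVars_iff']
    intro x hx
    rw [coeff_truncTotal _ hx]
    exact hf x hx
  rw [← AdicCompletion.pow_smul_top_eq_ker_eval (MvPolynomial.idealOfVars_fg σ R)] at hker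
  have key : ∀ y ∈ (J ^ n • (⊤ : Submodule (MvPolynomial σ R)
      (AdicCompletion J (MvPolynomial σ R)))),
      e.symm y ∈ (Ideal.span (Set.range (X : σ → MvPowerSeries σ R))) ^ n := by
    intro y hy
    refine Submodule.smul_induction_on hy ?_ ?_
    · intro p hp z _
      rw [map_smul, Algebra.smul_def]
      exact Ideal.mul_mem_right _ _ (coe_mem_span_X_pow hp)
    · intro y z hy hz
      rw [map_add]
      exact Ideal.add_mem _ hy hz
  simpa using key _ hker

/-- The difference between a power series and its truncation lies in `(X)^n`. -/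
theorem sub_truncTotal_mem_span_X_pow [Finite σ] (n : ℕ) (f : MvPowerSeries σ R) :
    f - ((truncTotal n f : MvPolynomial σ R) : MvPowerSeries σ R)
      ∈ (Ideal.span (Set.range (X : σ → MvPowerSeries σ R))) ^ n := by
  refine mem_span_X_pow_of_coeff_eq_zero ?_
  intro x hx
  rw [map_sub, MvPolynomial.coeff_coe, coeff_truncTotal _ hx, sub_self]

end Tail

/-! ### The coefficient filtration and the ideal `m·P + (X)` -/

section Filtration

variable {σ : Type*} {R : Type*} [CommRing R] (m : Ideal R)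

/-- The ideal of power series `f` such that `coeff x f ∈ m ^ (n - deg x)` whenever `deg x < n`. -/
def coeffFiltration (n : ℕ) : Ideal (MvPowerSeries σ R) where
  carrier := {f | ∀ x : σ →₀ ℕ, x.degree < n → coeff x f ∈ m ^ (n - x.degree)}
  add_mem' := by
    intro f g hf hg x hx
    rw [map_add]
    exact Ideal.add_mem _ (hf x hx) (hg x hx)
  zero_mem' := by
    intro x _
    rw [map_zero]
    exact Ideal.zero_mem _
  smul_mem' := by
    classical
    intro g f hf x hx
    rw [smul_eq_mul, coeff_mul]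
    refine Ideal.sum_mem _ ?_
    rintro ⟨y, z⟩ hyz
    replace hyz : y + z = x := Finset.HasAntidiagonal.mem_antidiagonal.mp hyz
    have hdeg : y.degree + z.degree = x.degree := by rw [← map_add, hyz]
    have hz : z.degree < n := by omega
    refine Ideal.mul_mem_left _ _ ?_
    exact Ideal.pow_le_pow_right (by omega) (hf z hz)

theorem mem_coeffFiltration_iff {n : ℕ} {f : MvPowerSeries σ R} :
    f ∈ coeffFiltration (σ := σ) m n ↔
      ∀ x : σ →₀ ℕ, x.degree < n → coeff x f ∈ m ^ (n - x.degree) := Iff.rfl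

theorem coeffFiltration_mul_le (a b : ℕ) :
    coeffFiltration (σ := σ) m a * coeffFiltration m b ≤ coeffFiltration m (a + b) := by
  classical
  rw [Ideal.mul_le]
  intro f hf g hg x hx
  rw [coeff_mul]
  refine Ideal.sum_mem _ ?_
  rintro ⟨y, z⟩ hyz
  replace hyz : y + z = x := Finset.HasAntidiagonal.mem_antidiagonal.mp hyz
  have hdeg : y.degree + z.degree = x.degree := by rw [← map_add, hyz]
  by_cases hy : y.degree < a
  · by_cases hz : z.degree < b
    · have h1 := hf y hy
      have h2 := hg z hz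
      have h3 := Ideal.mul_mem_mul h1 h2
      rw [← pow_add] at h3
      exact Ideal.pow_le_pow_right (by omega) h3
    · have h1 := hf y hy
      refine Ideal.mul_mem_right _ _ ?_
      exact Ideal.pow_le_pow_right (by omega) h1
  · have hz : z.degree < b := by omega
    have h2 := hg z hz
    refine Ideal.mul_mem_left _ _ ?_
    exact Ideal.pow_le_pow_right (by omega) h2

theorem coeffFiltration_zero : coeffFiltration (σ := σ) m 0 = ⊤ := by
  rw [Ideal.eq_top_iff_one]
  intro x hx
  exact absurd hx (Nat.not_lt_zero _)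

theorem coeffFiltration_one_pow_le (n : ℕ) :
    coeffFiltration (σ := σ) m 1 ^ n ≤ coeffFiltration m n := by
  induction n with
  | zero => rw [pow_zero, coeffFiltration_zero, Ideal.one_eq_top]
  | succ n ih =>
    rw [pow_succ]
    exact (Ideal.mul_mono_left ih).trans (coeffFiltration_mul_le m n 1)

/-- The ideal `m · P + (X)` of `P = R⟦X_σ⟧`. -/
noncomputable def idealMX : Ideal (MvPowerSeries σ R) :=
  m.map (C (σ := σ) (R := R)) ⊔ Ideal.span (Set.range (X : σ → MvPowerSeries σ R))

theorem span_X_le_idealMX :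
    Ideal.span (Set.range (X : σ → MvPowerSeries σ R)) ≤ idealMX m := le_sup_right

theorem map_C_le_idealMX : m.map (C (σ := σ) (R := R)) ≤ idealMX m := le_sup_left

theorem idealMX_le_coeffFiltration_one : idealMX (σ := σ) m ≤ coeffFiltration m 1 := by
  classical
  rw [idealMX, sup_le_iff]
  constructor
  · rw [Ideal.map_le_iff_le_comap]
    intro c hc x hx
    have hx0 : x = 0 := by
      have : x.degree = 0 := by omega
      exact (Finsupp.degree_eq_zero_iff x).mp this
    subst hx0
    simpa using hc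
  · rw [Ideal.span_le]
    rintro _ ⟨i, rfl⟩ x hx
    have hx0 : x = 0 := by
      have : x.degree = 0 := by omega
      exact (Finsupp.degree_eq_zero_iff x).mp this
    subst hx0
    have hne : (0 : σ →₀ ℕ) ≠ Finsupp.single i 1 := by
      intro h
      have := congrArg (fun f => f i) h
      simp at this
    rw [coeff_X, if_neg hne]
    exact Ideal.zero_mem _

theorem idealMX_pow_le_coeffFiltration (n : ℕ) : idealMX (σ := σ) m ^ n ≤ coeffFiltration m n :=
  (Ideal.pow_right_mono (idealMX_le_coeffFiltration_one m) n).trans (coeffFiltration_one_pow_le m n)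

theorem coe_monomial_mem_idealMX_pow {n : ℕ} {x : σ →₀ ℕ} {c : R} (hx : x.degree < n)
    (hc : c ∈ m ^ (n - x.degree)) :
    ((MvPolynomial.monomial x c : MvPolynomial σ R) : MvPowerSeries σ R) ∈ idealMX m ^ n := by
  classical
  have h1 : (MvPolynomial.monomial x c : MvPolynomial σ R)
      = MvPolynomial.C c * MvPolynomial.monomial x 1 := by
    rw [MvPolynomial.C_mul_monomial, mul_one]
  rw [h1, MvPolynomial.coe_mul, MvPolynomial.coe_C]
  have h2 : (C c : MvPowerSeries σ R) ∈ idealMX m ^ (n - x.degree) := by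
    refine Ideal.pow_right_mono (map_C_le_idealMX m) _ ?_
    rw [← Ideal.map_pow]
    exact Ideal.mem_map_of_mem _ hc
  have h3 : ((MvPolynomial.monomial x (1 : R) : MvPolynomial σ R) : MvPowerSeries σ R)
      ∈ idealMX m ^ x.degree := by
    refine Ideal.pow_right_mono (span_X_le_idealMX m) _ (coe_mem_span_X_pow ?_)
    rw [MvPolynomial.mem_pow_idealOfVars_iff']
    intro y hy
    rw [MvPolynomial.coeff_monomial, if_neg]
    rintro rfl
    exact lt_irrefl _ hy
  have h4 := Ideal.mul_mem_mul h2 h3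
  rw [← pow_add, Nat.sub_add_cancel hx.le] at h4
  exact h4

theorem coeffFiltration_le_idealMX_pow [Finite σ] (n : ℕ) :
    coeffFiltration (σ := σ) m n ≤ idealMX m ^ n := by
  classical
  intro f hf
  have hsplit : f = ((truncTotal n f : MvPolynomial σ R) : MvPowerSeries σ R)
      + (f - ((truncTotal n f : MvPolynomial σ R) : MvPowerSeries σ R)) := by ring
  rw [hsplit]
  refine Ideal.add_mem _ ?_ ?_
  · have hsum : ((truncTotal n f : MvPolynomial σ R) : MvPowerSeries σ R)
        = ∑ x ∈ (truncTotal n f).support,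
          ((MvPolynomial.monomial x ((truncTotal n f).coeff x) : MvPolynomial σ R) :
            MvPowerSeries σ R) := by
      conv_lhs => rw [(truncTotal n f).as_sum]
      exact map_sum (MvPolynomial.coeToMvPowerSeries.ringHom (σ := σ) (R := R)) _ _
    rw [hsum]
    refine Ideal.sum_mem _ ?_
    intro x hx
    have hxn : x.degree < n := by
      by_contra hcon
      rw [MvPolynomial.mem_support_iff] at hx
      exact hx (coeff_truncTotal_eq_zero _ (not_lt.mp hcon))
    refine coe_monomial_mem_idealMX_pow m hxn ?_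
    rw [coeff_truncTotal _ hxn]
    exact hf x hxn
  · exact Ideal.pow_right_mono (span_X_le_idealMX m) _ (sub_truncTotal_mem_span_X_pow n f)

/-- Coefficientwise description of the powers of `m·P + (X)`. -/
theorem idealMX_pow_eq_coeffFiltration [Finite σ] (n : ℕ) :
    idealMX (σ := σ) m ^ n = coeffFiltration m n :=
  le_antisymm (idealMX_pow_le_coeffFiltration m n) (coeffFiltration_le_idealMX_pow m n)

theorem mem_idealMX_pow_iff [Finite σ] {n : ℕ} {f : MvPowerSeries σ R} :
    f ∈ idealMX (σ := σ) m ^ n ↔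
      ∀ x : σ →₀ ℕ, x.degree < n → coeff x f ∈ m ^ (n - x.degree) := by
  rw [idealMX_pow_eq_coeffFiltration]; rfl

theorem idealMX_eq_comap_constantCoeff [Finite σ] :
    idealMX (σ := σ) m = Ideal.comap (constantCoeff (σ := σ) (R := R)) m := by
  ext f
  have h := mem_idealMX_pow_iff (σ := σ) m (n := 1) (f := f)
  rw [pow_one] at h
  rw [h, Ideal.mem_comap]
  constructor
  · intro hf
    have := hf 0 (by simp)
    simpa using this
  · intro hf x hx
    have hx0 : x = 0 := by
      have : x.degree = 0 := by omega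
      exact (Finsupp.degree_eq_zero_iff x).mp this
    subst hx0
    simpa using hf

theorem isHausdorff_idealMX [Finite σ] [IsHausdorff m R] :
    IsHausdorff (idealMX (σ := σ) m) (MvPowerSeries σ R) := by
  refine ⟨fun f hf => ?_⟩
  ext x
  rw [map_zero]
  refine IsHausdorff.haus ‹IsHausdorff m R› _ (fun n => ?_)
  have h := hf (n + x.degree + 1)
  rw [SModEq.zero, smul_eq_mul, Ideal.mul_top, idealMX_pow_eq_coeffFiltration] at h
  have h2 := h x (by omega)
  rw [SModEq.zero, smul_eq_mul, Ideal.mul_top]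
  exact Ideal.pow_le_pow_right (by omega) h2

theorem isPrecomplete_idealMX [Finite σ] [IsPrecomplete m R] :
    IsPrecomplete (idealMX (σ := σ) m) (MvPowerSeries σ R) := by
  refine ⟨fun F hF => ?_⟩
  have hcauchy : ∀ x : σ →₀ ℕ, ∀ {a b : ℕ}, a ≤ b →
      coeff x (F (a + x.degree)) ≡ coeff x (F (b + x.degree))
        [SMOD (m ^ a • ⊤ : Submodule R R)] := by
    intro x a b hab
    rw [SModEq.sub_mem, smul_eq_mul, Ideal.mul_top, ← map_sub]
    rcases Nat.eq_zero_or_pos a with rfl | ha
    · rw [pow_zero, Ideal.one_eq_top]; exact Submodule.mem_top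
    have h := hF (show a + x.degree ≤ b + x.degree by omega)
    rw [SModEq.sub_mem, smul_eq_mul, Ideal.mul_top, idealMX_pow_eq_coeffFiltration] at h
    have h2 := h x (by omega)
    rwa [Nat.add_sub_cancel] at h2
  choose L hL using fun x => IsPrecomplete.prec ‹IsPrecomplete m R› (hcauchy x)
  let Lim : MvPowerSeries σ R := fun x => L x
  have hLim : ∀ x, coeff x Lim = L x := fun x => rfl
  refine ⟨Lim, fun n => ?_⟩
  rw [SModEq.sub_mem, smul_eq_mul, Ideal.mul_top, idealMX_pow_eq_coeffFiltration]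
  intro x hx
  have h := hL x (n - x.degree)
  rw [SModEq.sub_mem, smul_eq_mul, Ideal.mul_top, Nat.sub_add_cancel hx.le] at h
  rw [map_sub, hLim]
  exact h

/-- `R⟦X_σ⟧` (`σ` finite) is `(m·P + (X))`-adically complete if `R` is `m`-adically complete. -/
theorem isAdicComplete_idealMX [Finite σ] [IsAdicComplete m R] :
    IsAdicComplete (idealMX (σ := σ) m) (MvPowerSeries σ R) :=
  { toIsHausdorff := isHausdorff_idealMX m
    toIsPrecomplete := isPrecomplete_idealMX m }

end Filtration

/-! ### Local structure of `R⟦X_σ⟧` -/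

section LocalStructure

variable {σ : Type*} {R : Type*} [CommRing R]

theorem isLocalHom_C : IsLocalHom (C (σ := σ) (R := R)) := by
  refine ⟨fun r hr => ?_⟩
  have := (MvPowerSeries.isUnit_iff_constantCoeff).mp hr
  simpa using this

theorem isLocalHom_algebraMap : IsLocalHom (algebraMap R (MvPowerSeries σ R)) := by
  rw [← MvPowerSeries.c_eq_algebraMap]
  exact isLocalHom_C

variable [IsLocalRing R]

theorem maximalIdeal_eq_comap_constantCoeff :
    maximalIdeal (MvPowerSeries σ R)
      = Ideal.comap (constantCoeff (σ := σ) (R := R)) (maximalIdeal R) := by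
  ext f
  rw [mem_maximalIdeal, mem_nonunits_iff, Ideal.mem_comap, mem_maximalIdeal, mem_nonunits_iff,
    MvPowerSeries.isUnit_iff_constantCoeff]

theorem residue_eq_residue_C_constantCoeff (f : MvPowerSeries σ R) :
    residue (MvPowerSeries σ R) f = residue (MvPowerSeries σ R) (C (constantCoeff f)) := by
  rw [← sub_eq_zero, ← map_sub, residue_eq_zero_iff, maximalIdeal_eq_comap_constantCoeff,
    Ideal.mem_comap]
  simp

theorem residue_comp_algebraMap_surjective :
    Function.Surjective (residue (MvPowerSeries σ R) ∘ algebraMap R (MvPowerSeries σ R)) := by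
  intro y
  obtain ⟨f, rfl⟩ := residue_surjective y
  refine ⟨constantCoeff f, ?_⟩
  rw [Function.comp_apply, residue_eq_residue_C_constantCoeff f, MvPowerSeries.c_eq_algebraMap]

variable [Finite σ]

theorem maximalIdeal_eq_idealMX :
    maximalIdeal (MvPowerSeries σ R) = idealMX (σ := σ) (maximalIdeal R) := by
  rw [maximalIdeal_eq_comap_constantCoeff, idealMX_eq_comap_constantCoeff]

/-- `R⟦X_σ⟧` is complete for its maximal ideal if `R` is. -/
theorem isAdicComplete_maximalIdeal [IsAdicComplete (maximalIdeal R) R] :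
    IsAdicComplete (maximalIdeal (MvPowerSeries σ R)) (MvPowerSeries σ R) := by
  rw [maximalIdeal_eq_idealMX]
  exact isAdicComplete_idealMX _

end LocalStructure

/-! ### Evaluation of power series in adically complete algebras -/

section Eval

variable {σ : Type*} {𝒪 : Type*} [CommRing 𝒪] {A : Type*} [CommRing A] [Algebra 𝒪 A]

/-- `MvPolynomial.aeval a` maps the `n`-th power of the ideal of variables into `I ^ n`
when all `a i ∈ I`. -/
theorem aeval_mem_pow_of_mem_pow_idealOfVars (I : Ideal A) (a : σ → A) (ha : ∀ i, a i ∈ I) (n : ℕ)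
    {p : MvPolynomial σ 𝒪} (hp : p ∈ MvPolynomial.idealOfVars σ 𝒪 ^ n) :
    MvPolynomial.aeval a p ∈ I ^ n := by
  have h1 : (MvPolynomial.idealOfVars σ 𝒪).map (MvPolynomial.aeval (R := 𝒪) a) ≤ I := by
    rw [MvPolynomial.idealOfVars, Ideal.map_span]
    refine Ideal.span_le.mpr ?_
    rintro _ ⟨_, ⟨i, rfl⟩, rfl⟩
    simpa using ha i
  have h2 : (MvPolynomial.idealOfVars σ 𝒪 ^ n).map (MvPolynomial.aeval (R := 𝒪) a) ≤ I ^ n := by
    rw [Ideal.map_pow]
    exact Ideal.pow_right_mono h1 n
  exact h2 (Ideal.mem_map_of_mem _ hp)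

/-- An algebra hom out of a power series ring sending the variables into `I` sends `(X)^n`
into `I^n`. -/
theorem algHom_mem_pow_of_mem_span_X_pow (I : Ideal A) (φ : MvPowerSeries σ 𝒪 →ₐ[𝒪] A)
    (hφ : ∀ i, φ (X i) ∈ I) {n : ℕ} {f : MvPowerSeries σ 𝒪}
    (hf : f ∈ (Ideal.span (Set.range (X : σ → MvPowerSeries σ 𝒪))) ^ n) : φ f ∈ I ^ n := by
  have h1 : (Ideal.span (Set.range (X : σ → MvPowerSeries σ 𝒪))).map φ ≤ I := by
    rw [Ideal.map_span]
    refine Ideal.span_le.mpr ?_
    rintro _ ⟨_, ⟨i, rfl⟩, rfl⟩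
    exact hφ i
  have h2 : ((Ideal.span (Set.range (X : σ → MvPowerSeries σ 𝒪))) ^ n).map φ ≤ I ^ n := by
    rw [Ideal.map_pow]
    exact Ideal.pow_right_mono h1 n
  exact h2 (Ideal.mem_map_of_mem _ hf)

/-- On polynomials, an algebra hom out of the power series ring is `aeval`. -/
theorem algHom_coe_eq_aeval (φ : MvPowerSeries σ 𝒪 →ₐ[𝒪] A) (p : MvPolynomial σ 𝒪) :
    φ (p : MvPowerSeries σ 𝒪) = MvPolynomial.aeval (fun i => φ (X i)) p := by
  have h : φ.comp (MvPolynomial.coeToMvPowerSeries.algHom (σ := σ) (R := 𝒪) 𝒪)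
      = MvPolynomial.aeval (fun i => φ (X i)) := by
    apply MvPolynomial.algHom_ext
    intro i
    simp
  have := congrArg (fun ψ => ψ p) h
  simpa using this

variable [Finite σ]

/-- Two algebra homs out of `𝒪⟦X_σ⟧` (`σ` finite) into an `I`-adically Hausdorff algebra which agree
on the variables, and send them into `I`, are equal. -/
theorem algHom_ext_of_X (I : Ideal A) [IsHausdorff I A] {φ ψ : MvPowerSeries σ 𝒪 →ₐ[𝒪] A}
    (hφ : ∀ i, φ (X i) ∈ I) (h : ∀ i, φ (X i) = ψ (X i)) : φ = ψ := by
  ext f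
  rw [← sub_eq_zero]
  refine IsHausdorff.haus ‹IsHausdorff I A› _ (fun n => ?_)
  rw [SModEq.zero, smul_eq_mul, Ideal.mul_top]
  have hψ : ∀ i, ψ (X i) ∈ I := fun i => h i ▸ hφ i
  have hsplit : f = ((truncTotal n f : MvPolynomial σ 𝒪) : MvPowerSeries σ 𝒪)
      + (f - ((truncTotal n f : MvPolynomial σ 𝒪) : MvPowerSeries σ 𝒪)) := by ring
  have h1 := algHom_mem_pow_of_mem_span_X_pow I φ hφ (sub_truncTotal_mem_span_X_pow n f)
  have h2 := algHom_mem_pow_of_mem_span_X_pow I ψ hψ (sub_truncTotal_mem_span_X_pow n f)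
  have h3 : φ ((truncTotal n f : MvPolynomial σ 𝒪) : MvPowerSeries σ 𝒪)
      = ψ ((truncTotal n f : MvPolynomial σ 𝒪) : MvPowerSeries σ 𝒪) := by
    rw [algHom_coe_eq_aeval, algHom_coe_eq_aeval]
    have hfun : (fun i => φ (X i)) = fun i => ψ (X i) := funext h
    rw [hfun]
  have : φ f - ψ f = φ (f - ((truncTotal n f : MvPolynomial σ 𝒪) : MvPowerSeries σ 𝒪))
      - ψ (f - ((truncTotal n f : MvPolynomial σ 𝒪) : MvPowerSeries σ 𝒪)) := by
    rw [map_sub, map_sub, h3]; ring
  rw [this]
  exact Ideal.sub_mem _ h1 h2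

/-- Level-`n` evaluation: `MvPowerSeries σ 𝒪 → A ⧸ I ^ n`, truncating at total degree `n`. -/
noncomputable def evalAdicLevel (I : Ideal A) (a : σ → A) (ha : ∀ i, a i ∈ I) (n : ℕ) :
    MvPowerSeries σ 𝒪 →ₐ[𝒪] A ⧸ I ^ n :=
  (Ideal.Quotient.liftₐ (MvPolynomial.idealOfVars σ 𝒪 ^ n)
      ((Ideal.Quotient.mkₐ 𝒪 (I ^ n)).comp (MvPolynomial.aeval a))
      (fun p hp => by
        rw [AlgHom.comp_apply, Ideal.Quotient.mkₐ_eq_mk, Ideal.Quotient.eq_zero_iff_mem]
        exact aeval_mem_pow_of_mem_pow_idealOfVars I a ha n hp)).comp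
    ((truncTotalAlgHom σ 𝒪 n).restrictScalars 𝒪)

theorem evalAdicLevel_apply (I : Ideal A) (a : σ → A) (ha : ∀ i, a i ∈ I) (n : ℕ)
    (f : MvPowerSeries σ 𝒪) :
    evalAdicLevel I a ha n f
      = Ideal.Quotient.mk (I ^ n) (MvPolynomial.aeval a (truncTotal n f)) := rfl

theorem evalAdicLevel_compat (I : Ideal A) (a : σ → A) (ha : ∀ i, a i ∈ I) {m n : ℕ}
    (hle : m ≤ n) :
    (Ideal.Quotient.factorₐ 𝒪 (Ideal.pow_le_pow_right hle)).comp
        (evalAdicLevel (𝒪 := 𝒪) I a ha n)
      = evalAdicLevel I a ha m := by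
  ext f
  simp only [AlgHom.coe_comp, Function.comp_apply, evalAdicLevel_apply,
    Ideal.Quotient.factorₐ_apply_mk]
  rw [Ideal.Quotient.mk_eq_mk_iff_sub_mem, ← map_sub]
  exact aeval_mem_pow_of_mem_pow_idealOfVars I a ha m
    (truncTotal_sub_truncTotal_mem_pow_idealOfVars hle le_rfl f)

/-- Evaluation of a multivariate power series over `𝒪` at a family `a` of elements of an ideal `I`
of an `I`-adically complete `𝒪`-algebra `A`, as an `𝒪`-algebra homomorphism. -/
noncomputable def evalAdic (I : Ideal A) [IsAdicComplete I A] (a : σ → A) (ha : ∀ i, a i ∈ I) :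
    MvPowerSeries σ 𝒪 →ₐ[𝒪] A :=
  IsAdicComplete.liftAlgHom I (evalAdicLevel I a ha) (fun hle => evalAdicLevel_compat I a ha hle)

theorem mk_evalAdic (I : Ideal A) [IsAdicComplete I A] (a : σ → A) (ha : ∀ i, a i ∈ I) (n : ℕ)
    (f : MvPowerSeries σ 𝒪) :
    Ideal.Quotient.mk (I ^ n) (evalAdic I a ha f)
      = Ideal.Quotient.mk (I ^ n) (MvPolynomial.aeval a (truncTotal n f)) := by
  rw [evalAdic, IsAdicComplete.mk_liftAlgHom, evalAdicLevel_apply]

theorem evalAdic_coe (I : Ideal A) [IsAdicComplete I A] (a : σ → A) (ha : ∀ i, a i ∈ I)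
    (p : MvPolynomial σ 𝒪) :
    evalAdic I a ha (p : MvPowerSeries σ 𝒪) = MvPolynomial.aeval a p := by
  rw [← sub_eq_zero]
  refine IsHausdorff.haus (IsAdicComplete.toIsHausdorff (I := I) (M := A)) _ (fun n => ?_)
  rw [SModEq.zero, smul_eq_mul, Ideal.mul_top, ← Ideal.Quotient.eq, mk_evalAdic,
    Ideal.Quotient.eq, ← map_sub]
  refine aeval_mem_pow_of_mem_pow_idealOfVars I a ha n ?_
  rw [MvPolynomial.mem_pow_idealOfVars_iff']
  intro x hx
  rw [MvPolynomial.coeff_sub, coeff_truncTotal _ hx, MvPolynomial.coeff_coe, sub_self]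

@[simp]
theorem evalAdic_X (I : Ideal A) [IsAdicComplete I A] (a : σ → A) (ha : ∀ i, a i ∈ I) (i : σ) :
    evalAdic (𝒪 := 𝒪) I a ha (X i) = a i := by
  rw [← MvPolynomial.coe_X, evalAdic_coe, MvPolynomial.aeval_X]

/-- Uniqueness of `evalAdic`. -/
theorem eq_evalAdic (I : Ideal A) [IsAdicComplete I A] (a : σ → A) (ha : ∀ i, a i ∈ I)
    (φ : MvPowerSeries σ 𝒪 →ₐ[𝒪] A) (hφ : ∀ i, φ (X i) = a i) : φ = evalAdic I a ha := by
  have : IsHausdorff I A := IsAdicComplete.toIsHausdorff
  refine algHom_ext_of_X I (fun i => by rw [hφ i]; exact ha i) (fun i => ?_)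
  rw [hφ i, evalAdic_X]

end Eval

end Fermat.Agent.S53Lib
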