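/-
S53 support library, part 2: local homomorphisms out of power series rings, complete Nakayama,
surjectivity criteria, and quotients of complete local rings.

* `surjective_of_range_sup_smul_top_eq_top`: "complete Nakayama".
* `algHom_surjective_of_map_maximalIdeal_eq`, `algHom_surjective_of_le_map_sup_sq`:
  surjectivity criteria for local homs of complete local `𝒪`-algebras.
* `isLocalHom_algebraMap_of_surjective`, `residue_comp_algebraMap_surjective_of_surjective`,
  `isAdicComplete_of_surjective`: structure passes to surjective images (e.g. quotients `P ⧸ J`).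
* `isLocalHom_of_X_mem`, `map_maximalIdeal_eq`, `algHom_surjective_of_generators`,
  `exists_surjective_algHom_of_complete`: maps out of `𝒪⟦X_1,…,X_d⟧`.
-/
import Fermat.Agent.Lib.S53.PowerSeries

set_option autoImplicit false

open IsLocalRing MvPowerSeries

namespace Fermat.Agent.S53Lib

/-! ### Complete Nakayama -/

section CompleteNakayama

variable {R : Type*} [CommRing R] (I : Ideal R) {M N : Type*} [AddCommGroup M] [Module R M]
  [AddCommGroup N] [Module R N]

theorem pow_smul_top_le_map_sup (f : M →ₗ[R] N)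
    (h : LinearMap.range f ⊔ I • (⊤ : Submodule R N) = ⊤) (n : ℕ) :
    (I ^ n • (⊤ : Submodule R N)) ≤
      Submodule.map f (I ^ n • (⊤ : Submodule R M)) ⊔ I ^ (n + 1) • (⊤ : Submodule R N) := by
  conv_lhs => rw [← h]
  rw [Submodule.smul_sup, ← mul_smul, ← pow_succ, LinearMap.range_eq_map, ← Submodule.map_smul'']

/-- "Complete Nakayama": a linear map from an `I`-adically precomplete module to an `I`-adically
Hausdorff module which is surjective modulo `I` is surjective. -/
theorem surjective_of_range_sup_smul_top_eq_top [IsPrecomplete I M] [IsHausdorff I N]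
    (f : M →ₗ[R] N) (h : LinearMap.range f ⊔ I • (⊤ : Submodule R N) = ⊤) :
    Function.Surjective f := by
  intro y
  -- one step of the approximation
  have step : ∀ (n : ℕ) (x : M), y - f x ∈ I ^ n • (⊤ : Submodule R N) →
      ∃ x' : M, y - f x' ∈ I ^ (n + 1) • (⊤ : Submodule R N) ∧
        x' - x ∈ I ^ n • (⊤ : Submodule R M) := by
    intro n x hx
    have := pow_smul_top_le_map_sup I f h n hx
    obtain ⟨u', ⟨u, hu, rfl⟩, v, hv, huv⟩ := Submodule.mem_sup.mp this
    refine ⟨x + u, ?_, ?_⟩
    · have : y - f (x + u) = v := by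
        rw [map_add]
        have h5 : v = y - f x - f u := by rw [← huv]; abel
        rw [h5]; abel
      rw [this]; exact hv
    · simpa using hu
  choose! g hg1 hg2 using step
  let xs : ℕ → M := fun n => Nat.rec 0 (fun n x => g n x) n
  have xs_succ : ∀ n, xs (n + 1) = g n (xs n) := fun n => rfl
  have hxs : ∀ n, y - f (xs n) ∈ I ^ n • (⊤ : Submodule R N) := by
    intro n
    induction n with
    | zero => rw [pow_zero, Ideal.one_eq_top, Submodule.top_smul]; exact Submodule.mem_top
    | succ n ih => rw [xs_succ]; exact hg1 n (xs n) ih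
  have hxs' : ∀ n, xs (n + 1) - xs n ∈ I ^ n • (⊤ : Submodule R M) := by
    intro n
    rw [xs_succ]; exact hg2 n (xs n) (hxs n)
  have hcauchy : ∀ {a b : ℕ}, a ≤ b → xs a ≡ xs b [SMOD (I ^ a • ⊤ : Submodule R M)] := by
    intro a b hab
    induction b, hab using Nat.le_induction with
    | base => rfl
    | succ b hab ih =>
      refine ih.trans ?_
      rw [SModEq.sub_mem]
      have h1 := hxs' b
      have h2 : (I ^ b • ⊤ : Submodule R M) ≤ I ^ a • ⊤ :=
        Submodule.smul_mono_left (Ideal.pow_le_pow_right hab)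
      have h3 := h2 h1
      rw [← neg_sub]
      exact Submodule.neg_mem _ h3
  obtain ⟨L, hL⟩ := IsPrecomplete.prec ‹IsPrecomplete I M› hcauchy
  refine ⟨L, ?_⟩
  symm
  rw [← sub_eq_zero]
  refine IsHausdorff.haus ‹IsHausdorff I N› _ (fun n => ?_)
  rw [SModEq.zero]
  have h1 := hxs n
  have h2 : f (xs n - L) ∈ I ^ n • (⊤ : Submodule R N) := by
    have h3 := (SModEq.sub_mem.mp (hL n))
    have h4 : Submodule.map f (I ^ n • (⊤ : Submodule R M)) ≤ I ^ n • (⊤ : Submodule R N) := by
      rw [Submodule.map_smul'']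
      exact Submodule.smul_mono le_rfl le_top
    exact h4 (Submodule.mem_map_of_mem h3)
  have : y - f L = (y - f (xs n)) + f (xs n - L) := by rw [map_sub]; abel
  rw [this]
  exact Submodule.add_mem _ h1 h2

end CompleteNakayama

/-! ### Surjectivity criteria -/

section SurjCriterion

variable {𝒪 : Type*} [CommRing 𝒪] {B A : Type*} [CommRing B] [CommRing A]
  [Algebra 𝒪 B] [Algebra 𝒪 A] [IsLocalRing B] [IsLocalRing A]

/-- A local homomorphism `φ : B → A` of local `𝒪`-algebras, with `B` complete, `A` separated,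
`𝒪 → A/m_A` surjective and `φ(m_B)·A = m_A`, is surjective. -/
theorem algHom_surjective_of_map_maximalIdeal_eq [IsPrecomplete (maximalIdeal B) B]
    [IsHausdorff (maximalIdeal A) A] (φ : B →ₐ[𝒪] A)
    (hres : Function.Surjective (residue A ∘ algebraMap 𝒪 A))
    (hmax : (maximalIdeal B).map φ = maximalIdeal A) : Function.Surjective φ := by
  let _ : Algebra B A := φ.toRingHom.toAlgebra
  have halg : ∀ b : B, algebraMap B A b = φ b := fun b => rfl
  have hmax' : (maximalIdeal B).map (algebraMap B A) = maximalIdeal A := hmax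
  have : IsHausdorff (maximalIdeal B) A := by
    rw [← IsHausdorff.map_algebraMap_iff (S := A), hmax']
    infer_instance
  have hsurj : Function.Surjective (Algebra.linearMap B A) := by
    refine surjective_of_range_sup_smul_top_eq_top (maximalIdeal B) _ ?_
    rw [eq_top_iff]
    intro a _
    obtain ⟨r, hr⟩ := hres (residue A a)
    rw [Function.comp_apply] at hr
    have hmem : a - algebraMap 𝒪 A r ∈ maximalIdeal A := by
      rw [← residue_eq_zero_iff, map_sub, hr, sub_self]
    have h1 : algebraMap 𝒪 A r ∈ LinearMap.range (Algebra.linearMap B A) :=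
      ⟨algebraMap 𝒪 B r, by rw [Algebra.linearMap_apply, halg, AlgHom.commutes]⟩
    have h2 : a - algebraMap 𝒪 A r ∈ maximalIdeal B • (⊤ : Submodule B A) := by
      rw [Ideal.smul_top_eq_map, hmax']
      exact hmem
    have : a = algebraMap 𝒪 A r + (a - algebraMap 𝒪 A r) := by ring
    rw [this]
    exact Submodule.add_mem_sup h1 h2
  intro a
  obtain ⟨b, hb⟩ := hsurj a
  exact ⟨b, hb⟩

/-- Cotangent-space version of the surjectivity criterion: it suffices that `φ(m_B)` generates
`m_A` modulo `m_A^2`, provided `m_A` is finitely generated. -/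
theorem algHom_surjective_of_le_map_sup_sq [IsPrecomplete (maximalIdeal B) B]
    [IsHausdorff (maximalIdeal A) A] (φ : B →ₐ[𝒪] A) (hloc : IsLocalHom (φ : B →+* A))
    (hfg : (maximalIdeal A).FG)
    (hres : Function.Surjective (residue A ∘ algebraMap 𝒪 A))
    (hmax : maximalIdeal A ≤ (maximalIdeal B).map φ ⊔ maximalIdeal A ^ 2) :
    Function.Surjective φ := by
  refine algHom_surjective_of_map_maximalIdeal_eq φ hres (le_antisymm ?_ ?_)
  · exact map_maximalIdeal_le (φ : B →+* A)
  · refine Submodule.le_of_le_smul_of_le_jacobson_bot (I := maximalIdeal A) hfg ?_ ?_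
    · exact IsLocalRing.maximalIdeal_le_jacobson _
    · rw [smul_eq_mul, ← pow_two]
      exact hmax

end SurjCriterion

/-! ### Surjective images of complete local rings -/

section Quotient

variable {𝒪 : Type*} [CommRing 𝒪] {B C : Type*} [CommRing B] [CommRing C]
  [Algebra 𝒪 B] [Algebra 𝒪 C]

/-- A surjective image of a module-precomplete ring is precomplete for the image ideal. -/
theorem isPrecomplete_map_of_surjective (I : Ideal B) [IsPrecomplete I B] (π : B →+* C)
    (hπ : Function.Surjective π) : IsPrecomplete (I.map π) C := by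
  let _ : Algebra B C := π.toAlgebra
  have hmap : I.map π = I.map (algebraMap B C) := rfl
  rw [hmap, IsPrecomplete.map_algebraMap_iff (R := B) (S := C) (M := C) (I := I)]
  rw [← AdicCompletion.of_surjective_iff]
  let f : B →ₗ[B] C := Algebra.linearMap B C
  have hf : Function.Surjective f := hπ
  have h1 : Function.Surjective (AdicCompletion.map I f) := AdicCompletion.map_surjective I hf
  have h2 : Function.Surjective (AdicCompletion.of I B) := AdicCompletion.of_surjective I B
  have h3 : ∀ x, AdicCompletion.map I f (AdicCompletion.of I B x) = AdicCompletion.of I C (f x) :=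
    fun x => AdicCompletion.map_of I f x
  intro y
  obtain ⟨z, rfl⟩ := h1 y
  obtain ⟨x, rfl⟩ := h2 z
  exact ⟨f x, (h3 x).symm⟩

variable [IsLocalRing B] [IsLocalRing C]

theorem isLocalHom_algebraMap_of_surjective [IsLocalHom (algebraMap 𝒪 B)] (π : B →ₐ[𝒪] C)
    (hπ : Function.Surjective π) : IsLocalHom (algebraMap 𝒪 C) := by
  have h1 : IsLocalHom (π : B →+* C) := IsLocalHom.of_surjective (π : B →+* C) hπ
  have h2 : algebraMap 𝒪 C = (π : B →+* C).comp (algebraMap 𝒪 B) := by
    ext r; simp
  rw [h2]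
  exact RingHom.isLocalHom_comp _ _

theorem residue_comp_algebraMap_surjective_of_surjective (π : B →ₐ[𝒪] C)
    (hπ : Function.Surjective π)
    (h : Function.Surjective (residue B ∘ algebraMap 𝒪 B)) :
    Function.Surjective (residue C ∘ algebraMap 𝒪 C) := by
  intro y
  obtain ⟨c, rfl⟩ := residue_surjective y
  obtain ⟨b, rfl⟩ := hπ c
  obtain ⟨r, hr⟩ := h (residue B b)
  refine ⟨r, ?_⟩
  rw [Function.comp_apply] at hr ⊢
  have hmem : algebraMap 𝒪 B r - b ∈ maximalIdeal B := by
    rw [← residue_eq_zero_iff, map_sub, hr, sub_self]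
  have h1 : IsLocalHom (π : B →+* C) := IsLocalHom.of_surjective (π : B →+* C) hπ
  have hmem' : π (algebraMap 𝒪 B r - b) ∈ maximalIdeal C :=
    map_maximalIdeal_le (π : B →+* C) (Ideal.mem_map_of_mem _ hmem)
  rw [map_sub, AlgHom.commutes, ← residue_eq_zero_iff, map_sub, sub_eq_zero] at hmem'
  exact hmem'

/-- A surjective image of a complete Noetherian local ring is complete. -/
theorem isAdicComplete_of_surjective [IsNoetherianRing B] [IsAdicComplete (maximalIdeal B) B]
    (π : B →+* C) (hπ : Function.Surjective π) : IsAdicComplete (maximalIdeal C) C := by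
  have : IsNoetherianRing C := isNoetherianRing_of_surjective B C π hπ
  have hpre : IsPrecomplete (maximalIdeal C) C := by
    rw [← map_maximalIdeal_of_surjective π hπ]
    exact isPrecomplete_map_of_surjective _ π hπ
  exact { toIsHausdorff := inferInstance, toIsPrecomplete := hpre }

end Quotient

/-! ### Maps out of power series rings over a local ring -/

section LocalEval

variable {σ : Type*} [Finite σ] {𝒪 : Type*} [CommRing 𝒪] [IsLocalRing 𝒪]
  {A : Type*} [CommRing A] [Algebra 𝒪 A] [IsLocalRing A]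

omit [IsLocalRing 𝒪] in
/-- For an algebra hom `φ` out of `𝒪⟦X_σ⟧` sending the variables into the maximal ideal,
`φ f` is congruent to the image of the constant coefficient modulo the maximal ideal. -/
theorem algHom_sub_algebraMap_constantCoeff_mem (φ : MvPowerSeries σ 𝒪 →ₐ[𝒪] A)
    (hφ : ∀ i, φ (X i) ∈ maximalIdeal A) (f : MvPowerSeries σ 𝒪) :
    φ f - algebraMap 𝒪 A (constantCoeff f) ∈ maximalIdeal A := by
  have h1 : f - C (constantCoeff f) ∈ (Ideal.span (Set.range (X : σ → MvPowerSeries σ 𝒪))) ^ 1 := by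
    refine mem_span_X_pow_of_coeff_eq_zero ?_
    intro x hx
    have hx0 : x = 0 := by
      have : x.degree = 0 := by omega
      exact (Finsupp.degree_eq_zero_iff x).mp this
    subst hx0
    simp
  have h2 := algHom_mem_pow_of_mem_span_X_pow (maximalIdeal A) φ hφ h1
  rw [pow_one, map_sub, MvPowerSeries.c_eq_algebraMap, AlgHom.commutes] at h2
  exact h2

omit [IsLocalRing 𝒪] in
/-- An `𝒪`-algebra hom out of `𝒪⟦X_σ⟧` into a local `𝒪`-algebra (with local structure map)
sending the variables into the maximal ideal is a local homomorphism. -/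
theorem isLocalHom_of_X_mem [IsLocalHom (algebraMap 𝒪 A)] (φ : MvPowerSeries σ 𝒪 →ₐ[𝒪] A)
    (hφ : ∀ i, φ (X i) ∈ maximalIdeal A) : IsLocalHom (φ : MvPowerSeries σ 𝒪 →+* A) := by
  refine ⟨fun f hf => ?_⟩
  rw [MvPowerSeries.isUnit_iff_constantCoeff]
  have h1 := algHom_sub_algebraMap_constantCoeff_mem φ hφ f
  have h2 : IsUnit (algebraMap 𝒪 A (constantCoeff f)) := by
    by_contra hcon
    have h3 : algebraMap 𝒪 A (constantCoeff f) ∈ maximalIdeal A := hcon
    have h4 : φ f ∈ maximalIdeal A := by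
      have := Ideal.add_mem _ h1 h3
      simpa using this
    exact h4 hf
  exact isUnit_of_map_unit (algebraMap 𝒪 A) _ h2

omit [IsLocalRing A] in
/-- The image of the maximal ideal of `𝒪⟦X_σ⟧` under an algebra hom. -/
theorem map_maximalIdeal_eq (φ : MvPowerSeries σ 𝒪 →ₐ[𝒪] A) :
    (maximalIdeal (MvPowerSeries σ 𝒪)).map φ
      = (maximalIdeal 𝒪).map (algebraMap 𝒪 A) ⊔ Ideal.span (Set.range fun i => φ (X i)) := by
  rw [maximalIdeal_eq_idealMX, idealMX, Ideal.map_sup]
  have h1 : Ideal.map φ (Ideal.map (C (σ := σ) (R := 𝒪)) (maximalIdeal 𝒪))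
      = Ideal.map (algebraMap 𝒪 A) (maximalIdeal 𝒪) := by
    have hcomp : (φ : MvPowerSeries σ 𝒪 →+* A).comp (C (σ := σ) (R := 𝒪)) = algebraMap 𝒪 A := by
      ext r
      simp [MvPowerSeries.c_eq_algebraMap]
    rw [← hcomp, ← Ideal.map_map]
    rfl
  have h2 : Ideal.map φ (Ideal.span (Set.range (X : σ → MvPowerSeries σ 𝒪)))
      = Ideal.span (Set.range fun i => φ (X i)) := by
    rw [Ideal.map_span, ← Set.range_comp]
    rfl
  rw [h1, h2]

/-- Surjectivity criterion for maps out of power series rings. -/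
theorem algHom_surjective_of_generators [IsAdicComplete (maximalIdeal 𝒪) 𝒪]
    [IsLocalHom (algebraMap 𝒪 A)] [IsHausdorff (maximalIdeal A) A]
    (φ : MvPowerSeries σ 𝒪 →ₐ[𝒪] A) (hφ : ∀ i, φ (X i) ∈ maximalIdeal A)
    (hfg : (maximalIdeal A).FG)
    (hres : Function.Surjective (residue A ∘ algebraMap 𝒪 A))
    (hgen : maximalIdeal A ≤ (maximalIdeal 𝒪).map (algebraMap 𝒪 A)
      ⊔ Ideal.span (Set.range fun i => φ (X i)) ⊔ maximalIdeal A ^ 2) :
    Function.Surjective φ := by
  have : IsAdicComplete (maximalIdeal (MvPowerSeries σ 𝒪)) (MvPowerSeries σ 𝒪) :=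
    isAdicComplete_maximalIdeal
  refine algHom_surjective_of_le_map_sup_sq φ (isLocalHom_of_X_mem φ hφ) hfg hres ?_
  rw [map_maximalIdeal_eq]
  exact hgen

omit [IsLocalRing 𝒪] in
/-- `evalAdic` at elements of the maximal ideal is a local homomorphism. -/
theorem isLocalHom_evalAdic [IsLocalHom (algebraMap 𝒪 A)] [IsAdicComplete (maximalIdeal A) A]
    (a : σ → A) (ha : ∀ i, a i ∈ maximalIdeal A) :
    IsLocalHom (evalAdic (𝒪 := 𝒪) (maximalIdeal A) a ha : MvPowerSeries σ 𝒪 →+* A) :=
  isLocalHom_of_X_mem _ (fun i => by rw [evalAdic_X]; exact ha i)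

/-- Surjectivity criterion for `evalAdic`: the `a i`, together with the image of `m_𝒪`, generate
`m_A` modulo `m_A ^ 2`. -/
theorem evalAdic_surjective [IsAdicComplete (maximalIdeal 𝒪) 𝒪]
    [IsLocalHom (algebraMap 𝒪 A)] [IsAdicComplete (maximalIdeal A) A]
    (a : σ → A) (ha : ∀ i, a i ∈ maximalIdeal A)
    (hfg : (maximalIdeal A).FG)
    (hres : Function.Surjective (residue A ∘ algebraMap 𝒪 A))
    (hgen : maximalIdeal A ≤ (maximalIdeal 𝒪).map (algebraMap 𝒪 A)
      ⊔ Ideal.span (Set.range a) ⊔ maximalIdeal A ^ 2) :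
    Function.Surjective (evalAdic (𝒪 := 𝒪) (maximalIdeal A) a ha) := by
  have : IsHausdorff (maximalIdeal A) A := IsAdicComplete.toIsHausdorff
  refine algHom_surjective_of_generators _ (fun i => by rw [evalAdic_X]; exact ha i) hfg hres ?_
  have hfun : (fun i => evalAdic (𝒪 := 𝒪) (maximalIdeal A) a ha (X i)) = a :=
    funext fun i => evalAdic_X _ _ _ i
  rw [hfun]
  exact hgen

end LocalEval

section Presentation

variable {𝒪 : Type*} [CommRing 𝒪] [IsLocalRing 𝒪] {A : Type*} [CommRing A] [Algebra 𝒪 A]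
  [IsLocalRing A]

/-- Every complete Noetherian local `𝒪`-algebra `A` (local structure map, `𝒪 → A/m_A` surjective)
over a complete local ring `𝒪` is a quotient of a power series ring `𝒪⟦X_1,…,X_d⟧` by a local
`𝒪`-algebra homomorphism. -/
theorem exists_surjective_algHom_of_complete [IsAdicComplete (maximalIdeal 𝒪) 𝒪]
    [IsLocalHom (algebraMap 𝒪 A)] [IsNoetherianRing A] [IsAdicComplete (maximalIdeal A) A]
    (hres : Function.Surjective (residue A ∘ algebraMap 𝒪 A)) :
    ∃ (d : ℕ) (φ : MvPowerSeries (Fin d) 𝒪 →ₐ[𝒪] A),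
      Function.Surjective φ ∧ IsLocalHom (φ : MvPowerSeries (Fin d) 𝒪 →+* A) := by
  have hfg : (maximalIdeal A).FG := IsNoetherian.noetherian _
  obtain ⟨d, a, ha⟩ := Submodule.fg_iff_exists_fin_generating_family.mp hfg
  have ha' : ∀ i, a i ∈ maximalIdeal A := fun i => by
    rw [← ha]; exact Submodule.subset_span ⟨i, rfl⟩
  refine ⟨d, evalAdic (maximalIdeal A) a ha', ?_, isLocalHom_evalAdic a ha'⟩
  refine evalAdic_surjective a ha' hfg hres ?_
  refine le_sup_of_le_left (le_sup_of_le_right ?_)
  rw [← ha]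

end Presentation

/-! ### Quotients of power series rings -/

section QuotientPowerSeries

variable {σ : Type*} [Finite σ] {𝒪 : Type*} [CommRing 𝒪] [IsLocalRing 𝒪]
  (J : Ideal (MvPowerSeries σ 𝒪))

omit [Finite σ] in
/-- A proper quotient of `𝒪⟦X_σ⟧` is a local ring. -/
theorem isLocalRing_quotient (hJ : J ≠ ⊤) : IsLocalRing (MvPowerSeries σ 𝒪 ⧸ J) := by
  have : Nontrivial (MvPowerSeries σ 𝒪 ⧸ J) := Ideal.Quotient.nontrivial_iff.mpr hJ
  exact IsLocalRing.of_surjective' (Ideal.Quotient.mk J) Ideal.Quotient.mk_surjective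

variable [IsLocalRing (MvPowerSeries σ 𝒪 ⧸ J)]

omit [Finite σ] in
theorem isLocalHom_algebraMap_quotient :
    IsLocalHom (algebraMap 𝒪 (MvPowerSeries σ 𝒪 ⧸ J)) := by
  have : IsLocalHom (algebraMap 𝒪 (MvPowerSeries σ 𝒪)) := isLocalHom_algebraMap
  exact isLocalHom_algebraMap_of_surjective (Ideal.Quotient.mkₐ 𝒪 J)
    (Ideal.Quotient.mkₐ_surjective 𝒪 J)

omit [Finite σ] in
theorem residue_comp_algebraMap_quotient_surjective :
    Function.Surjective (residue (MvPowerSeries σ 𝒪 ⧸ J)
      ∘ algebraMap 𝒪 (MvPowerSeries σ 𝒪 ⧸ J)) :=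
  residue_comp_algebraMap_surjective_of_surjective (Ideal.Quotient.mkₐ 𝒪 J)
    (Ideal.Quotient.mkₐ_surjective 𝒪 J) residue_comp_algebraMap_surjective

/-- A quotient of `𝒪⟦X_σ⟧` (`𝒪` complete Noetherian local, `σ` finite) is complete. -/
theorem isAdicComplete_quotient [IsNoetherianRing 𝒪] [IsAdicComplete (maximalIdeal 𝒪) 𝒪] :
    IsAdicComplete (maximalIdeal (MvPowerSeries σ 𝒪 ⧸ J)) (MvPowerSeries σ 𝒪 ⧸ J) := by
  have : IsAdicComplete (maximalIdeal (MvPowerSeries σ 𝒪)) (MvPowerSeries σ 𝒪) :=
    isAdicComplete_maximalIdeal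
  exact isAdicComplete_of_surjective (Ideal.Quotient.mk J) Ideal.Quotient.mk_surjective

omit [IsLocalRing 𝒪] [IsLocalRing (MvPowerSeries σ 𝒪 ⧸ J)] in
/-- Algebra homs out of a quotient of `𝒪⟦X_σ⟧` into an `I`-adically Hausdorff algebra are
determined by the images of the variables (which must lie in `I`). -/
theorem quotient_algHom_ext {A : Type*} [CommRing A] [Algebra 𝒪 A] (I : Ideal A) [IsHausdorff I A]
    {φ ψ : (MvPowerSeries σ 𝒪 ⧸ J) →ₐ[𝒪] A}
    (hφ : ∀ i, φ (Ideal.Quotient.mk J (X i)) ∈ I)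
    (h : ∀ i, φ (Ideal.Quotient.mk J (X i)) = ψ (Ideal.Quotient.mk J (X i))) : φ = ψ := by
  have h1 : φ.comp (Ideal.Quotient.mkₐ 𝒪 J) = ψ.comp (Ideal.Quotient.mkₐ 𝒪 J) :=
    algHom_ext_of_X I (fun i => hφ i) (fun i => h i)
  exact (AlgHom.cancel_right (Ideal.Quotient.mkₐ_surjective 𝒪 J)).mp h1

end QuotientPowerSeries

end Fermat.Agent.S53Lib
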