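/-
S53 task P (power series ring), with the exact statement shapes of `S53stubs/Stubs2.lean`:
`isAdicComplete_mvPowerSeries`, `finite_mvPowerSeries_quot_pow`, `exists_algHom_mvPowerSeries`,
`algHom_mvPowerSeries_ext`, plus a few extras for Artinian targets.
-/
import Fermat.Agent.Lib.S53.PowerSeriesLocal

set_option autoImplicit false

open IsLocalRing MvPowerSeries

namespace Fermat.Agent.S53Lib

/-- A ring is `I`-adically complete if some power of `I` vanishes. -/
theorem isAdicComplete_of_pow_eq_bot {A : Type*} [CommRing A] (I : Ideal A) {n : ℕ}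
    (hn : I ^ n = ⊥) : IsAdicComplete I A where
  haus' x hx := by
    have h := hx n
    rw [SModEq.zero, smul_eq_mul, Ideal.mul_top, hn, Ideal.mem_bot] at h
    exact h
  prec' f hf := by
    refine ⟨f n, fun m => ?_⟩
    by_cases h : m ≤ n
    · exact hf h
    · have h2 := hf (show n ≤ m by omega)
      rw [hn, Submodule.bot_smul, SModEq.bot] at h2
      rw [h2]

section P

variable (𝒪 : Type) [CommRing 𝒪] [IsLocalRing 𝒪] (d : ℕ)

theorem isAdicComplete_mvPowerSeries [IsAdicComplete (maximalIdeal 𝒪) 𝒪] :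
    IsAdicComplete (maximalIdeal (MvPowerSeries (Fin d) 𝒪)) (MvPowerSeries (Fin d) 𝒪) :=
  isAdicComplete_maximalIdeal

/-- The residue field of `𝒪⟦X⟧` is finite if that of `𝒪` is. -/
theorem finite_residueField_mvPowerSeries [Finite (ResidueField 𝒪)] :
    Finite (ResidueField (MvPowerSeries (Fin d) 𝒪)) := by
  have hloc : IsLocalHom (algebraMap 𝒪 (MvPowerSeries (Fin d) 𝒪)) := isLocalHom_algebraMap
  refine Finite.of_surjective (ResidueField.map (algebraMap 𝒪 (MvPowerSeries (Fin d) 𝒪))) ?_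
  intro y
  obtain ⟨r, hr⟩ := residue_comp_algebraMap_surjective (σ := Fin d) (R := 𝒪) y
  exact ⟨residue 𝒪 r, by rw [ResidueField.map_residue]; exact hr⟩

theorem finite_mvPowerSeries_quot_pow [IsNoetherianRing 𝒪] [Finite (ResidueField 𝒪)] (n : ℕ) :
    Finite (MvPowerSeries (Fin d) 𝒪 ⧸ maximalIdeal (MvPowerSeries (Fin d) 𝒪) ^ n) := by
  have : Finite (MvPowerSeries (Fin d) 𝒪 ⧸ maximalIdeal (MvPowerSeries (Fin d) 𝒪)) :=
    finite_residueField_mvPowerSeries 𝒪 d
  exact Ideal.finite_quotient_pow (IsNoetherian.noetherian _) n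

variable {𝒪 d}
variable {B : Type} [CommRing B] [IsLocalRing B] [Algebra 𝒪 B]

omit [IsLocalRing 𝒪] in
theorem exists_algHom_mvPowerSeries (hnil : ∃ n, maximalIdeal B ^ n = ⊥)
    (b : Fin d → B) (hb : ∀ i, b i ∈ maximalIdeal B) :
    ∃ ψ : MvPowerSeries (Fin d) 𝒪 →ₐ[𝒪] B, ∀ i, ψ (MvPowerSeries.X i) = b i := by
  obtain ⟨n, hn⟩ := hnil
  have : IsAdicComplete (maximalIdeal B) B := isAdicComplete_of_pow_eq_bot _ hn
  exact ⟨evalAdic (maximalIdeal B) b hb, fun i => evalAdic_X _ _ _ i⟩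

omit [IsLocalRing 𝒪] in
theorem algHom_mvPowerSeries_ext (hnil : ∃ n, maximalIdeal B ^ n = ⊥)
    (ψ ψ' : MvPowerSeries (Fin d) 𝒪 →ₐ[𝒪] B)
    (hψ : ∀ i, ψ (MvPowerSeries.X i) ∈ maximalIdeal B)
    (h : ∀ i, ψ (MvPowerSeries.X i) = ψ' (MvPowerSeries.X i)) : ψ = ψ' := by
  obtain ⟨n, hn⟩ := hnil
  have : IsAdicComplete (maximalIdeal B) B := isAdicComplete_of_pow_eq_bot _ hn
  have : IsHausdorff (maximalIdeal B) B := IsAdicComplete.toIsHausdorff
  exact algHom_ext_of_X (maximalIdeal B) hψ h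

omit [IsLocalRing 𝒪] in
/-- Any `𝒪`-algebra hom out of `𝒪⟦X⟧` into a local `𝒪`-algebra with local structure map, sending
the variables into the maximal ideal, is local. -/
theorem isLocalHom_algHom_mvPowerSeries [IsLocalHom (algebraMap 𝒪 B)]
    (ψ : MvPowerSeries (Fin d) 𝒪 →ₐ[𝒪] B)
    (hψ : ∀ i, ψ (MvPowerSeries.X i) ∈ maximalIdeal B) :
    IsLocalHom (ψ : MvPowerSeries (Fin d) 𝒪 →+* B) :=
  isLocalHom_of_X_mem ψ hψ

end P

end Fermat.Agent.S53Lib
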