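import Mathlib
import Fermat.Prelude.Def_GaloisRep_DeformationCondition

/-!
# S53 library: basic facts on Artinian test algebras

(helper4)  Finite residue field ⇒ Artinian test algebras are finite rings, their maximal ideal is
nilpotent, algebra maps between them are local.
-/

set_option autoImplicit false

namespace Fermat.Agent.S53Lib

open IsLocalRing GaloisRep

variable {𝒪 : Type} [CommRing 𝒪] [IsLocalRing 𝒪]

section Basic

variable {A : Type} [CommRing A] [IsLocalRing A] [Algebra 𝒪 A]

/-- The residue field of an Artinian test algebra is finite when that of `𝒪` is. -/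
theorem testAlg_finite_residueField [Finite (ResidueField 𝒪)]
    (hA : IsArtinianTestAlgebra 𝒪 A) : Finite (ResidueField A) := by
  have := hA.isLocalHom
  have hsurj : Function.Surjective (ResidueField.map (algebraMap 𝒪 A)) := by
    intro x
    obtain ⟨y, rfl⟩ := hA.residue_surjective x
    exact ⟨residue 𝒪 y, by simp [ResidueField.map_residue]⟩
  exact Finite.of_surjective _ hsurj

/-- The maximal ideal of an Artinian local ring is nilpotent. -/
theorem exists_maximalIdeal_pow_eq_bot (A : Type) [CommRing A] [IsLocalRing A] [IsArtinianRing A] :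
    ∃ n : ℕ, maximalIdeal A ^ n = ⊥ := by
  obtain ⟨n, hn⟩ := IsArtinianRing.isNilpotent_jacobson_bot (R := A)
  rw [jacobson_eq_maximalIdeal _ bot_ne_top] at hn
  exact ⟨n, hn⟩

/-- An Artinian test algebra over a ring with finite residue field is a finite ring. -/
theorem testAlg_finite [Finite (ResidueField 𝒪)]
    (hA : IsArtinianTestAlgebra 𝒪 A) : Finite A := by
  have := hA.isArtinian
  have := testAlg_finite_residueField hA
  have h : Finite (A ⧸ (⊥ : Ideal A)) := by
    rw [IsLocalRing.finite_quotient_iff]
    obtain ⟨n, hn⟩ := exists_maximalIdeal_pow_eq_bot A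
    exact ⟨n, hn.le⟩
  exact Finite.of_equiv _ (RingEquiv.quotientBot A).toEquiv

end Basic

end Fermat.Agent.S53Lib

namespace Fermat.Agent.S53Lib

open IsLocalRing GaloisRep

section LocalHom

variable {A C : Type} [CommRing A] [IsLocalRing A] [CommRing C] [Nontrivial C]

/-- A ring hom out of an Artinian local ring into a nontrivial ring is automatically local. -/
theorem isLocalHom_of_isArtinianRing [IsArtinianRing A] (f : A →+* C) : IsLocalHom f := by
  refine ⟨fun a ha => ?_⟩
  by_contra hna
  have hmem : a ∈ maximalIdeal A := hna
  obtain ⟨n, hn⟩ := exists_maximalIdeal_pow_eq_bot A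
  have h0 : a ^ n = 0 := by
    have : a ^ n ∈ maximalIdeal A ^ n := Ideal.pow_mem_pow hmem n
    rwa [hn, Ideal.mem_bot] at this
  have h1 : IsUnit (f a ^ n) := ha.pow n
  rw [← map_pow, h0, map_zero] at h1
  exact not_isUnit_zero h1

end LocalHom

end Fermat.Agent.S53Lib
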