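import Mathlib
import Fermat.Prelude.Def_GaloisRep_DeformationCondition
import Fermat.Agent.Lib.S53.TestAlgebra

/-!
# S53 library: fibre products of Artinian test algebras  (helper4)

For `𝒪`-algebra maps `f : A → C`, `g : B → C` between local rings we realise `A ×_C B` as the
equaliser subalgebra of `A × B`, show it is local, and an Artinian test algebra when `A`, `B` are.
-/

set_option autoImplicit false

namespace Fermat.Agent.S53Lib

open IsLocalRing GaloisRep

variable {𝒪 : Type} [CommRing 𝒪]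
variable {A B C : Type} [CommRing A] [CommRing B] [CommRing C]
  [Algebra 𝒪 A] [Algebra 𝒪 B] [Algebra 𝒪 C]

/-- The fibre product `A ×_C B` as a subalgebra of `A × B`. -/
def fibreProduct (f : A →ₐ[𝒪] C) (g : B →ₐ[𝒪] C) : Subalgebra 𝒪 (A × B) :=
  AlgHom.equalizer (f.comp (AlgHom.fst 𝒪 A B)) (g.comp (AlgHom.snd 𝒪 A B))

variable (f : A →ₐ[𝒪] C) (g : B →ₐ[𝒪] C)

theorem mem_fibreProduct {x : A × B} : x ∈ fibreProduct f g ↔ f x.1 = g x.2 := Iff.rfl

/-- First projection of the fibre product. -/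
def fpFst : fibreProduct f g →ₐ[𝒪] A := (AlgHom.fst 𝒪 A B).comp (fibreProduct f g).val

/-- Second projection of the fibre product. -/
def fpSnd : fibreProduct f g →ₐ[𝒪] B := (AlgHom.snd 𝒪 A B).comp (fibreProduct f g).val

@[simp] theorem fpFst_apply (x : fibreProduct f g) : fpFst f g x = (x : A × B).1 := rfl
@[simp] theorem fpSnd_apply (x : fibreProduct f g) : fpSnd f g x = (x : A × B).2 := rfl

theorem fp_comm : f.comp (fpFst f g) = g.comp (fpSnd f g) :=
  AlgHom.ext fun x => x.2

theorem fp_comm_apply (x : fibreProduct f g) : f (fpFst f g x) = g (fpSnd f g x) := x.2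

theorem fp_pair_injective : Function.Injective fun x : fibreProduct f g => (fpFst f g x, fpSnd f g x) :=
  fun _ _ h => Subtype.ext h

theorem fp_exists (a : A) (b : B) (h : f a = g b) :
    ∃ x : fibreProduct f g, fpFst f g x = a ∧ fpSnd f g x = b :=
  ⟨⟨(a, b), h⟩, rfl, rfl⟩

/-- Constructor for elements of the fibre product. -/
def fpMk (a : A) (b : B) (h : f a = g b) : fibreProduct f g := ⟨(a, b), h⟩

@[simp] theorem fpFst_fpMk (a : A) (b : B) (h : f a = g b) : fpFst f g (fpMk f g a b h) = a := rfl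
@[simp] theorem fpSnd_fpMk (a : A) (b : B) (h : f a = g b) : fpSnd f g (fpMk f g a b h) = b := rfl

theorem fp_ext {x y : fibreProduct f g} (h1 : fpFst f g x = fpFst f g y)
    (h2 : fpSnd f g x = fpSnd f g y) : x = y :=
  Subtype.ext (Prod.ext h1 h2)

theorem fpFst_surjective (hg : Function.Surjective g) : Function.Surjective (fpFst f g) := by
  intro a
  obtain ⟨b, hb⟩ := hg (f a)
  exact ⟨fpMk f g a b hb.symm, rfl⟩

theorem fpSnd_surjective (hf : Function.Surjective f) : Function.Surjective (fpSnd f g) := by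
  intro b
  obtain ⟨a, ha⟩ := hf (g b)
  exact ⟨fpMk f g a b ha, rfl⟩

section Local

variable [IsLocalRing A] [IsLocalRing B] [IsLocalRing C]
variable [hf : IsLocalHom (f : A →+* C)] [hg : IsLocalHom (g : B →+* C)]

theorem fp_isUnit_iff (x : fibreProduct f g) : IsUnit x ↔ IsUnit (fpFst f g x) := by
  constructor
  · intro h
    exact h.map (fpFst f g)
  · intro h
    have hfa : IsUnit (f (fpFst f g x)) := h.map f
    have hb : IsUnit (fpSnd f g x) := by
      rw [fp_comm_apply] at hfa
      exact hg.map_nonunit _ hfa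
    obtain ⟨u, hu⟩ := h
    obtain ⟨v, hv⟩ := hb
    have hcomm : f (↑u⁻¹ : A) = g (↑v⁻¹ : B) := by
      have h1 : f (↑u⁻¹ : A) * f (u : A) = 1 := by rw [← map_mul]; simp
      have h2 : g (↑v⁻¹ : B) * g (v : B) = 1 := by rw [← map_mul]; simp
      have h3 : f (u : A) = g (v : B) := by rw [hu, hv]; exact fp_comm_apply f g x
      calc f (↑u⁻¹ : A) = f (↑u⁻¹ : A) * (g (v : B) * g (↑v⁻¹ : B)) := by
            rw [mul_comm (g (v : B)), h2, mul_one]
        _ = (f (↑u⁻¹ : A) * f (u : A)) * g (↑v⁻¹ : B) := by rw [h3]; ring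
        _ = g (↑v⁻¹ : B) := by rw [h1, one_mul]
    refine IsUnit.of_mul_eq_one (fpMk f g _ _ hcomm) ?_
    apply fp_ext
    · show fpFst f g x * (↑u⁻¹ : A) = 1
      rw [← hu]; simp
    · show fpSnd f g x * (↑v⁻¹ : B) = 1
      rw [← hv]; simp

instance fp_nontrivial : Nontrivial (fibreProduct f g) :=
  ⟨⟨0, 1, fun h => zero_ne_one (α := A) (congrArg (fun x => fpFst f g x) h)⟩⟩

instance fp_isLocalRing : IsLocalRing (fibreProduct f g) :=
  IsLocalRing.of_isUnit_or_isUnit_one_sub_self fun x => by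
    rw [fp_isUnit_iff, fp_isUnit_iff, map_sub, map_one]
    exact IsLocalRing.isUnit_or_isUnit_one_sub_self _

instance fpFst_isLocalHom : IsLocalHom ((fpFst f g : fibreProduct f g →ₐ[𝒪] A) : fibreProduct f g →+* A) :=
  ⟨fun x hx => (fp_isUnit_iff f g x).mpr hx⟩

instance fpSnd_isLocalHom : IsLocalHom ((fpSnd f g : fibreProduct f g →ₐ[𝒪] B) : fibreProduct f g →+* B) :=
  ⟨fun x hx => by
    rw [fp_isUnit_iff]
    have h2 : IsUnit (g (fpSnd f g x)) := hx.map g
    rw [← fp_comm_apply] at h2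
    exact hf.map_nonunit _ h2⟩

theorem fp_mem_maximalIdeal_iff (x : fibreProduct f g) :
    x ∈ maximalIdeal (fibreProduct f g) ↔ fpFst f g x ∈ maximalIdeal A := by
  rw [mem_maximalIdeal, mem_maximalIdeal, mem_nonunits_iff, mem_nonunits_iff, fp_isUnit_iff]

end Local

section TestAlgebra

variable {𝒪' : Type} [CommRing 𝒪'] [IsLocalRing 𝒪']
variable {A' B' C' : Type} [CommRing A'] [CommRing B'] [CommRing C']
  [Algebra 𝒪' A'] [Algebra 𝒪' B'] [Algebra 𝒪' C'] [IsLocalRing A'] [IsLocalRing B'] [IsLocalRing C']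
variable (f' : A' →ₐ[𝒪'] C') (g' : B' →ₐ[𝒪'] C')

/-- The fibre product of two Artinian test algebras is an Artinian test algebra
(finite residue field version). -/
theorem fp_isArtinianTestAlgebra [Finite (ResidueField 𝒪')]
    [IsLocalHom (f' : A' →+* C')] [IsLocalHom (g' : B' →+* C')]
    (hA : IsArtinianTestAlgebra 𝒪' A') (hB : IsArtinianTestAlgebra 𝒪' B') :
    IsArtinianTestAlgebra 𝒪' (fibreProduct f' g') := by
  have hAfin : Finite A' := testAlg_finite hA
  have hBfin : Finite B' := testAlg_finite hB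
  have hfin : Finite (fibreProduct f' g') := Subtype.finite
  refine ⟨⟨fun x hx => ?_⟩, fun y => ?_, inferInstance⟩
  · have h1 : IsUnit (fpFst f' g' (algebraMap 𝒪' (fibreProduct f' g') x)) := hx.map _
    rw [AlgHom.commutes] at h1
    exact hA.isLocalHom.map_nonunit _ h1
  · obtain ⟨y, rfl⟩ := residue_surjective y
    obtain ⟨x, hx⟩ := hA.residue_surjective (residue A' (fpFst f' g' y))
    refine ⟨x, ?_⟩
    simp only [Function.comp_apply] at hx ⊢
    rw [← sub_eq_zero, ← map_sub, residue_eq_zero_iff] at hx ⊢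
    rw [fp_mem_maximalIdeal_iff, map_sub, AlgHom.commutes]
    exact hx

end TestAlgebra

end Fermat.Agent.S53Lib
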