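import Mathlib
import Fermat.Prelude.Def_GaloisRep_DeformationCondition
import Fermat.Agent.Lib.S53.TestAlgebra
import Fermat.Agent.Lib.S53.FibreProduct

/-!
# S53 library: augmentation of test algebras, fibre products over `k`, subalgebras  (helper4, E3)

* `augOf hloc hsurj : A →ₐ[𝒪] ResidueField 𝒪` for a local `𝒪`-algebra `A` with local structure map
  and `𝒪 → A/m_A` surjective;  `aug hA` for `hA : IsArtinianTestAlgebra 𝒪 A`.
* `isArtinianTestAlgebra_residueField : IsArtinianTestAlgebra 𝒪 (ResidueField 𝒪)`.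
* `Fk hA hB := fibreProduct (aug hA) (aug hB)` is an Artinian test algebra.
* Subalgebras of (finite) Artinian test algebras are Artinian test algebras.
-/

set_option autoImplicit false
set_option linter.unusedSectionVars false

namespace Fermat.Agent.S53Lib

open IsLocalRing GaloisRep

section Aug

variable {𝒪 : Type} [CommRing 𝒪] [IsLocalRing 𝒪]
variable {A : Type} [CommRing A] [IsLocalRing A] [Algebra 𝒪 A]

/-- `k = 𝒪/m → A/m_A` is bijective when `𝒪 → A/m_A` is onto. -/
theorem residueFieldMap_bijective (hloc : IsLocalHom (algebraMap 𝒪 A))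
    (hsurj : Function.Surjective (residue A ∘ algebraMap 𝒪 A)) :
    Function.Bijective (ResidueField.map (algebraMap 𝒪 A)) := by
  refine ⟨(ResidueField.map (algebraMap 𝒪 A)).injective, fun y => ?_⟩
  obtain ⟨c, hc⟩ := hsurj y
  exact ⟨residue 𝒪 c, hc⟩

/-- The identification of residue fields `𝒪/m ≃ A/m_A`. -/
noncomputable def residueFieldEquivOf (hloc : IsLocalHom (algebraMap 𝒪 A))
    (hsurj : Function.Surjective (residue A ∘ algebraMap 𝒪 A)) :
    ResidueField 𝒪 ≃+* ResidueField A :=
  RingEquiv.ofBijective (ResidueField.map (algebraMap 𝒪 A)) (residueFieldMap_bijective hloc hsurj)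

@[simp] theorem residueFieldEquivOf_apply (hloc : IsLocalHom (algebraMap 𝒪 A))
    (hsurj : Function.Surjective (residue A ∘ algebraMap 𝒪 A)) (x : ResidueField 𝒪) :
    residueFieldEquivOf hloc hsurj x = ResidueField.map (algebraMap 𝒪 A) x := rfl

/-- The augmentation `A → k = 𝒪/m` of a local `𝒪`-algebra with residue field `k`. -/
noncomputable def augOf (hloc : IsLocalHom (algebraMap 𝒪 A))
    (hsurj : Function.Surjective (residue A ∘ algebraMap 𝒪 A)) : A →ₐ[𝒪] ResidueField 𝒪 :=
  { ((residueFieldEquivOf hloc hsurj).symm : ResidueField A →+* ResidueField 𝒪).comp (residue A) with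
    commutes' := fun c => by
      show (residueFieldEquivOf hloc hsurj).symm (residue A (algebraMap 𝒪 A c)) =
        algebraMap 𝒪 (ResidueField 𝒪) c
      rw [RingEquiv.symm_apply_eq]
      rfl }

theorem augOf_apply (hloc : IsLocalHom (algebraMap 𝒪 A))
    (hsurj : Function.Surjective (residue A ∘ algebraMap 𝒪 A)) (a : A) :
    augOf hloc hsurj a = (residueFieldEquivOf hloc hsurj).symm (residue A a) := rfl

/-- `ι (aug a) = residue a` where `ι = ResidueField.map (algebraMap 𝒪 A)`. -/
@[simp] theorem residueFieldMap_augOf (hloc : IsLocalHom (algebraMap 𝒪 A))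
    (hsurj : Function.Surjective (residue A ∘ algebraMap 𝒪 A)) (a : A) :
    ResidueField.map (algebraMap 𝒪 A) (augOf hloc hsurj a) = residue A a := by
  rw [augOf_apply, ← residueFieldEquivOf_apply hloc hsurj, RingEquiv.apply_symm_apply]

@[simp] theorem augOf_algebraMap (hloc : IsLocalHom (algebraMap 𝒪 A))
    (hsurj : Function.Surjective (residue A ∘ algebraMap 𝒪 A)) (c : 𝒪) :
    augOf hloc hsurj (algebraMap 𝒪 A c) = residue 𝒪 c :=
  (augOf hloc hsurj).commutes c

theorem augOf_eq_iff (hloc : IsLocalHom (algebraMap 𝒪 A))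
    (hsurj : Function.Surjective (residue A ∘ algebraMap 𝒪 A)) (a : A) (x : ResidueField 𝒪) :
    augOf hloc hsurj a = x ↔ residue A a = ResidueField.map (algebraMap 𝒪 A) x := by
  rw [augOf_apply, RingEquiv.symm_apply_eq, residueFieldEquivOf_apply]

theorem augOf_eq_zero_iff (hloc : IsLocalHom (algebraMap 𝒪 A))
    (hsurj : Function.Surjective (residue A ∘ algebraMap 𝒪 A)) (a : A) :
    augOf hloc hsurj a = 0 ↔ a ∈ maximalIdeal A := by
  rw [augOf_eq_iff, map_zero, residue_eq_zero_iff]

theorem ker_augOf (hloc : IsLocalHom (algebraMap 𝒪 A))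
    (hsurj : Function.Surjective (residue A ∘ algebraMap 𝒪 A)) :
    RingHom.ker (augOf hloc hsurj : A →+* ResidueField 𝒪) = maximalIdeal A := by
  ext a
  rw [RingHom.mem_ker]
  exact augOf_eq_zero_iff hloc hsurj a

theorem augOf_surjective (hloc : IsLocalHom (algebraMap 𝒪 A))
    (hsurj : Function.Surjective (residue A ∘ algebraMap 𝒪 A)) :
    Function.Surjective (augOf hloc hsurj) := by
  intro x
  obtain ⟨c, rfl⟩ := residue_surjective x
  exact ⟨algebraMap 𝒪 A c, augOf_algebraMap hloc hsurj c⟩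

instance isLocalHom_augOf (hloc : IsLocalHom (algebraMap 𝒪 A))
    (hsurj : Function.Surjective (residue A ∘ algebraMap 𝒪 A)) :
    IsLocalHom ((augOf hloc hsurj : A →ₐ[𝒪] ResidueField 𝒪) : A →+* ResidueField 𝒪) :=
  ⟨fun a ha => by
    by_contra hna
    have h0 : augOf hloc hsurj a = 0 := (augOf_eq_zero_iff hloc hsurj a).mpr hna
    have ha' : IsUnit (augOf hloc hsurj a) := ha
    rw [h0] at ha'
    exact not_isUnit_zero ha'⟩

/-- Every `𝒪`-algebra homomorphism `A → k` is the augmentation. -/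
theorem algHom_residueField_eq_augOf (hloc : IsLocalHom (algebraMap 𝒪 A))
    (hsurj : Function.Surjective (residue A ∘ algebraMap 𝒪 A))
    (χ : A →ₐ[𝒪] ResidueField 𝒪) : χ = augOf hloc hsurj := by
  have hker : ∀ a ∈ maximalIdeal A, χ a = 0 := by
    intro a ha
    by_contra hne
    have hu : IsUnit (χ a) := isUnit_iff_ne_zero.mpr hne
    obtain ⟨c, hc⟩ := residue_surjective (hu.unit⁻¹ : (ResidueField 𝒪)ˣ).val
    have h1 : χ (a * algebraMap 𝒪 A c) = 1 := by
      rw [map_mul, AlgHom.commutes]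
      show χ a * residue 𝒪 c = 1
      rw [hc]
      exact hu.mul_val_inv
    have h2 : a * algebraMap 𝒪 A c ∈ maximalIdeal A := Ideal.mul_mem_right _ _ ha
    have h3 : IsUnit (1 - a * algebraMap 𝒪 A c) := by
      by_contra hnu
      have h4 : (1 - a * algebraMap 𝒪 A c) ∈ maximalIdeal A := hnu
      have h5 : (1 : A) ∈ maximalIdeal A := by
        have := Ideal.add_mem _ h4 h2
        rwa [sub_add_cancel] at this
      exact (Ideal.ne_top_iff_one _).mp (maximalIdeal.isMaximal A).ne_top h5
    have h6 : χ (1 - a * algebraMap 𝒪 A c) = 0 := by rw [map_sub, map_one, h1, sub_self]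
    have h7 := h3.map χ
    rw [h6] at h7
    exact not_isUnit_zero h7
  ext a
  obtain ⟨c, hc⟩ := hsurj (residue A a)
  simp only [Function.comp_apply] at hc
  have hmem : a - algebraMap 𝒪 A c ∈ maximalIdeal A := by
    rw [← residue_eq_zero_iff, map_sub, hc, sub_self]
  have h1 : χ a = χ (algebraMap 𝒪 A c) := by
    rw [← sub_eq_zero, ← map_sub]; exact hker _ hmem
  have h2 : augOf hloc hsurj a = augOf hloc hsurj (algebraMap 𝒪 A c) := by
    rw [← sub_eq_zero, ← map_sub]; exact (augOf_eq_zero_iff hloc hsurj _).mpr hmem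
  rw [h1, h2, AlgHom.commutes, AlgHom.commutes]

/-- Augmentations are compatible with all `𝒪`-algebra homomorphisms. -/
theorem augOf_comp {B : Type} [CommRing B] [IsLocalRing B] [Algebra 𝒪 B]
    (hloc : IsLocalHom (algebraMap 𝒪 A)) (hsurj : Function.Surjective (residue A ∘ algebraMap 𝒪 A))
    (hlocB : IsLocalHom (algebraMap 𝒪 B))
    (hsurjB : Function.Surjective (residue B ∘ algebraMap 𝒪 B)) (φ : A →ₐ[𝒪] B) :
    (augOf hlocB hsurjB).comp φ = augOf hloc hsurj :=
  algHom_residueField_eq_augOf hloc hsurj _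

theorem augOf_comp_apply {B : Type} [CommRing B] [IsLocalRing B] [Algebra 𝒪 B]
    (hloc : IsLocalHom (algebraMap 𝒪 A)) (hsurj : Function.Surjective (residue A ∘ algebraMap 𝒪 A))
    (hlocB : IsLocalHom (algebraMap 𝒪 B))
    (hsurjB : Function.Surjective (residue B ∘ algebraMap 𝒪 B)) (φ : A →ₐ[𝒪] B) (a : A) :
    augOf hlocB hsurjB (φ a) = augOf hloc hsurj a :=
  DFunLike.congr_fun (augOf_comp hloc hsurj hlocB hsurjB φ) a

/-- Any `𝒪`-algebra homomorphism between local `𝒪`-algebras with residue field `k` is local. -/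
theorem isLocalHom_of_algHom {B : Type} [CommRing B] [IsLocalRing B] [Algebra 𝒪 B]
    (hloc : IsLocalHom (algebraMap 𝒪 A)) (hsurj : Function.Surjective (residue A ∘ algebraMap 𝒪 A))
    (hlocB : IsLocalHom (algebraMap 𝒪 B))
    (hsurjB : Function.Surjective (residue B ∘ algebraMap 𝒪 B)) (φ : A →ₐ[𝒪] B) :
    IsLocalHom (φ : A →+* B) :=
  ⟨fun a ha => by
    have h1 : IsUnit (augOf hlocB hsurjB (φ a)) := IsUnit.map (augOf hlocB hsurjB) ha
    rw [augOf_comp_apply hloc hsurj hlocB hsurjB] at h1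
    exact (isLocalHom_augOf hloc hsurj).map_nonunit a h1⟩

/-- The augmentation of an Artinian test algebra. -/
noncomputable def aug (hA : IsArtinianTestAlgebra 𝒪 A) : A →ₐ[𝒪] ResidueField 𝒪 :=
  augOf hA.isLocalHom hA.residue_surjective

instance isLocalHom_aug (hA : IsArtinianTestAlgebra 𝒪 A) :
    IsLocalHom ((aug hA : A →ₐ[𝒪] ResidueField 𝒪) : A →+* ResidueField 𝒪) :=
  isLocalHom_augOf _ _

/-- The residue field `k` is an Artinian test algebra. -/
theorem isArtinianTestAlgebra_residueField : IsArtinianTestAlgebra 𝒪 (ResidueField 𝒪) where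
  isLocalHom := inferInstanceAs (IsLocalHom (residue 𝒪))
  residue_surjective := fun y => by
    obtain ⟨x, rfl⟩ := residue_surjective y
    obtain ⟨c, rfl⟩ := residue_surjective x
    exact ⟨c, rfl⟩
  isArtinian := inferInstance

end Aug

/-! ## Fibre products over the residue field -/
section Fk

variable {𝒪 : Type} [CommRing 𝒪] [IsLocalRing 𝒪]
variable {A B : Type} [CommRing A] [IsLocalRing A] [Algebra 𝒪 A]
  [CommRing B] [IsLocalRing B] [Algebra 𝒪 B]

/-- The fibre product `A ×_k B` of two Artinian test algebras over the residue field. -/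
noncomputable abbrev Fk (hA : IsArtinianTestAlgebra 𝒪 A) (hB : IsArtinianTestAlgebra 𝒪 B) :
    Subalgebra 𝒪 (A × B) :=
  fibreProduct (aug hA) (aug hB)

variable (hA : IsArtinianTestAlgebra 𝒪 A) (hB : IsArtinianTestAlgebra 𝒪 B)

/-- first projection `A ×_k B → A` -/
noncomputable abbrev fkFst : Fk hA hB →ₐ[𝒪] A := fpFst (aug hA) (aug hB)

/-- second projection `A ×_k B → B` -/
noncomputable abbrev fkSnd : Fk hA hB →ₐ[𝒪] B := fpSnd (aug hA) (aug hB)

example : IsLocalRing (Fk hA hB) := inferInstance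
example : IsLocalHom ((fkFst hA hB : Fk hA hB →ₐ[𝒪] A) : Fk hA hB →+* A) := inferInstance
example : IsLocalHom ((fkSnd hA hB : Fk hA hB →ₐ[𝒪] B) : Fk hA hB →+* B) := inferInstance

theorem fk_isArtinianTestAlgebra [Finite (ResidueField 𝒪)] :
    IsArtinianTestAlgebra 𝒪 (Fk hA hB) :=
  fp_isArtinianTestAlgebra (aug hA) (aug hB) hA hB

theorem fkFst_surjective : Function.Surjective (fkFst hA hB) :=
  fpFst_surjective _ _ (augOf_surjective _ _)

theorem fkSnd_surjective : Function.Surjective (fkSnd hA hB) :=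
  fpSnd_surjective _ _ (augOf_surjective _ _)

/-- A deformation condition passes to representations over `A ×_k B` whose two projections
satisfy it. -/
theorem of_fk [Finite (ResidueField 𝒪)]
    {𝒟 : ∀ ⦃A : Type⦄ [CommRing A] [IsLocalRing A] [Algebra 𝒪 A], GaloisRepAdic A → Prop}
    (h𝒟 : IsDeformationCondition 𝒪 𝒟) (ρ : GaloisRepAdic (Fk hA hB))
    (h1 : 𝒟 (ρ.baseChangeAlong ((fkFst hA hB : Fk hA hB →ₐ[𝒪] A) : Fk hA hB →+* A) inferInstance))
    (h2 : 𝒟 (ρ.baseChangeAlong ((fkSnd hA hB : Fk hA hB →ₐ[𝒪] B) : Fk hA hB →+* B) inferInstance)) :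
    𝒟 ρ :=
  h𝒟.of_fibreProduct hA hB isArtinianTestAlgebra_residueField (fk_isArtinianTestAlgebra hA hB)
    (aug hA) (aug hB) (fkFst hA hB) (fkSnd hA hB) inferInstance inferInstance
    (fp_comm _ _) (fp_pair_injective _ _) (fp_exists _ _) h1 h2

end Fk

/-! ## Subalgebras of test algebras -/
section Sub

variable {𝒪 : Type} [CommRing 𝒪] [IsLocalRing 𝒪]
variable {A : Type} [CommRing A] [IsLocalRing A] [Algebra 𝒪 A]

/-- In a finite ring, a subalgebra contains the inverses of its elements that are units. -/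
theorem subalgebra_isUnit_iff [Finite A] (S : Subalgebra 𝒪 A) (x : S) :
    IsUnit x ↔ IsUnit (x : A) := by
  constructor
  · intro h
    exact h.map S.val
  · rintro ⟨u, hu⟩
    obtain ⟨n, hn, hun⟩ := isOfFinOrder_iff_pow_eq_one.mp (isOfFinOrder_of_finite u)
    have h1 : (x : A) ^ n = 1 := by
      rw [← hu, ← Units.val_pow_eq_pow_val, hun, Units.val_one]
    refine IsUnit.of_mul_eq_one (x ^ (n - 1)) ?_
    apply Subtype.ext
    show (x : A) * (x : A) ^ (n - 1) = 1
    rw [← pow_succ', Nat.sub_add_cancel hn, h1]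

instance subalgebra_isLocalRing [Finite A] (S : Subalgebra 𝒪 A) : IsLocalRing S :=
  IsLocalRing.of_isUnit_or_isUnit_one_sub_self fun x => by
    rw [subalgebra_isUnit_iff, subalgebra_isUnit_iff]
    exact IsLocalRing.isUnit_or_isUnit_one_sub_self (x : A)

instance subalgebra_val_isLocalHom [Finite A] (S : Subalgebra 𝒪 A) :
    IsLocalHom ((S.val : S →ₐ[𝒪] A) : S →+* A) :=
  ⟨fun x hx => (subalgebra_isUnit_iff S x).mpr hx⟩

theorem subalgebra_mem_maximalIdeal_iff [Finite A] (S : Subalgebra 𝒪 A) (x : S) :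
    x ∈ maximalIdeal S ↔ (x : A) ∈ maximalIdeal A := by
  rw [mem_maximalIdeal, mem_maximalIdeal, mem_nonunits_iff, mem_nonunits_iff, subalgebra_isUnit_iff]

/-- A subalgebra of a finite Artinian test algebra is an Artinian test algebra. -/
theorem subalgebra_isArtinianTestAlgebra [Finite A] (hA : IsArtinianTestAlgebra 𝒪 A)
    (S : Subalgebra 𝒪 A) : IsArtinianTestAlgebra 𝒪 S := by
  refine ⟨⟨fun c hc => ?_⟩, fun y => ?_, inferInstance⟩
  · have h1 : IsUnit ((algebraMap 𝒪 S c : S) : A) := hc.map S.val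
    exact hA.isLocalHom.map_nonunit c h1
  · obtain ⟨y, rfl⟩ := residue_surjective y
    obtain ⟨c, hc⟩ := hA.residue_surjective (residue A (y : A))
    refine ⟨c, ?_⟩
    simp only [Function.comp_apply] at hc ⊢
    rw [← sub_eq_zero, ← map_sub, residue_eq_zero_iff] at hc ⊢
    rw [subalgebra_mem_maximalIdeal_iff]
    exact hc

/-- Version for `IsArtinianTestAlgebra` with finite residue field (finiteness of `A` automatic). -/
theorem subalgebra_isArtinianTestAlgebra' [Finite (ResidueField 𝒪)]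
    (hA : IsArtinianTestAlgebra 𝒪 A) (S : Subalgebra 𝒪 A) :
    haveI : Finite A := testAlg_finite hA
    IsArtinianTestAlgebra 𝒪 S :=
  haveI : Finite A := testAlg_finite hA
  subalgebra_isArtinianTestAlgebra hA S

end Sub

end Fermat.Agent.S53Lib
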