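import Mathlib
import Fermat.Prelude.Def_GaloisRep_DeformationCondition

set_option autoImplicit false
set_option linter.style.haveILetI false
set_option linter.unusedSectionVars false

/-!
# Separation of subalgebras of Artinian test algebras by dual-number points

If `A` is an Artinian test algebra over `𝒪` (local, local structure map, residue field of `𝒪`
surjects onto the residue field of `A`) and `B` is a proper `𝒪`-subalgebra of `A`, then there are
two distinct ring homomorphisms `A → k[ε]` (`k` the residue field of `𝒪`) compatible with the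
`𝒪`-structures which agree on `B`.
-/

noncomputable section

namespace Fermat.Agent.S53Lib

open IsLocalRing

section Nakayama

variable {A : Type*} [CommRing A] [IsLocalRing A]

/-- A subring `B` of a local ring with `B + 𝔪² = A` satisfies `B + 𝔪ⁿ = A` for all `n ≥ 1`. -/
theorem subring_add_pow_eq_top (B : Subring A)
    (h2 : ∀ a : A, ∃ b ∈ B, a - b ∈ maximalIdeal A ^ 2) :
    ∀ n : ℕ, 1 ≤ n → ∀ a : A, ∃ b ∈ B, a - b ∈ maximalIdeal A ^ n := by
  intro n hn
  induction n, hn using Nat.le_induction with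
  | base =>
    intro a
    obtain ⟨b, hb, hab⟩ := h2 a
    exact ⟨b, hb, Ideal.pow_le_pow_right (by norm_num) hab⟩
  | succ n hn ih =>
    -- first show `𝔪ⁿ ⊆ B + 𝔪ⁿ⁺¹`
    have key : ∀ y ∈ maximalIdeal A ^ n, ∃ b ∈ B, y - b ∈ maximalIdeal A ^ (n + 1) := by
      intro y hy
      rcases Nat.lt_or_ge n 2 with hlt | hge
      · -- n = 1
        have hn1 : n = 1 := by omega
        subst hn1
        obtain ⟨b, hb, hab⟩ := h2 y
        exact ⟨b, hb, hab⟩
      · obtain ⟨m, rfl⟩ : ∃ m, n = m + 1 := ⟨n - 1, by omega⟩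
        rw [pow_succ'] at hy
        refine Submodule.mul_induction_on hy ?_ ?_
        · intro x hx z hz
          obtain ⟨b₁, hb₁, hx₂⟩ := h2 x
          obtain ⟨b₂, hb₂, hz'⟩ := ih z
          refine ⟨b₁ * b₂, B.mul_mem hb₁ hb₂, ?_⟩
          have hb₁m : b₁ ∈ maximalIdeal A := by
            have : b₁ = x - (x - b₁) := by ring
            rw [this]
            exact Ideal.sub_mem _ hx (Ideal.pow_le_self (by norm_num) hx₂)
          have hb₂m : b₂ ∈ maximalIdeal A ^ m := by
            have : b₂ = z - (z - b₂) := by ring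
            rw [this]
            exact Ideal.sub_mem _ hz (Ideal.pow_le_pow_right (by omega) hz')
          have e : x * z - b₁ * b₂ = b₁ * (z - b₂) + (x - b₁) * b₂ + (x - b₁) * (z - b₂) := by ring
          rw [e]
          have h1 : b₁ * (z - b₂) ∈ maximalIdeal A ^ (m + 1 + 1) := by
            rw [pow_succ' _ (m + 1)]
            exact Ideal.mul_mem_mul hb₁m hz'
          have h2' : (x - b₁) * b₂ ∈ maximalIdeal A ^ (m + 1 + 1) := by
            have : (x - b₁) * b₂ ∈ maximalIdeal A ^ 2 * maximalIdeal A ^ m :=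
              Ideal.mul_mem_mul hx₂ hb₂m
            rw [← pow_add] at this
            exact Ideal.pow_le_pow_right (by omega) this
          have h3 : (x - b₁) * (z - b₂) ∈ maximalIdeal A ^ (m + 1 + 1) := by
            have : (x - b₁) * (z - b₂) ∈ maximalIdeal A ^ 2 * maximalIdeal A ^ (m + 1) :=
              Ideal.mul_mem_mul hx₂ hz'
            rw [← pow_add] at this
            exact Ideal.pow_le_pow_right (by omega) this
          exact Ideal.add_mem _ (Ideal.add_mem _ h1 h2') h3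
        · rintro y₁ y₂ ⟨b₁, hb₁, h₁⟩ ⟨b₂, hb₂, h₂⟩
          refine ⟨b₁ + b₂, B.add_mem hb₁ hb₂, ?_⟩
          have : y₁ + y₂ - (b₁ + b₂) = (y₁ - b₁) + (y₂ - b₂) := by ring
          rw [this]
          exact Ideal.add_mem _ h₁ h₂
    intro a
    obtain ⟨b, hb, hab⟩ := ih a
    obtain ⟨b', hb', hab'⟩ := key _ hab
    refine ⟨b + b', B.add_mem hb hb', ?_⟩
    have : a - (b + b') = a - b - b' := by ring
    rw [this]
    exact hab'

/-- In an Artinian local ring, a subring `B` with `B + 𝔪² = A` is everything. -/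
theorem subring_eq_top_of_add_sq_eq_top [IsArtinianRing A] (B : Subring A)
    (h2 : ∀ a : A, ∃ b ∈ B, a - b ∈ maximalIdeal A ^ 2) : B = ⊤ := by
  obtain ⟨n, hn⟩ : ∃ n : ℕ, maximalIdeal A ^ n = ⊥ := by
    have h := IsArtinianRing.isNilpotent_jacobson_bot (R := A)
    rw [IsLocalRing.jacobson_eq_maximalIdeal ⊥ bot_ne_top] at h
    exact h
  rw [eq_top_iff]
  intro a _
  obtain ⟨b, hb, hab⟩ := subring_add_pow_eq_top B h2 (n + 1) (by omega) a
  have : maximalIdeal A ^ (n + 1) = ⊥ := by
    rw [pow_succ, hn, Ideal.bot_mul]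
  rw [this, Ideal.mem_bot, sub_eq_zero] at hab
  rw [hab]; exact hb

end Nakayama

section Separation

variable {𝒪 : Type} [CommRing 𝒪] [IsLocalRing 𝒪]
variable {A : Type} [CommRing A] [IsLocalRing A] [Algebra 𝒪 A]

/-- Every element of a test algebra is congruent mod `𝔪_A` to a scalar from `𝒪`. -/
theorem testAlg_exists_scalar (hA : GaloisRep.IsArtinianTestAlgebra 𝒪 A) (a : A) :
    ∃ c : 𝒪, a - algebraMap 𝒪 A c ∈ maximalIdeal A := by
  obtain ⟨c, hc⟩ := hA.residue_surjective (residue A a)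
  refine ⟨c, ?_⟩
  rw [← Ideal.Quotient.eq_zero_iff_mem]
  have : residue A (a - algebraMap 𝒪 A c) = 0 := by
    rw [map_sub, ← hc]; simp
  exact this

/-- For a test algebra, the residue field of `𝒪` is identified with the residue field of `A`. -/
def testAlgResidueEquiv (hA : GaloisRep.IsArtinianTestAlgebra 𝒪 A) :
    ResidueField 𝒪 ≃+* ResidueField A :=
  haveI := hA.isLocalHom
  RingEquiv.ofBijective (ResidueField.map (algebraMap 𝒪 A))
    ⟨(ResidueField.map (algebraMap 𝒪 A)).injective, by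
      intro y
      obtain ⟨c, hc⟩ := hA.residue_surjective y
      exact ⟨residue 𝒪 c, by rw [ResidueField.map_residue]; exact hc⟩⟩

theorem testAlgResidueEquiv_residue (hA : GaloisRep.IsArtinianTestAlgebra 𝒪 A) (c : 𝒪) :
    testAlgResidueEquiv hA (residue 𝒪 c) = residue A (algebraMap 𝒪 A c) := by
  haveI := hA.isLocalHom
  exact ResidueField.map_residue (algebraMap 𝒪 A) c

/-- The canonical augmentation of a test algebra onto the residue field of `𝒪`. -/
def testAlgAug (hA : GaloisRep.IsArtinianTestAlgebra 𝒪 A) : A →+* ResidueField 𝒪 :=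
  ((testAlgResidueEquiv hA).symm : ResidueField A →+* ResidueField 𝒪).comp (residue A)

theorem testAlgAug_apply (hA : GaloisRep.IsArtinianTestAlgebra 𝒪 A) (a : A) :
    testAlgAug hA a = (testAlgResidueEquiv hA).symm (residue A a) := rfl

theorem testAlgAug_algebraMap (hA : GaloisRep.IsArtinianTestAlgebra 𝒪 A) (c : 𝒪) :
    testAlgAug hA (algebraMap 𝒪 A c) = residue 𝒪 c := by
  rw [testAlgAug_apply, ← testAlgResidueEquiv_residue hA, RingEquiv.symm_apply_apply]

theorem testAlgAug_eq_zero_iff (hA : GaloisRep.IsArtinianTestAlgebra 𝒪 A) (a : A) :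
    testAlgAug hA a = 0 ↔ a ∈ maximalIdeal A := by
  rw [testAlgAug_apply, map_eq_zero_iff _ (testAlgResidueEquiv hA).symm.injective]
  exact residue_eq_zero_iff a

theorem testAlgAug_eq_of_sub_mem (hA : GaloisRep.IsArtinianTestAlgebra 𝒪 A) {a : A} {c : 𝒪}
    (h : a - algebraMap 𝒪 A c ∈ maximalIdeal A) : testAlgAug hA a = residue 𝒪 c := by
  rw [← testAlgAug_algebraMap hA c, ← sub_eq_zero, ← map_sub, testAlgAug_eq_zero_iff]
  exact h

/-- Key existence statement: a proper `𝒪`-subalgebra of a test algebra is killed by a nonzero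
"derivation" `D : A → k` (additive, `𝒪`-semilinear, Leibniz with respect to the augmentation). -/
theorem exists_derivation_of_adjoin_ne_top (hA : GaloisRep.IsArtinianTestAlgebra 𝒪 A)
    (B : Subalgebra 𝒪 A) (hB : B ≠ ⊤) :
    ∃ D : A →+ ResidueField 𝒪,
      (∃ a₀, D a₀ ≠ 0) ∧ (∀ b ∈ B, D b = 0) ∧
      (∀ a b : A, D (a * b) = testAlgAug hA a * D b + testAlgAug hA b * D a) := by
  classical
  haveI := hA.isLocalHom
  haveI := hA.isArtinian
  -- the submodule `N = B + 𝔪²`
  set N : Submodule 𝒪 A :=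
    Subalgebra.toSubmodule B ⊔ (maximalIdeal A ^ 2).restrictScalars 𝒪 with hN
  have hBN : ∀ b ∈ B, b ∈ N := fun b hb => Submodule.mem_sup_left hb
  have hsqN : ∀ y ∈ maximalIdeal A ^ 2, y ∈ N := fun y hy => Submodule.mem_sup_right hy
  -- `N ≠ ⊤`
  obtain ⟨a₀, ha₀⟩ : ∃ a₀ : A, a₀ ∉ N := by
    by_contra hall
    push Not at hall
    apply hB
    have : B.toSubring = ⊤ := by
      apply subring_eq_top_of_add_sq_eq_top
      intro a
      obtain ⟨b, hb, y, hy, hby⟩ := Submodule.mem_sup.mp (hall a)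
      refine ⟨b, hb, ?_⟩
      have : a - b = y := by rw [← hby]; ring
      rw [this]; exact hy
    rw [eq_top_iff]
    intro a _
    have : a ∈ B.toSubring := by rw [this]; trivial
    exact this
  -- `𝔪_𝒪 A ⊆ N`
  have hmN : ∀ c ∈ maximalIdeal 𝒪, ∀ a : A, c • a ∈ N := by
    intro c hc a
    obtain ⟨c', hc'⟩ := testAlg_exists_scalar hA a
    have hcm : algebraMap 𝒪 A c ∈ maximalIdeal A := by
      have : ¬ IsUnit (algebraMap 𝒪 A c) := fun hu =>
        (mem_maximalIdeal c).mp hc (isUnit_of_map_unit (algebraMap 𝒪 A) c hu)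
      exact (mem_maximalIdeal _).mpr this
    have e : c • a = algebraMap 𝒪 A (c * c') + algebraMap 𝒪 A c * (a - algebraMap 𝒪 A c') := by
      rw [Algebra.smul_def, map_mul]; ring
    rw [e]
    refine N.add_mem (hBN _ (B.algebraMap_mem _)) (hsqN _ ?_)
    rw [pow_two]
    exact Ideal.mul_mem_mul hcm hc'
  -- the quotient is a `k`-vector space
  have htors : Module.IsTorsionBySet 𝒪 (A ⧸ N) (maximalIdeal 𝒪 : Set 𝒪) := by
    intro q c
    obtain ⟨a, rfl⟩ := N.mkQ_surjective q
    show (c : 𝒪) • N.mkQ a = 0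
    rw [← map_smul, Submodule.mkQ_apply, Submodule.Quotient.mk_eq_zero]
    exact hmN c c.2 a
  letI : Module (ResidueField 𝒪) (A ⧸ N) := htors.module
  have hq₀ : N.mkQ a₀ ≠ 0 := by
    rw [Submodule.mkQ_apply, Ne, Submodule.Quotient.mk_eq_zero]; exact ha₀
  obtain ⟨f, hf⟩ := Module.Projective.exists_dual_ne_zero (ResidueField 𝒪) hq₀
  -- the additive map `D`
  let D : A →+ ResidueField 𝒪 :=
    { toFun := fun a => f (N.mkQ a)
      map_zero' := by simp
      map_add' := fun a b => by simp }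
  have hD : ∀ a, D a = f (N.mkQ a) := fun a => rfl
  have hDN : ∀ y ∈ N, D y = 0 := by
    intro y hy
    rw [hD, Submodule.mkQ_apply, (Submodule.Quotient.mk_eq_zero N).mpr hy, map_zero]
  have hDsmul : ∀ (c : 𝒪) (a : A), D (algebraMap 𝒪 A c * a) = residue 𝒪 c * D a := by
    intro c a
    rw [hD, hD, ← Algebra.smul_def, map_smul]
    have : (c • N.mkQ a : A ⧸ N) = (residue 𝒪 c) • N.mkQ a :=
      (Module.IsTorsionBySet.mk_smul htors c (N.mkQ a)).symm
    rw [this, map_smul, smul_eq_mul]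
  refine ⟨D, ⟨a₀, hf⟩, fun b hb => hDN b (hBN b hb), ?_⟩
  intro a b
  obtain ⟨c, hc⟩ := testAlg_exists_scalar hA a
  obtain ⟨c', hc'⟩ := testAlg_exists_scalar hA b
  rw [testAlgAug_eq_of_sub_mem hA hc, testAlgAug_eq_of_sub_mem hA hc']
  have hDa : D a = D (a - algebraMap 𝒪 A c) := by
    rw [map_sub, hDN _ (hBN _ (B.algebraMap_mem c)), sub_zero]
  have hDb : D b = D (b - algebraMap 𝒪 A c') := by
    rw [map_sub, hDN _ (hBN _ (B.algebraMap_mem c')), sub_zero]
  have e : a * b = algebraMap 𝒪 A (c * c') + algebraMap 𝒪 A c * (b - algebraMap 𝒪 A c')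
      + algebraMap 𝒪 A c' * (a - algebraMap 𝒪 A c)
      + (a - algebraMap 𝒪 A c) * (b - algebraMap 𝒪 A c') := by
    rw [map_mul]; ring
  have h1 : D (algebraMap 𝒪 A (c * c')) = 0 := hDN _ (hBN _ (B.algebraMap_mem _))
  have h2 : D (algebraMap 𝒪 A c * (b - algebraMap 𝒪 A c')) = residue 𝒪 c * D b := by
    rw [hDsmul, ← hDb]
  have h3 : D (algebraMap 𝒪 A c' * (a - algebraMap 𝒪 A c)) = residue 𝒪 c' * D a := by
    rw [hDsmul, ← hDa]
  have h4 : D ((a - algebraMap 𝒪 A c) * (b - algebraMap 𝒪 A c')) = 0 :=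
    hDN _ (hsqN _ (by rw [pow_two]; exact Ideal.mul_mem_mul hc hc'))
  rw [e, map_add, map_add, map_add, h1, h2, h3, h4]
  ring

/-- The ring homomorphism `A → k[ε]`, `a ↦ aug a + D a ε` attached to a "derivation". -/
def dualNumberHomOfDerivation (hA : GaloisRep.IsArtinianTestAlgebra 𝒪 A)
    (D : A →+ ResidueField 𝒪) (hD1 : D 1 = 0)
    (hD : ∀ a b : A, D (a * b) = testAlgAug hA a * D b + testAlgAug hA b * D a) :
    A →+* DualNumber (ResidueField 𝒪) where
  toFun a := TrivSqZeroExt.inl (testAlgAug hA a) + TrivSqZeroExt.inr (D a)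
  map_one' := by rw [map_one, hD1, TrivSqZeroExt.inr_zero, add_zero]; rfl
  map_mul' a b := by
    apply TrivSqZeroExt.ext
    · simp
    · simp only [TrivSqZeroExt.snd_add, TrivSqZeroExt.snd_inl, TrivSqZeroExt.snd_inr, zero_add,
        TrivSqZeroExt.snd_mul, TrivSqZeroExt.fst_add, TrivSqZeroExt.fst_inl,
        TrivSqZeroExt.fst_inr, add_zero, smul_eq_mul, MulOpposite.smul_eq_mul_unop,
        MulOpposite.unop_op]
      rw [hD]; ring
  map_zero' := by simp
  map_add' a b := by
    apply TrivSqZeroExt.ext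
    · simp
    · simp [add_comm]

theorem dualNumberHomOfDerivation_apply (hA : GaloisRep.IsArtinianTestAlgebra 𝒪 A)
    (D : A →+ ResidueField 𝒪) (hD1 : D 1 = 0)
    (hD : ∀ a b : A, D (a * b) = testAlgAug hA a * D b + testAlgAug hA b * D a) (a : A) :
    dualNumberHomOfDerivation hA D hD1 hD a =
      TrivSqZeroExt.inl (testAlgAug hA a) + TrivSqZeroExt.inr (D a) := rfl

/-- **Tangent separation.** If `S ⊆ A` does not generate the test algebra `A` over `𝒪`, there are
two distinct ring homomorphisms `A → k[ε]`, both compatible with the `𝒪`-structure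
`𝒪 → k → k[ε]`, agreeing on `S`. -/
theorem exists_dualNumber_points_of_adjoin_ne_top (hA : GaloisRep.IsArtinianTestAlgebra 𝒪 A)
    (S : Set A) (hS : Algebra.adjoin 𝒪 S ≠ ⊤) :
    ∃ χ₁ χ₂ : A →+* DualNumber (ResidueField 𝒪),
      χ₁ ≠ χ₂ ∧ (∀ s ∈ S, χ₁ s = χ₂ s) ∧
      (∀ c : 𝒪, χ₁ (algebraMap 𝒪 A c) =
        algebraMap (ResidueField 𝒪) (DualNumber (ResidueField 𝒪)) (residue 𝒪 c)) ∧
      (∀ c : 𝒪, χ₂ (algebraMap 𝒪 A c) =
        algebraMap (ResidueField 𝒪) (DualNumber (ResidueField 𝒪)) (residue 𝒪 c)) := by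
  obtain ⟨D, ⟨a₀, ha₀⟩, hDB, hDmul⟩ := exists_derivation_of_adjoin_ne_top hA _ hS
  have hD1 : D 1 = 0 := hDB 1 (Subalgebra.one_mem _)
  have hD0 : ∀ a b : A, (0 : A →+ ResidueField 𝒪) (a * b) =
      testAlgAug hA a * (0 : A →+ ResidueField 𝒪) b
        + testAlgAug hA b * (0 : A →+ ResidueField 𝒪) a := by
    intro a b; simp
  refine ⟨dualNumberHomOfDerivation hA D hD1 hDmul,
    dualNumberHomOfDerivation hA (0 : A →+ ResidueField 𝒪) rfl hD0, ?_, ?_, ?_, ?_⟩
  · intro h
    have := congrArg TrivSqZeroExt.snd (RingHom.congr_fun h a₀)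
    simp only [dualNumberHomOfDerivation_apply, TrivSqZeroExt.snd_add, TrivSqZeroExt.snd_inl,
      TrivSqZeroExt.snd_inr, zero_add, AddMonoidHom.zero_apply] at this
    exact ha₀ this
  · intro s hs
    rw [dualNumberHomOfDerivation_apply, dualNumberHomOfDerivation_apply,
      hDB s (Algebra.subset_adjoin hs)]
    rfl
  · intro c
    rw [dualNumberHomOfDerivation_apply, hDB _ (Subalgebra.algebraMap_mem _ c),
      testAlgAug_algebraMap, TrivSqZeroExt.inr_zero, add_zero]
    rfl
  · intro c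
    rw [dualNumberHomOfDerivation_apply, testAlgAug_algebraMap, AddMonoidHom.zero_apply,
      TrivSqZeroExt.inr_zero, add_zero]
    rfl

end Separation

end Fermat.Agent.S53Lib
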