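import Mathlib
import Fermat.Prelude.Def_GaloisRep_DeformationCondition
import Fermat.Agent.Lib.S53.TangentSeparation

set_option autoImplicit false
set_option linter.style.haveILetI false
set_option linter.unusedSectionVars false

/-!
# `TangentFinite` gives finitely many tangent trace functions
-/

noncomputable section

namespace Fermat.Agent.S53Lib

open IsLocalRing

local notation "Γℚ" => (AlgebraicClosure ℚ ≃ₐ[ℚ] AlgebraicClosure ℚ)

variable (𝒪 : Type) [CommRing 𝒪] [IsLocalRing 𝒪]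

/-- The `𝒪`-algebra structure on `k[ε]` used in `GaloisRep.TangentFinite` (through `k`). -/
@[reducible] def dualNumberAlgebra : Algebra 𝒪 (DualNumber (ResidueField 𝒪)) :=
  ((algebraMap (ResidueField 𝒪) (DualNumber (ResidueField 𝒪))).comp
    (algebraMap 𝒪 (ResidueField 𝒪))).toAlgebra

/-- The `k`-algebra structure on the residue field of `k[ε]` used in `GaloisRep.TangentFinite`. -/
@[reducible] def dualNumberResidueAlgebra :
    Algebra (ResidueField 𝒪) (ResidueField (DualNumber (ResidueField 𝒪))) :=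
  ((IsLocalRing.residue (DualNumber (ResidueField 𝒪))).comp
    (algebraMap (ResidueField 𝒪) (DualNumber (ResidueField 𝒪)))).toAlgebra

variable {𝒪}

/-- Trace functions are invariant under equivalence of representations. -/
theorem trace_eq_of_equiv {A : Type} [CommRing A] [IsLocalRing A] {ρ₁ ρ₂ : GaloisRepAdic A}
    (e : GaloisRepAdic.Equiv ρ₁ ρ₂) (σ : Γℚ) :
    LinearMap.trace A ρ₁.V (ρ₁.ρ σ) = LinearMap.trace A ρ₂.V (ρ₂.ρ σ) := by
  have h : ρ₂.ρ σ = e.toLinearEquiv.conj (ρ₁.ρ σ) := by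
    ext x
    rw [LinearEquiv.conj_apply_apply, e.map_apply, LinearEquiv.apply_symm_apply]
  rw [h, LinearMap.trace_conj']

/-- If the tangent space is finite (`GaloisRep.TangentFinite`), only finitely many functions
`Γℚ → k[ε]` occur as trace functions of `𝒟`-deformations of `ρbar` to `k[ε]`. -/
theorem tangentTraces_finite (ρbar : ResidualGaloisRep (ResidueField 𝒪))
    (𝒟 : ∀ ⦃A : Type⦄ [CommRing A] [IsLocalRing A] [Algebra 𝒪 A], GaloisRepAdic A → Prop)
    (hfin : GaloisRep.TangentFinite 𝒪 ρbar 𝒟) :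
    letI := dualNumberAlgebra 𝒪
    letI := dualNumberResidueAlgebra 𝒪
    Set.Finite {t : Γℚ → DualNumber (ResidueField 𝒪) |
      ∃ ρ : GaloisRepAdic (DualNumber (ResidueField 𝒪)), 𝒟 ρ ∧
        ρ.residual.IsEquiv (ρbar.baseChange (ResidueField (DualNumber (ResidueField 𝒪)))) ∧
        ∀ σ, t σ = LinearMap.trace _ ρ.V (ρ.ρ σ)} := by
  letI := dualNumberAlgebra 𝒪
  letI := dualNumberResidueAlgebra 𝒪
  let st : Setoid {ρ : GaloisRepAdic (DualNumber (ResidueField 𝒪)) //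
      𝒟 ρ ∧ ρ.residual.IsEquiv (ρbar.baseChange (ResidueField (DualNumber (ResidueField 𝒪)))) } :=
    ⟨fun ρ ρ' => ρ.1.IsEquiv ρ'.1, ⟨fun ρ => ⟨GaloisRepAdic.Equiv.refl ρ.1⟩,
        fun ⟨e⟩ => ⟨e.symm⟩, fun ⟨e⟩ ⟨e'⟩ => ⟨e.trans e'⟩⟩⟩
  haveI hfin' : Finite (Quotient st) := hfin
  let T : {ρ : GaloisRepAdic (DualNumber (ResidueField 𝒪)) //
      𝒟 ρ ∧ ρ.residual.IsEquiv (ρbar.baseChange (ResidueField (DualNumber (ResidueField 𝒪)))) } →
      (Γℚ → DualNumber (ResidueField 𝒪)) := fun ρ σ => LinearMap.trace _ ρ.1.V (ρ.1.ρ σ)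
  have hT : ∀ ρ ρ', st.r ρ ρ' → T ρ = T ρ' := by
    rintro ρ ρ' ⟨e⟩
    funext σ
    exact trace_eq_of_equiv e σ
  refine (Set.finite_range (Quotient.lift (s := st) T hT)).subset ?_
  rintro t ⟨ρ, h1, h2, h3⟩
  exact ⟨Quotient.mk st ⟨ρ, h1, h2⟩, funext fun σ => (h3 σ).symm⟩

/-- **Tangent separation**, `AlgHom` form for the `𝒪`-algebra structure `𝒪 → k → k[ε]`:
if `S` does not generate the test algebra `A`, two distinct `𝒪`-algebra maps `A → k[ε]`
agree on `S`. -/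
theorem exists_algHom_dualNumber_of_adjoin_ne_top
    {A : Type} [CommRing A] [IsLocalRing A] [Algebra 𝒪 A]
    (hA : GaloisRep.IsArtinianTestAlgebra 𝒪 A) (S : Set A) (hS : Algebra.adjoin 𝒪 S ≠ ⊤) :
    letI := dualNumberAlgebra 𝒪
    ∃ χ₁ χ₂ : A →ₐ[𝒪] DualNumber (ResidueField 𝒪), χ₁ ≠ χ₂ ∧ ∀ s ∈ S, χ₁ s = χ₂ s := by
  letI := dualNumberAlgebra 𝒪
  obtain ⟨χ₁, χ₂, hne, hS', h1, h2⟩ := exists_dualNumber_points_of_adjoin_ne_top hA S hS
  refine ⟨{ χ₁ with commutes' := fun c => h1 c }, { χ₂ with commutes' := fun c => h2 c }, ?_, hS'⟩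
  intro h
  apply hne
  ext a : 1
  exact AlgHom.congr_fun h a

end Fermat.Agent.S53Lib
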