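/-
S53 library, task T (bridge part): identification of the two `k`-algebra structures on the
residue field of `k[ε]`, so that `GaloisRep.TangentFinite` gives finiteness of the set of trace
functions of `𝒟`-deformations `ρ` over `k[ε]` whose residual condition is phrased as in
`DeformationRingData.universal`, i.e. via
`ρbar.baseChangeAlong (ResidueField.map (algebraMap 𝒪 k[ε]))`.
Builds on `TangentFiniteBridge.lean` (helper3).
-/
import Mathlib
import Fermat.Prelude.Def_GaloisRep_DeformationRingData
import Fermat.Prelude.Def_GaloisRep_DeformationCondition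
import Fermat.Agent.Lib.S53.TangentFiniteBridge
import Fermat.Agent.Lib.S53.Basic

set_option autoImplicit false
set_option linter.style.haveILetI false

namespace Fermat.Agent.S53Lib

open IsLocalRing GaloisRep

section T

variable (𝒪 : Type) [CommRing 𝒪] [IsLocalRing 𝒪]

attribute [local instance] dualNumberAlgebra

/-- The structure map `𝒪 → k → k[ε]` is a local homomorphism. -/
theorem isLocalHom_algebraMap_dualNumber :
    IsLocalHom (algebraMap 𝒪 (DualNumber (ResidueField 𝒪))) := by
  constructor
  intro a ha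
  have h1 : algebraMap 𝒪 (DualNumber (ResidueField 𝒪)) a =
      algebraMap (ResidueField 𝒪) (DualNumber (ResidueField 𝒪)) (residue 𝒪 a) := rfl
  rw [h1] at ha
  by_contra hna
  have h0 : residue 𝒪 a = 0 := (residue_eq_zero_iff a).mpr hna
  rw [h0, map_zero] at ha
  exact not_isUnit_zero ha

attribute [local instance] isLocalHom_algebraMap_dualNumber

/-- The two maps `k → ResidueField k[ε]` agree. -/
theorem residueFieldMap_algebraMap_dualNumber :
    ResidueField.map (algebraMap 𝒪 (DualNumber (ResidueField 𝒪))) =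
      (residue (DualNumber (ResidueField 𝒪))).comp
        (algebraMap (ResidueField 𝒪) (DualNumber (ResidueField 𝒪))) := by
  apply RingHom.ext
  intro y
  obtain ⟨x, rfl⟩ := residue_surjective y
  rfl

/-- `baseChangeAlong` the residue field map is `baseChange` for the algebra structure used in
`GaloisRep.TangentFinite`. -/
theorem baseChangeAlong_residueFieldMap_dualNumber
    (ρbar : ResidualGaloisRep (ResidueField 𝒪)) :
    ρbar.baseChangeAlong (ResidueField.map (algebraMap 𝒪 (DualNumber (ResidueField 𝒪)))) =
      @ResidualGaloisRep.baseChange (ResidueField 𝒪) _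
        (ResidueField (DualNumber (ResidueField 𝒪))) _ (dualNumberResidueAlgebra 𝒪) ρbar := by
  rw [residueFieldMap_algebraMap_dualNumber]
  rfl

/-- **Task T**: `TangentFinite` implies that the set of trace functions of `𝒟`-deformations to
the dual numbers (residual condition phrased with `baseChangeAlong (ResidueField.map _)`) is
finite. -/
theorem finite_tangent_traces (ρbar : ResidualGaloisRep (ResidueField 𝒪))
    (𝒟 : ∀ ⦃A : Type⦄ [CommRing A] [IsLocalRing A] [Algebra 𝒪 A], GaloisRepAdic A → Prop)
    (hfin : TangentFinite 𝒪 ρbar 𝒟) :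
    Set.Finite {t : (AlgebraicClosure ℚ ≃ₐ[ℚ] AlgebraicClosure ℚ) → DualNumber (ResidueField 𝒪) |
      ∃ ρ : GaloisRepAdic (DualNumber (ResidueField 𝒪)), 𝒟 ρ ∧
        ρ.residual.IsEquiv (ρbar.baseChangeAlong
          (ResidueField.map (algebraMap 𝒪 (DualNumber (ResidueField 𝒪))))) ∧
        ∀ σ, ρ.trace σ = t σ} := by
  have h := tangentTraces_finite ρbar 𝒟 hfin
  rw [baseChangeAlong_residueFieldMap_dualNumber]
  refine h.subset ?_
  rintro t ⟨ρ, h1, h2, h3⟩
  exact ⟨ρ, h1, h2, fun σ => (h3 σ).symm⟩

/-- Task T with the exact signature of the F-block stubs (`GQ`, instance argument). -/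
theorem tangent_traces_finite (ρbar : ResidualGaloisRep (ResidueField 𝒪))
    (𝒟 : ∀ ⦃A : Type⦄ [CommRing A] [IsLocalRing A] [Algebra 𝒪 A], GaloisRepAdic A → Prop)
    (hfin : TangentFinite 𝒪 ρbar 𝒟) [IsLocalHom (algebraMap 𝒪 (DualNumber (ResidueField 𝒪)))] :
    Set.Finite {t : GQ → DualNumber (ResidueField 𝒪) |
      ∃ ρ : GaloisRepAdic (DualNumber (ResidueField 𝒪)), 𝒟 ρ ∧
        ρ.residual.IsEquiv (ρbar.baseChangeAlong
          (ResidueField.map (algebraMap 𝒪 (DualNumber (ResidueField 𝒪))))) ∧
        ∀ σ, ρ.trace σ = t σ} :=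
  finite_tangent_traces 𝒪 ρbar 𝒟 hfin

end T

end Fermat.Agent.S53Lib
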