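/-
S53 library, task N: exact stub names for the separating homs to the dual numbers and
`k[ε]` as an Artinian test algebra.
-/
import Mathlib
import Fermat.Prelude.Def_GaloisRep_DeformationRingData
import Fermat.Prelude.Def_GaloisRep_DeformationCondition
import Fermat.Agent.Lib.S53.TangentBridge

set_option autoImplicit false
set_option linter.style.haveILetI false

namespace Fermat.Agent.S53Lib

open IsLocalRing GaloisRep

section N

variable (𝒪 : Type) [CommRing 𝒪] [IsLocalRing 𝒪]

attribute [local instance] dualNumberAlgebra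

variable {𝒪}
variable {A : Type} [CommRing A] [IsLocalRing A] [Algebra 𝒪 A]

/-- **Task N** (exact stub shape): if `S` does not generate the Artinian test algebra `A` as an
`𝒪`-algebra, there are two distinct `𝒪`-algebra homs `A → k[ε]` agreeing on `S`. -/
theorem exists_ne_algHom_dualNumber (hA : IsArtinianTestAlgebra 𝒪 A) (S : Set A)
    (hS : Algebra.adjoin 𝒪 S ≠ ⊤) :
    ∃ χ₁ χ₂ : A →ₐ[𝒪] DualNumber (ResidueField 𝒪), χ₁ ≠ χ₂ ∧ ∀ s ∈ S, χ₁ s = χ₂ s :=
  exists_algHom_dualNumber_of_adjoin_ne_top hA S hS

variable (𝒪)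

/-- `k[ε]` (with the structure map `𝒪 → k → k[ε]`) is an Artinian test algebra. -/
theorem isArtinianTestAlgebra_dualNumber :
    IsArtinianTestAlgebra 𝒪 (DualNumber (ResidueField 𝒪)) where
  isLocalHom := isLocalHom_algebraMap_dualNumber 𝒪
  residue_surjective := by
    intro y
    obtain ⟨x, rfl⟩ := residue_surjective y
    obtain ⟨c, hc⟩ := residue_surjective (TrivSqZeroExt.fst x)
    refine ⟨c, ?_⟩
    have h1 : algebraMap 𝒪 (DualNumber (ResidueField 𝒪)) c =
        algebraMap (ResidueField 𝒪) (DualNumber (ResidueField 𝒪)) (residue 𝒪 c) := rfl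
    show residue _ (algebraMap 𝒪 (DualNumber (ResidueField 𝒪)) c) = residue _ x
    rw [h1, hc]
    rw [← sub_eq_zero, ← map_sub, residue_eq_zero_iff, mem_maximalIdeal, mem_nonunits_iff]
    intro hu
    have hnil : IsNilpotent
        (algebraMap (ResidueField 𝒪) (DualNumber (ResidueField 𝒪)) (TrivSqZeroExt.fst x) - x) := by
      rw [TrivSqZeroExt.isNilpotent_iff_isNilpotent_fst]
      simp [TrivSqZeroExt.algebraMap_eq_inl]
    obtain ⟨n, hn⟩ := hnil
    have h0 := hu.pow n
    rw [hn] at h0
    exact not_isUnit_zero h0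
  isArtinian := by
    haveI : Module.Finite (ResidueField 𝒪) (DualNumber (ResidueField 𝒪)) := by
      have : Module.Finite (ResidueField 𝒪) (ResidueField 𝒪 × ResidueField 𝒪) := inferInstance
      exact this
    exact IsArtinianRing.of_finite (ResidueField 𝒪) (DualNumber (ResidueField 𝒪))

end N

end Fermat.Agent.S53Lib
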