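import Mathlib
import Fermat.Prelude.Def_GaloisRep_Adic

/-!
# S53 library: matrix form of `GaloisRepAdic`  (helper4)

* `MatrixRepContinuous M` : continuity of a matrix valued homomorphism `M : Γℚ →* M₂(A)`.
* `ofMatrix M hM : GaloisRepAdic A` on `Fin 2 → A`.
* `toMatrixRep ρ b` : matrices of `ρ` in a basis `b`; `equivOfMatrix ρ b : ρ ≃ ofMatrix (toMatrixRep ρ b)`.
* base change of matrices, conjugation by `GL₂` gives `Equiv`, and conversely.
-/

set_option autoImplicit false

namespace Fermat.Agent.S53Lib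

open IsLocalRing Module
open scoped TensorProduct

local notation "Γℚ" => (AlgebraicClosure ℚ ≃ₐ[ℚ] AlgebraicClosure ℚ)

variable {A : Type} [CommRing A] [IsLocalRing A]

/-- Continuity of a matrix-valued representation: modulo every power of the maximal ideal it is
trivial on the absolute Galois group of a finite extension. -/
def MatrixRepContinuous (M : Γℚ →* Matrix (Fin 2) (Fin 2) A) : Prop :=
  ∀ n : ℕ, ∃ L : IntermediateField ℚ (AlgebraicClosure ℚ), FiniteDimensional ℚ L ∧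
    ∀ σ : Γℚ, (∀ x ∈ L, σ x = x) → ∀ i j, (M σ - 1) i j ∈ maximalIdeal A ^ n

omit [IsLocalRing A] in
/-- A vector all of whose coordinates lie in `I` lies in `I • ⊤`. -/
theorem pi_mem_smul_top {ι : Type} [Fintype ι] [DecidableEq ι] (I : Ideal A) (x : ι → A)
    (hx : ∀ i, x i ∈ I) : x ∈ I • (⊤ : Submodule A (ι → A)) := by
  have hx' : x = ∑ i, x i • (Pi.single i (1 : A) : ι → A) := by
    ext j
    simp [Finset.sum_apply, Pi.single_apply]
  rw [hx']
  exact Submodule.sum_mem _ fun i _ => Submodule.smul_mem_smul (hx i) Submodule.mem_top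

omit [IsLocalRing A] in
/-- Coordinates (in a basis) of an element of `I • ⊤` lie in `I`. -/
theorem repr_mem_of_mem_smul_top {ι : Type} {V : Type} [AddCommGroup V] [Module A V]
    (b : Basis ι A V) (I : Ideal A) {x : V} (hx : x ∈ I • (⊤ : Submodule A V)) (i : ι) :
    b.repr x i ∈ I := by
  refine Submodule.smul_induction_on (p := fun x => b.repr x i ∈ I) hx ?_ ?_
  · intro a ha w _
    rw [map_smul, Finsupp.smul_apply, smul_eq_mul]
    exact I.mul_mem_right _ ha
  · intro x y hx hy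
    rw [map_add, Finsupp.add_apply]
    exact I.add_mem hx hy

/-- The `GaloisRepAdic` attached to a continuous matrix representation. -/
noncomputable def ofMatrix (M : Γℚ →* Matrix (Fin 2) (Fin 2) A) (hM : MatrixRepContinuous M) :
    GaloisRepAdic A where
  V := Fin 2 → A
  finrank_eq := by simp
  ρ := (Matrix.toLinAlgEquiv' : Matrix (Fin 2) (Fin 2) A ≃ₐ[A] _).toAlgHom.toMonoidHom.comp M
  isAdicContinuous := by
    intro n
    obtain ⟨L, hL, h⟩ := hM n
    refine ⟨L, hL, fun σ hσ v => ?_⟩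
    apply pi_mem_smul_top
    intro i
    have : ((Matrix.toLinAlgEquiv' : Matrix (Fin 2) (Fin 2) A ≃ₐ[A] _).toAlgHom.toMonoidHom.comp M σ v
        - v) = (M σ - 1).mulVec v := by
      rw [Matrix.sub_mulVec, Matrix.one_mulVec]
      rfl
    rw [this]
    show ∑ j, (M σ - 1) i j * v j ∈ maximalIdeal A ^ n
    exact Ideal.sum_mem _ fun j _ => Ideal.mul_mem_right _ _ (h σ hσ i j)

@[simp] theorem ofMatrix_ρ_apply (M : Γℚ →* Matrix (Fin 2) (Fin 2) A) (hM : MatrixRepContinuous M)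
    (σ : Γℚ) (v : Fin 2 → A) : (ofMatrix M hM).ρ σ v = (M σ).mulVec v := rfl

/-- Matrices of a `GaloisRepAdic` in a basis. -/
noncomputable def toMatrixRep (ρ : GaloisRepAdic A) (b : Basis (Fin 2) A ρ.V) :
    Γℚ →* Matrix (Fin 2) (Fin 2) A :=
  (LinearMap.toMatrixAlgEquiv b).toAlgHom.toMonoidHom.comp ρ.ρ

@[simp] theorem toMatrixRep_apply (ρ : GaloisRepAdic A) (b : Basis (Fin 2) A ρ.V) (σ : Γℚ) :
    toMatrixRep ρ b σ = LinearMap.toMatrix b b (ρ.ρ σ) := rfl

theorem toMatrixRep_continuous (ρ : GaloisRepAdic A) (b : Basis (Fin 2) A ρ.V) :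
    MatrixRepContinuous (toMatrixRep ρ b) := by
  intro n
  obtain ⟨L, hL, h⟩ := ρ.isAdicContinuous n
  refine ⟨L, hL, fun σ hσ i j => ?_⟩
  have h1 := repr_mem_of_mem_smul_top b _ (h σ hσ (b j)) i
  have : (toMatrixRep ρ b σ - 1) i j = b.repr (ρ.ρ σ (b j) - b j) i := by
    simp [LinearMap.toMatrix_apply, Matrix.sub_apply, Matrix.one_apply, Finsupp.single_apply,
      eq_comm]
  rw [this]
  exact h1

/-- A basis of the underlying module of a `GaloisRepAdic`. -/
noncomputable def chosenBasis (ρ : GaloisRepAdic A) : Basis (Fin 2) A ρ.V :=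
  Module.finBasisOfFinrankEq A ρ.V ρ.finrank_eq

/-- `ρ` is equivalent to the matrix representation attached to its matrices in a basis. -/
noncomputable def equivOfMatrix (ρ : GaloisRepAdic A) (b : Basis (Fin 2) A ρ.V) :
    GaloisRepAdic.Equiv ρ (ofMatrix (toMatrixRep ρ b) (toMatrixRep_continuous ρ b)) where
  toLinearEquiv := b.equivFun
  map_apply σ x := by
    show b.equivFun (ρ.ρ σ x) = (LinearMap.toMatrix b b (ρ.ρ σ)).mulVec (b.equivFun x)
    rw [Basis.equivFun_apply, Basis.equivFun_apply, LinearMap.toMatrix_mulVec_repr]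

/-- Equal matrix representations give equivalent (indeed equal) `GaloisRepAdic`s. -/
noncomputable def equivOfEq {M M' : Γℚ →* Matrix (Fin 2) (Fin 2) A} (h : M = M')
    (hM : MatrixRepContinuous M) (hM' : MatrixRepContinuous M') :
    GaloisRepAdic.Equiv (ofMatrix M hM) (ofMatrix M' hM') := by
  subst h
  exact GaloisRepAdic.Equiv.refl _

omit [IsLocalRing A] in
/-- The linear automorphism of `Fin 2 → A` given by an invertible matrix. -/
noncomputable def unitLinearEquiv (T : (Matrix (Fin 2) (Fin 2) A)ˣ) : (Fin 2 → A) ≃ₗ[A] (Fin 2 → A) :=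
  LinearEquiv.ofLinearMap (Matrix.toLin' (T : Matrix (Fin 2) (Fin 2) A))
    (Matrix.toLin' ((T⁻¹ : (Matrix (Fin 2) (Fin 2) A)ˣ) : Matrix (Fin 2) (Fin 2) A))
    (by rw [← Matrix.toLin'_mul, Units.mul_inv, Matrix.toLin'_one])
    (by rw [← Matrix.toLin'_mul, Units.inv_mul, Matrix.toLin'_one])

omit [IsLocalRing A] in
@[simp] theorem unitLinearEquiv_apply (T : (Matrix (Fin 2) (Fin 2) A)ˣ) (x : Fin 2 → A) :
    unitLinearEquiv T x = (T : Matrix (Fin 2) (Fin 2) A).mulVec x := rfl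

omit [IsLocalRing A] in
theorem conj_mulVec {M M' : Γℚ →* Matrix (Fin 2) (Fin 2) A}
    (T : (Matrix (Fin 2) (Fin 2) A)ˣ) (hT : ∀ σ, (T : Matrix (Fin 2) (Fin 2) A) * M σ = M' σ * T)
    (σ : Γℚ) (x : Fin 2 → A) :
    unitLinearEquiv T ((M σ).mulVec x) = (M' σ).mulVec (unitLinearEquiv T x) := by
  rw [unitLinearEquiv_apply, unitLinearEquiv_apply, Matrix.mulVec_mulVec, Matrix.mulVec_mulVec, hT σ]

/-- Conjugate matrix representations give equivalent `GaloisRepAdic`s. -/
noncomputable def equivOfConj {M M' : Γℚ →* Matrix (Fin 2) (Fin 2) A}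
    (hM : MatrixRepContinuous M) (hM' : MatrixRepContinuous M')
    (T : (Matrix (Fin 2) (Fin 2) A)ˣ) (hT : ∀ σ, (T : Matrix (Fin 2) (Fin 2) A) * M σ = M' σ * T) :
    GaloisRepAdic.Equiv (ofMatrix M hM) (ofMatrix M' hM') where
  toLinearEquiv := unitLinearEquiv T
  map_apply σ x := conj_mulVec T hT σ x

/-- An equivalence of `GaloisRepAdic`s gives an invertible matrix intertwining the matrix
representations in any two bases. -/
theorem exists_conj_of_equiv {ρ ρ' : GaloisRepAdic A} (e : GaloisRepAdic.Equiv ρ ρ')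
    (b : Basis (Fin 2) A ρ.V) (b' : Basis (Fin 2) A ρ'.V) :
    ∃ T : (Matrix (Fin 2) (Fin 2) A)ˣ,
      ∀ σ, (T : Matrix (Fin 2) (Fin 2) A) * toMatrixRep ρ b σ = toMatrixRep ρ' b' σ * T := by
  refine ⟨⟨LinearMap.toMatrix b b' e.toLinearEquiv.toLinearMap,
    LinearMap.toMatrix b' b e.toLinearEquiv.symm.toLinearMap, ?_, ?_⟩, fun σ => ?_⟩
  · rw [← LinearMap.toMatrix_comp, LinearEquiv.comp_symm, LinearMap.toMatrix_id]
  · rw [← LinearMap.toMatrix_comp, LinearEquiv.symm_comp, LinearMap.toMatrix_id]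
  · show LinearMap.toMatrix b b' e.toLinearEquiv.toLinearMap * LinearMap.toMatrix b b (ρ.ρ σ) =
      LinearMap.toMatrix b' b' (ρ'.ρ σ) * LinearMap.toMatrix b b' e.toLinearEquiv.toLinearMap
    rw [← LinearMap.toMatrix_comp, ← LinearMap.toMatrix_comp]
    congr 1
    ext x
    exact e.map_apply σ x

/-- Conjugation preserves continuity. -/
theorem matrixRepContinuous_of_conj {M M' : Γℚ →* Matrix (Fin 2) (Fin 2) A}
    (hM : MatrixRepContinuous M)
    (T : (Matrix (Fin 2) (Fin 2) A)ˣ) (hT : ∀ σ, (T : Matrix (Fin 2) (Fin 2) A) * M σ = M' σ * T) :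
    MatrixRepContinuous M' := by
  intro n
  obtain ⟨L, hL, h⟩ := hM n
  refine ⟨L, hL, fun σ hσ i j => ?_⟩
  have h1 : M' σ - 1 = (T : Matrix (Fin 2) (Fin 2) A) * (M σ - 1) *
      ((T⁻¹ : (Matrix (Fin 2) (Fin 2) A)ˣ) : Matrix (Fin 2) (Fin 2) A) := by
    rw [mul_sub, sub_mul, hT σ, mul_one, mul_assoc, Units.mul_inv, mul_one]
  rw [h1, Matrix.mul_apply]
  refine Ideal.sum_mem _ fun k _ => Ideal.mul_mem_right _ _ ?_
  rw [Matrix.mul_apply]
  exact Ideal.sum_mem _ fun l _ => Ideal.mul_mem_left _ _ (h σ hσ l k)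

section Centralizer

/-- Every endomorphism commuting with the Galois action is a scalar. -/
def HasScalarCentralizer (ρ : GaloisRepAdic A) : Prop :=
  ∀ φ : Module.End A ρ.V, (∀ σ, φ * ρ.ρ σ = ρ.ρ σ * φ) → ∃ c : A, φ = c • (1 : Module.End A ρ.V)

theorem HasScalarCentralizer.of_equiv {ρ ρ' : GaloisRepAdic A} (e : GaloisRepAdic.Equiv ρ ρ')
    (h : HasScalarCentralizer ρ) : HasScalarCentralizer ρ' := by
  intro φ hφ
  obtain ⟨c, hc⟩ := h (e.toLinearEquiv.symm.toLinearMap ∘ₗ φ ∘ₗ e.toLinearEquiv.toLinearMap) (by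
    intro σ
    ext x
    simp only [Module.End.mul_apply, LinearMap.comp_apply, LinearEquiv.coe_coe]
    rw [e.map_apply]
    have := LinearMap.congr_fun (hφ σ) (e.toLinearEquiv x)
    simp only [Module.End.mul_apply] at this
    rw [this]
    apply e.toLinearEquiv.injective
    rw [LinearEquiv.apply_symm_apply, e.map_apply, LinearEquiv.apply_symm_apply])
  refine ⟨c, ?_⟩
  ext y
  have := LinearMap.congr_fun hc (e.toLinearEquiv.symm y)
  simp only [LinearMap.comp_apply, LinearEquiv.coe_coe, LinearEquiv.apply_symm_apply,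
    LinearMap.smul_apply, Module.End.one_apply] at this
  have h2 := congrArg e.toLinearEquiv this
  rw [LinearEquiv.apply_symm_apply, map_smul, LinearEquiv.apply_symm_apply] at h2
  simpa using h2

/-- Matrix form of the scalar centraliser property. -/
theorem HasScalarCentralizer.matrix {ρ : GaloisRepAdic A} (h : HasScalarCentralizer ρ)
    (b : Basis (Fin 2) A ρ.V) (X : Matrix (Fin 2) (Fin 2) A)
    (hX : ∀ σ, X * toMatrixRep ρ b σ = toMatrixRep ρ b σ * X) :
    ∃ c : A, X = c • (1 : Matrix (Fin 2) (Fin 2) A) := by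
  obtain ⟨c, hc⟩ := h (Matrix.toLin b b X) (by
    intro σ
    have h1 : ρ.ρ σ = Matrix.toLin b b (toMatrixRep ρ b σ) := by
      rw [toMatrixRep_apply, Matrix.toLin_toMatrix]
    rw [h1, Module.End.mul_eq_comp, Module.End.mul_eq_comp, ← Matrix.toLin_mul, ← Matrix.toLin_mul, hX σ])
  refine ⟨c, ?_⟩
  have h2 := congrArg (LinearMap.toMatrix b b) hc
  rw [LinearMap.toMatrix_toLin, map_smul] at h2
  rw [h2]
  congr 1
  exact LinearMap.toMatrix_one b

end Centralizer

section BaseChange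

variable {B : Type} [CommRing B] [IsLocalRing B]

omit [IsLocalRing A] [IsLocalRing B] in
/-- Push a matrix representation forward along a ring homomorphism. -/
noncomputable def mapMatrixRep (φ : A →+* B) (M : Γℚ →* Matrix (Fin 2) (Fin 2) A) :
    Γℚ →* Matrix (Fin 2) (Fin 2) B :=
  (φ.mapMatrix : Matrix (Fin 2) (Fin 2) A →+* Matrix (Fin 2) (Fin 2) B).toMonoidHom.comp M

omit [IsLocalRing A] [IsLocalRing B] in
@[simp] theorem mapMatrixRep_apply (φ : A →+* B) (M : Γℚ →* Matrix (Fin 2) (Fin 2) A) (σ : Γℚ) :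
    mapMatrixRep φ M σ = (M σ).map φ := rfl

theorem map_maximalIdeal_pow_le (φ : A →+* B) (hφ : IsLocalHom φ) (n : ℕ) :
    (maximalIdeal A ^ n).map φ ≤ maximalIdeal B ^ n := by
  rw [Ideal.map_pow]
  exact Ideal.pow_right_mono (Ideal.map_le_iff_le_comap.mpr fun a ha =>
    Ideal.mem_comap.mpr (haveI := hφ; map_nonunit φ a ha)) n

theorem mapMatrixRep_continuous (φ : A →+* B) (hφ : IsLocalHom φ)
    {M : Γℚ →* Matrix (Fin 2) (Fin 2) A} (hM : MatrixRepContinuous M) :
    MatrixRepContinuous (mapMatrixRep φ M) := by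
  intro n
  obtain ⟨L, hL, h⟩ := hM n
  refine ⟨L, hL, fun σ hσ i j => ?_⟩
  have : (mapMatrixRep φ M σ - 1) i j = φ ((M σ - 1) i j) := by
    simp only [mapMatrixRep_apply, Matrix.sub_apply, Matrix.map_apply, Matrix.one_apply, map_sub]
    split_ifs <;> simp
  rw [this]
  exact map_maximalIdeal_pow_le φ hφ n (Ideal.mem_map_of_mem φ (h σ hσ i j))

/-- The induced basis on the base change of a `GaloisRepAdic`. -/
noncomputable def baseChangeBasis (φ : A →+* B) (hφ : IsLocalHom φ) (ρ : GaloisRepAdic A)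
    (b : Basis (Fin 2) A ρ.V) : Basis (Fin 2) B (ρ.baseChangeAlong φ hφ).V :=
  letI : Algebra A B := φ.toAlgebra
  Algebra.TensorProduct.basis B b

theorem toMatrixRep_baseChangeAlong (φ : A →+* B) (hφ : IsLocalHom φ) (ρ : GaloisRepAdic A)
    (b : Basis (Fin 2) A ρ.V) :
    toMatrixRep (ρ.baseChangeAlong φ hφ) (baseChangeBasis φ hφ ρ b) = mapMatrixRep φ (toMatrixRep ρ b) := by
  letI : Algebra A B := φ.toAlgebra
  ext σ : 1
  show LinearMap.toMatrix (Algebra.TensorProduct.basis B b) (Algebra.TensorProduct.basis B b)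
    ((ρ.ρ σ).baseChange B) = (LinearMap.toMatrix b b (ρ.ρ σ)).map φ
  rw [LinearMap.toMatrix_baseChange]
  rfl

/-- Base change of `ρ` in matrix form. -/
noncomputable def baseChangeAlongEquivOfMatrix (φ : A →+* B) (hφ : IsLocalHom φ) (ρ : GaloisRepAdic A)
    (b : Basis (Fin 2) A ρ.V) :
    GaloisRepAdic.Equiv (ρ.baseChangeAlong φ hφ)
      (ofMatrix (mapMatrixRep φ (toMatrixRep ρ b))
        (mapMatrixRep_continuous φ hφ (toMatrixRep_continuous ρ b))) :=
  (equivOfMatrix (ρ.baseChangeAlong φ hφ) (baseChangeBasis φ hφ ρ b)).trans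
    (equivOfEq (toMatrixRep_baseChangeAlong φ hφ ρ b) _ _)

/-- The matrices of `ofMatrix M` in the standard basis are `M`. -/
theorem toMatrixRep_ofMatrix (M : Γℚ →* Matrix (Fin 2) (Fin 2) A) (hM : MatrixRepContinuous M) :
    toMatrixRep (ofMatrix M hM) (Pi.basisFun A (Fin 2)) = M := by
  ext σ : 1
  show LinearMap.toMatrix (Pi.basisFun A (Fin 2)) (Pi.basisFun A (Fin 2)) (Matrix.toLin' (M σ)) = M σ
  rw [LinearMap.toMatrix_eq_toMatrix', LinearMap.toMatrix'_toLin']

/-- Base change of `ofMatrix M` is `ofMatrix` of the pushed-forward matrices. -/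
noncomputable def ofMatrixBaseChangeEquiv (φ : A →+* B) (hφ : IsLocalHom φ)
    (M : Γℚ →* Matrix (Fin 2) (Fin 2) A) (hM : MatrixRepContinuous M) :
    GaloisRepAdic.Equiv ((ofMatrix M hM).baseChangeAlong φ hφ)
      (ofMatrix (mapMatrixRep φ M) (mapMatrixRep_continuous φ hφ hM)) :=
  (baseChangeAlongEquivOfMatrix φ hφ (ofMatrix M hM) (Pi.basisFun A (Fin 2))).trans
    (equivOfEq (by rw [toMatrixRep_ofMatrix]) _ _)

end BaseChange

end Fermat.Agent.S53Lib
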