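import Mathlib
import Fermat.Prelude.Def_GaloisRep_Adic
import Fermat.Prelude.Def_GaloisRep_DeformationCondition
import Fermat.Agent.Lib.S53.TestAlgebra
import Fermat.Agent.Lib.S53.FibreProduct
import Fermat.Agent.Lib.S53.MatrixRep

/-!
# S53 library: gluing Galois representations over fibre products  (helper4)
-/

set_option autoImplicit false

namespace Fermat.Agent.S53Lib

open IsLocalRing Module GaloisRep

local notation "Γℚ" => (AlgebraicClosure ℚ ≃ₐ[ℚ] AlgebraicClosure ℚ)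

section FiniteLevel

variable {A : Type} [CommRing A] [IsLocalRing A]

/-- A matrix representation is of finite level if it is trivial on the absolute Galois group of a
finite extension of `ℚ`. -/
def MatrixRepFiniteLevel (M : Γℚ →* Matrix (Fin 2) (Fin 2) A) : Prop :=
  ∃ L : IntermediateField ℚ (AlgebraicClosure ℚ), FiniteDimensional ℚ L ∧
    ∀ σ : Γℚ, (∀ x ∈ L, σ x = x) → M σ = 1

theorem MatrixRepFiniteLevel.continuous {M : Γℚ →* Matrix (Fin 2) (Fin 2) A}
    (h : MatrixRepFiniteLevel M) : MatrixRepContinuous M := by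
  intro n
  obtain ⟨L, hL, hσ⟩ := h
  refine ⟨L, hL, fun σ hσL i j => ?_⟩
  rw [hσ σ hσL, sub_self]
  exact Ideal.zero_mem _

theorem MatrixRepContinuous.finiteLevel [IsArtinianRing A] {M : Γℚ →* Matrix (Fin 2) (Fin 2) A}
    (h : MatrixRepContinuous M) : MatrixRepFiniteLevel M := by
  obtain ⟨n, hn⟩ := exists_maximalIdeal_pow_eq_bot A
  obtain ⟨L, hL, hσ⟩ := h n
  refine ⟨L, hL, fun σ hσL => ?_⟩
  ext i j
  have := hσ σ hσL i j
  rw [hn, Ideal.mem_bot, Matrix.sub_apply, sub_eq_zero] at this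
  exact this

end FiniteLevel

section LiftUnit

variable {B C : Type} [CommRing B] [CommRing C]

/-- Lift an invertible matrix along a surjective local ring homomorphism. -/
theorem exists_unit_matrix_lift (g : B →+* C) [IsLocalHom g] (hg : Function.Surjective g)
    (E : (Matrix (Fin 2) (Fin 2) C)ˣ) :
    ∃ T : (Matrix (Fin 2) (Fin 2) B)ˣ, (T : Matrix (Fin 2) (Fin 2) B).map g = E := by
  choose t ht using fun i j => hg ((E : Matrix (Fin 2) (Fin 2) C) i j)
  let T₀ : Matrix (Fin 2) (Fin 2) B := Matrix.of t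
  have hmap : T₀.map g = E := by
    ext i j
    simp [T₀, ht]
  have hdet : IsUnit T₀.det := by
    apply isUnit_of_map_unit g
    have : g T₀.det = (E : Matrix (Fin 2) (Fin 2) C).det := by
      rw [RingHom.map_det, RingHom.mapMatrix_apply, hmap]
    rw [this]
    exact (Matrix.isUnit_iff_isUnit_det _).mp E.isUnit
  obtain ⟨T, hT⟩ := (Matrix.isUnit_iff_isUnit_det T₀).mpr hdet
  exact ⟨T, by rw [hT, hmap]⟩

end LiftUnit

section Conj

variable {A : Type} [CommRing A]

/-- Conjugate of a matrix representation by an invertible matrix: `σ ↦ T⁻¹ * M σ * T`. -/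
noncomputable def conjMatrixRep (T : (Matrix (Fin 2) (Fin 2) A)ˣ) (M : Γℚ →* Matrix (Fin 2) (Fin 2) A) :
    Γℚ →* Matrix (Fin 2) (Fin 2) A where
  toFun σ := ((T⁻¹ : (Matrix (Fin 2) (Fin 2) A)ˣ) : Matrix (Fin 2) (Fin 2) A) * M σ * T
  map_one' := by rw [map_one, mul_one, Units.inv_mul]
  map_mul' σ τ := by
    rw [map_mul]
    calc ((T⁻¹ : (Matrix (Fin 2) (Fin 2) A)ˣ) : Matrix (Fin 2) (Fin 2) A) * (M σ * M τ) * T
        = (T⁻¹ : (Matrix (Fin 2) (Fin 2) A)ˣ) * M σ * ((T : Matrix (Fin 2) (Fin 2) A) *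
            (T⁻¹ : (Matrix (Fin 2) (Fin 2) A)ˣ)) * M τ * T := by
          rw [Units.mul_inv, mul_one]; simp only [mul_assoc]
      _ = _ := by simp only [mul_assoc]

@[simp] theorem conjMatrixRep_apply (T : (Matrix (Fin 2) (Fin 2) A)ˣ)
    (M : Γℚ →* Matrix (Fin 2) (Fin 2) A) (σ : Γℚ) :
    conjMatrixRep T M σ = ((T⁻¹ : (Matrix (Fin 2) (Fin 2) A)ˣ) : Matrix (Fin 2) (Fin 2) A) * M σ * T :=
  rfl

theorem conjMatrixRep_intertwine (T : (Matrix (Fin 2) (Fin 2) A)ˣ)
    (M : Γℚ →* Matrix (Fin 2) (Fin 2) A) (σ : Γℚ) :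
    (T : Matrix (Fin 2) (Fin 2) A) * conjMatrixRep T M σ = M σ * T := by
  rw [conjMatrixRep_apply, ← mul_assoc, ← mul_assoc, Units.mul_inv, one_mul]

end Conj

section GlueMatrix

variable {𝒪 : Type} [CommRing 𝒪]
variable {A B C : Type} [CommRing A] [CommRing B] [CommRing C]
  [Algebra 𝒪 A] [Algebra 𝒪 B] [Algebra 𝒪 C]
variable (f : A →ₐ[𝒪] C) (g : B →ₐ[𝒪] C)

theorem fp_matrix_ext {X Y : Matrix (Fin 2) (Fin 2) (fibreProduct f g)}
    (h1 : X.map (fpFst f g) = Y.map (fpFst f g)) (h2 : X.map (fpSnd f g) = Y.map (fpSnd f g)) :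
    X = Y := by
  refine Matrix.ext fun i j => fp_ext f g ?_ ?_
  · exact congrFun (congrFun h1 i) j
  · exact congrFun (congrFun h2 i) j

/-- The matrix over the fibre product with prescribed components. -/
def glueMatrix (X : Matrix (Fin 2) (Fin 2) A) (Y : Matrix (Fin 2) (Fin 2) B)
    (h : X.map f = Y.map g) : Matrix (Fin 2) (Fin 2) (fibreProduct f g) :=
  Matrix.of fun i j => fpMk f g (X i j) (Y i j) (congrFun (congrFun h i) j)

@[simp] theorem glueMatrix_map_fst (X : Matrix (Fin 2) (Fin 2) A) (Y : Matrix (Fin 2) (Fin 2) B)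
    (h : X.map f = Y.map g) : (glueMatrix f g X Y h).map (fpFst f g) = X := rfl

@[simp] theorem glueMatrix_map_snd (X : Matrix (Fin 2) (Fin 2) A) (Y : Matrix (Fin 2) (Fin 2) B)
    (h : X.map f = Y.map g) : (glueMatrix f g X Y h).map (fpSnd f g) = Y := rfl

/-- Glue two matrix representations agreeing over `C` to one over `A ×_C B`. -/
noncomputable def glueMatrixRep (MA : Γℚ →* Matrix (Fin 2) (Fin 2) A)
    (MB : Γℚ →* Matrix (Fin 2) (Fin 2) B)
    (h : ∀ σ, (MA σ).map f = (MB σ).map g) : Γℚ →* Matrix (Fin 2) (Fin 2) (fibreProduct f g) where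
  toFun σ := glueMatrix f g (MA σ) (MB σ) (h σ)
  map_one' := by
    apply fp_matrix_ext
    · rw [glueMatrix_map_fst, map_one, Matrix.map_one _ (map_zero _) (map_one _)]
    · rw [glueMatrix_map_snd, map_one, Matrix.map_one _ (map_zero _) (map_one _)]
  map_mul' σ τ := by
    apply fp_matrix_ext
    · rw [glueMatrix_map_fst, Matrix.map_mul, glueMatrix_map_fst, glueMatrix_map_fst, map_mul]
    · rw [glueMatrix_map_snd, Matrix.map_mul, glueMatrix_map_snd, glueMatrix_map_snd, map_mul]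

@[simp] theorem fpFst_glueMatrixRep (MA : Γℚ →* Matrix (Fin 2) (Fin 2) A)
    (MB : Γℚ →* Matrix (Fin 2) (Fin 2) B) (h : ∀ σ, (MA σ).map f = (MB σ).map g) (σ : Γℚ)
    (i j : Fin 2) : fpFst f g (glueMatrixRep f g MA MB h σ i j) = MA σ i j := rfl

@[simp] theorem fpSnd_glueMatrixRep (MA : Γℚ →* Matrix (Fin 2) (Fin 2) A)
    (MB : Γℚ →* Matrix (Fin 2) (Fin 2) B) (h : ∀ σ, (MA σ).map f = (MB σ).map g) (σ : Γℚ)
    (i j : Fin 2) : fpSnd f g (glueMatrixRep f g MA MB h σ i j) = MB σ i j := rfl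

theorem mapMatrixRep_fpFst_glue (MA : Γℚ →* Matrix (Fin 2) (Fin 2) A)
    (MB : Γℚ →* Matrix (Fin 2) (Fin 2) B) (h : ∀ σ, (MA σ).map f = (MB σ).map g) :
    mapMatrixRep (fpFst f g : fibreProduct f g →+* A) (glueMatrixRep f g MA MB h) = MA := by
  ext σ i j
  rfl

theorem mapMatrixRep_fpSnd_glue (MA : Γℚ →* Matrix (Fin 2) (Fin 2) A)
    (MB : Γℚ →* Matrix (Fin 2) (Fin 2) B) (h : ∀ σ, (MA σ).map f = (MB σ).map g) :
    mapMatrixRep (fpSnd f g : fibreProduct f g →+* B) (glueMatrixRep f g MA MB h) = MB := by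
  ext σ i j
  rfl

variable [IsLocalRing A] [IsLocalRing B] [IsLocalRing C]
variable [IsLocalHom (f : A →+* C)] [IsLocalHom (g : B →+* C)]

theorem glueMatrixRep_finiteLevel {MA : Γℚ →* Matrix (Fin 2) (Fin 2) A}
    {MB : Γℚ →* Matrix (Fin 2) (Fin 2) B} (h : ∀ σ, (MA σ).map f = (MB σ).map g)
    (hA : MatrixRepFiniteLevel MA) (hB : MatrixRepFiniteLevel MB) :
    MatrixRepFiniteLevel (glueMatrixRep f g MA MB h) := by
  obtain ⟨LA, hLA, hσA⟩ := hA
  obtain ⟨LB, hLB, hσB⟩ := hB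
  refine ⟨LA ⊔ LB, IntermediateField.finiteDimensional_sup LA LB, fun σ hσ => ?_⟩
  have h1 : MA σ = 1 := hσA σ fun x hx => hσ x ((le_sup_left : LA ≤ LA ⊔ LB) hx)
  have h2 : MB σ = 1 := hσB σ fun x hx => hσ x ((le_sup_right : LB ≤ LA ⊔ LB) hx)
  apply fp_matrix_ext
  · show (glueMatrix f g (MA σ) (MB σ) (h σ)).map (fpFst f g) = _
    rw [glueMatrix_map_fst, h1, Matrix.map_one _ (map_zero _) (map_one _)]
  · show (glueMatrix f g (MA σ) (MB σ) (h σ)).map (fpSnd f g) = _
    rw [glueMatrix_map_snd, h2, Matrix.map_one _ (map_zero _) (map_one _)]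

omit [IsLocalRing A] [IsLocalRing B] [IsLocalRing C] [IsLocalHom (f : A →+* C)]
  [IsLocalHom (g : B →+* C)] in
theorem conjMatrixRep_finiteLevel {M : Γℚ →* Matrix (Fin 2) (Fin 2) B}
    (T : (Matrix (Fin 2) (Fin 2) B)ˣ) (hM : MatrixRepFiniteLevel M) :
    MatrixRepFiniteLevel (conjMatrixRep T M) := by
  obtain ⟨L, hL, hσ⟩ := hM
  refine ⟨L, hL, fun σ hσL => ?_⟩
  rw [conjMatrixRep_apply, hσ σ hσL, mul_one, Units.inv_mul]

/-- **Gluing.** Representations over `A` and `B` whose base changes to `C` are equivalent glue to a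
representation over `A ×_C B`, provided `g : B → C` is surjective. -/
theorem exists_glue [IsArtinianRing A] [IsArtinianRing B] (hg : Function.Surjective g)
    (ρA : GaloisRepAdic A) (ρB : GaloisRepAdic B)
    (e : (ρA.baseChangeAlong (f : A →+* C) inferInstance).IsEquiv
      (ρB.baseChangeAlong (g : B →+* C) inferInstance)) :
    ∃ ρP : GaloisRepAdic (fibreProduct f g),
      (ρP.baseChangeAlong (fpFst f g : fibreProduct f g →+* A) inferInstance).IsEquiv ρA ∧
      (ρP.baseChangeAlong (fpSnd f g : fibreProduct f g →+* B) inferInstance).IsEquiv ρB := by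
  obtain ⟨e⟩ := e
  have hMA := toMatrixRep_continuous ρA (chosenBasis ρA)
  have hMB := toMatrixRep_continuous ρB (chosenBasis ρB)
  -- the equivalence over `C` in matrix form
  obtain ⟨E, hE⟩ := exists_conj_of_equiv
    ((baseChangeAlongEquivOfMatrix (f : A →+* C) inferInstance ρA (chosenBasis ρA)).symm.trans
      (e.trans (baseChangeAlongEquivOfMatrix (g : B →+* C) inferInstance ρB (chosenBasis ρB))))
    (Pi.basisFun C (Fin 2)) (Pi.basisFun C (Fin 2))
  simp only [toMatrixRep_ofMatrix, mapMatrixRep_apply] at hE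
  obtain ⟨T, hT⟩ := exists_unit_matrix_lift (g : B →+* C) hg E
  have hTinv : ((T⁻¹ : (Matrix (Fin 2) (Fin 2) B)ˣ) : Matrix (Fin 2) (Fin 2) B).map g =
      ((E⁻¹ : (Matrix (Fin 2) (Fin 2) C)ˣ) : Matrix (Fin 2) (Fin 2) C) := by
    have h1 : Units.map ((g : B →+* C).mapMatrix : Matrix (Fin 2) (Fin 2) B →+* _).toMonoidHom T = E :=
      Units.ext hT
    rw [← h1]
    rfl
  have hcompat : ∀ σ, (toMatrixRep ρA (chosenBasis ρA) σ).map f =
      (conjMatrixRep T (toMatrixRep ρB (chosenBasis ρB)) σ).map g := by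
    intro σ
    have h2 : (conjMatrixRep T (toMatrixRep ρB (chosenBasis ρB)) σ).map g =
        ((E⁻¹ : (Matrix (Fin 2) (Fin 2) C)ˣ) : Matrix (Fin 2) (Fin 2) C) *
          ((toMatrixRep ρB (chosenBasis ρB) σ).map g) * E := by
      rw [conjMatrixRep_apply, Matrix.map_mul, Matrix.map_mul, hTinv]
      congr 1
    rw [h2]
    have h3 := hE σ
    change (E : Matrix (Fin 2) (Fin 2) C) * (toMatrixRep ρA (chosenBasis ρA) σ).map f =
      (toMatrixRep ρB (chosenBasis ρB) σ).map g * E at h3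
    rw [mul_assoc, ← h3, ← mul_assoc, Units.inv_mul, one_mul]
  have hMP : MatrixRepContinuous (glueMatrixRep f g _ _ hcompat) :=
    (glueMatrixRep_finiteLevel f g hcompat hMA.finiteLevel
      (conjMatrixRep_finiteLevel T hMB.finiteLevel)).continuous
  refine ⟨ofMatrix (glueMatrixRep f g _ _ hcompat) hMP, ⟨?_⟩, ⟨?_⟩⟩
  · exact ((ofMatrixBaseChangeEquiv (fpFst f g : fibreProduct f g →+* A) inferInstance _ hMP).trans
      (equivOfEq (mapMatrixRep_fpFst_glue f g _ _ hcompat) _ hMA)).trans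
      (equivOfMatrix ρA (chosenBasis ρA)).symm
  · refine ((ofMatrixBaseChangeEquiv (fpSnd f g : fibreProduct f g →+* B) inferInstance _ hMP).trans
      (equivOfEq (mapMatrixRep_fpSnd_glue f g _ _ hcompat) _
        (conjMatrixRep_finiteLevel T hMB.finiteLevel).continuous)).trans
      ((equivOfConj _ hMB T (conjMatrixRep_intertwine T _)).trans
        (equivOfMatrix ρB (chosenBasis ρB)).symm)

end GlueMatrix

end Fermat.Agent.S53Lib
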