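import Mathlib
import Fermat.Prelude.Def_GaloisRep_DeformationRingData
import Fermat.Prelude.Def_GaloisRep_DeformationCondition
import Fermat.Agent.Lib.S53.Basic
import Fermat.Agent.Lib.S53.MatrixRep
import Fermat.Agent.Lib.S53.Glue

/-!
# S53 library: matrix interface (task E) and residual bridge (task E2)   (helper4)

Statement shapes are exactly those of `S53stubs/Stubs2.lean` (with `GQ` from `Basic`).
-/

set_option autoImplicit false
set_option linter.unusedSectionVars false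

namespace Fermat.Agent.S53Lib

open Matrix IsLocalRing GaloisRep

/-! ## Task E : matrix interface -/
section E

variable {A : Type} [CommRing A] [IsLocalRing A]

/-- adic continuity of a matrix representation -/
def MatCts (A : Type) [CommRing A] [IsLocalRing A] (r : GQ →* Matrix (Fin 2) (Fin 2) A) : Prop :=
  ∀ n : ℕ, ∃ L : IntermediateField ℚ (AlgebraicClosure ℚ), FiniteDimensional ℚ L ∧
    ∀ σ : GQ, (∀ x ∈ L, σ x = x) → ∀ i j, (r σ - 1) i j ∈ maximalIdeal A ^ n

theorem matCts_iff (r : GQ →* Matrix (Fin 2) (Fin 2) A) : MatCts A r ↔ MatrixRepContinuous r :=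
  Iff.rfl

/-- the representation on `Fin 2 → A` given by matrices -/
noncomputable def ofMat (r : GQ →* Matrix (Fin 2) (Fin 2) A) (h : MatCts A r) : GaloisRepAdic A :=
  ofMatrix r h

theorem ofMat_ρ_apply (r : GQ →* Matrix (Fin 2) (Fin 2) A) (h : MatCts A r) (σ : GQ)
    (v : Fin 2 → A) : (ofMat r h).ρ σ v = (r σ).mulVec v := rfl

/-- the standard basis of `ofMat r h` -/
noncomputable def ofMatBasis (r : GQ →* Matrix (Fin 2) (Fin 2) A) (h : MatCts A r) :
    Module.Basis (Fin 2) A (ofMat r h).V :=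
  Pi.basisFun A (Fin 2)

theorem toMatrixRep_ofMat (r : GQ →* Matrix (Fin 2) (Fin 2) A) (h : MatCts A r) :
    toMatrixRep (ofMat r h) (ofMatBasis r h) = r :=
  toMatrixRep_ofMatrix r h

theorem trace_ofMat (r : GQ →* Matrix (Fin 2) (Fin 2) A) (h : MatCts A r) (σ : GQ) :
    (ofMat r h).trace σ = (r σ).trace := by
  show LinearMap.trace A (Fin 2 → A) (Matrix.toLin' (r σ)) = (r σ).trace
  rw [Matrix.trace_toLin'_eq]

theorem trace_eq_of_isEquiv {ρ₁ ρ₂ : GaloisRepAdic A} (h : ρ₁.IsEquiv ρ₂) (σ : GQ) :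
    ρ₁.trace σ = ρ₂.trace σ := by
  obtain ⟨e⟩ := h
  have h2 : ρ₂.ρ σ = e.toLinearEquiv.conj (ρ₁.ρ σ) := by
    ext y
    rw [LinearEquiv.conj_apply_apply, e.map_apply, LinearEquiv.apply_symm_apply]
  show LinearMap.trace A ρ₁.V (ρ₁.ρ σ) = LinearMap.trace A ρ₂.V (ρ₂.ρ σ)
  rw [h2, LinearMap.trace_conj']

theorem exists_isEquiv_ofMat (ρ : GaloisRepAdic A) :
    ∃ (r : GQ →* Matrix (Fin 2) (Fin 2) A) (h : MatCts A r), ρ.IsEquiv (ofMat r h) :=
  ⟨toMatrixRep ρ (chosenBasis ρ), toMatrixRep_continuous ρ (chosenBasis ρ),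
    ⟨equivOfMatrix ρ (chosenBasis ρ)⟩⟩

omit [IsLocalRing A] in
theorem conj_comm_of_conj_eq {X Y : Matrix (Fin 2) (Fin 2) A} (u : (Matrix (Fin 2) (Fin 2) A)ˣ)
    (hu : (u : Matrix (Fin 2) (Fin 2) A) * X *
      ((u⁻¹ : (Matrix (Fin 2) (Fin 2) A)ˣ) : Matrix (Fin 2) (Fin 2) A) = Y) :
    (u : Matrix (Fin 2) (Fin 2) A) * X = Y * u := by
  rw [← hu, mul_assoc, Units.inv_mul, mul_one]

theorem isEquiv_ofMat_of_conj {r₁ r₂ : GQ →* Matrix (Fin 2) (Fin 2) A} (h₁ : MatCts A r₁)
    (h₂ : MatCts A r₂) (u : (Matrix (Fin 2) (Fin 2) A)ˣ)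
    (hu : ∀ σ, (u : Matrix (Fin 2) (Fin 2) A) * r₁ σ *
      ((u⁻¹ : (Matrix (Fin 2) (Fin 2) A)ˣ) : Matrix (Fin 2) (Fin 2) A) = r₂ σ) :
    (ofMat r₁ h₁).IsEquiv (ofMat r₂ h₂) :=
  ⟨equivOfConj h₁ h₂ u fun σ => conj_comm_of_conj_eq u (hu σ)⟩

/-- conjugating preserves continuity -/
theorem MatCts.conj {r : GQ →* Matrix (Fin 2) (Fin 2) A} (h : MatCts A r)
    (u : (Matrix (Fin 2) (Fin 2) A)ˣ) (r' : GQ →* Matrix (Fin 2) (Fin 2) A)
    (hu : ∀ σ, (u : Matrix (Fin 2) (Fin 2) A) * r σ *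
      ((u⁻¹ : (Matrix (Fin 2) (Fin 2) A)ˣ) : Matrix (Fin 2) (Fin 2) A) = r' σ) :
    MatCts A r' :=
  matrixRepContinuous_of_conj h u fun σ => conj_comm_of_conj_eq u (hu σ)

variable {B : Type} [CommRing B] [IsLocalRing B]

/-- push a matrix representation along a ring hom -/
noncomputable def mapMat (φ : A →+* B) (r : GQ →* Matrix (Fin 2) (Fin 2) A) :
    GQ →* Matrix (Fin 2) (Fin 2) B :=
  (φ.mapMatrix : Matrix (Fin 2) (Fin 2) A →+* Matrix (Fin 2) (Fin 2) B).toMonoidHom.comp r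

@[simp] theorem mapMat_apply (φ : A →+* B) (r : GQ →* Matrix (Fin 2) (Fin 2) A) (σ : GQ) :
    mapMat φ r σ = (r σ).map φ := rfl

theorem mapMat_eq_mapMatrixRep (φ : A →+* B) (r : GQ →* Matrix (Fin 2) (Fin 2) A) :
    mapMat φ r = mapMatrixRep φ r := rfl

theorem MatCts.map {r : GQ →* Matrix (Fin 2) (Fin 2) A} (h : MatCts A r) (φ : A →+* B)
    (hφ : IsLocalHom φ) : MatCts B (mapMat φ r) :=
  mapMatrixRep_continuous φ hφ h

theorem baseChangeAlong_ofMat (r : GQ →* Matrix (Fin 2) (Fin 2) A) (h : MatCts A r) (φ : A →+* B)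
    (hφ : IsLocalHom φ) :
    ((ofMat r h).baseChangeAlong φ hφ).IsEquiv (ofMat (mapMat φ r) (h.map φ hφ)) :=
  ⟨ofMatrixBaseChangeEquiv φ hφ r h⟩

end E

/-! ## Task E2 : residual bridge -/
section E2

/-- If two endomorphisms have the same matrix in two bases (indexed by the same type), the
linear equivalence identifying the bases intertwines them. -/
theorem basis_equiv_intertwine {R ι V W : Type*} [CommRing R] [Fintype ι] [DecidableEq ι]
    [AddCommGroup V] [Module R V] [AddCommGroup W] [Module R W]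
    (b : Module.Basis ι R V) (c : Module.Basis ι R W) (f : V →ₗ[R] V) (g : W →ₗ[R] W)
    (h : LinearMap.toMatrix b b f = LinearMap.toMatrix c c g) (x : V) :
    b.equiv c (Equiv.refl ι) (f x) = g (b.equiv c (Equiv.refl ι) x) := by
  have he : LinearMap.toMatrix b c (b.equiv c (Equiv.refl ι)).toLinearMap = 1 := by
    ext i j
    simp [LinearMap.toMatrix_apply, Matrix.one_apply, Finsupp.single_apply, eq_comm]
  have h2 : (b.equiv c (Equiv.refl ι)).toLinearMap ∘ₗ f =
      g ∘ₗ (b.equiv c (Equiv.refl ι)).toLinearMap := by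
    apply (LinearMap.toMatrix b c).injective
    rw [LinearMap.toMatrix_comp b b c, LinearMap.toMatrix_comp b c c, he, one_mul, mul_one, h]
  exact LinearMap.congr_fun h2 x

variable {𝒪 : Type} [CommRing 𝒪] [IsLocalRing 𝒪]
variable {A : Type} [CommRing A] [IsLocalRing A] [Algebra 𝒪 A] [IsLocalHom (algebraMap 𝒪 A)]

/-- matrices of the residual representation in a basis -/
noncomputable def resMat (ρbar : ResidualGaloisRep (ResidueField 𝒪))
    (b : Module.Basis (Fin 2) (ResidueField 𝒪) ρbar.V) :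
    GQ →* Matrix (Fin 2) (Fin 2) (ResidueField 𝒪) :=
  ((LinearMap.toMatrixAlgEquiv b).toRingEquiv.toRingHom.toMonoidHom).comp ρbar.ρ

theorem resMat_apply (ρbar : ResidualGaloisRep (ResidueField 𝒪))
    (b : Module.Basis (Fin 2) (ResidueField 𝒪) ρbar.V) (σ : GQ) :
    resMat ρbar b σ = LinearMap.toMatrix b b (ρbar.ρ σ) := rfl

/-- `r` reduces exactly to the matrices `rbar` of `ρbar` -/
def IsStrictLift (rbar : GQ →* Matrix (Fin 2) (Fin 2) (ResidueField 𝒪))
    (r : GQ →* Matrix (Fin 2) (Fin 2) A) : Prop :=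
  ∀ σ, (r σ).map (residue A) = (rbar σ).map (ResidueField.map (algebraMap 𝒪 A))

/-- The induced basis of the residual representation. -/
noncomputable def residualBasis (ρ : GaloisRepAdic A) (b : Module.Basis (Fin 2) A ρ.V) :
    Module.Basis (Fin 2) (ResidueField A) ρ.residual.V :=
  Algebra.TensorProduct.basis (ResidueField A) b

theorem toMatrix_residual (ρ : GaloisRepAdic A) (b : Module.Basis (Fin 2) A ρ.V) (σ : GQ) :
    LinearMap.toMatrix (residualBasis ρ b) (residualBasis ρ b) (ρ.residual.ρ σ) =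
      (toMatrixRep ρ b σ).map (residue A) := by
  show LinearMap.toMatrix (Algebra.TensorProduct.basis (ResidueField A) b)
    (Algebra.TensorProduct.basis (ResidueField A) b)
    ((ρ.ρ σ).baseChange (ResidueField A)) = (LinearMap.toMatrix b b (ρ.ρ σ)).map (residue A)
  rw [LinearMap.toMatrix_baseChange]
  rfl

/-- The induced basis of a base change of a residual representation. -/
noncomputable def resBaseChangeBasis {k k' : Type} [Field k] [Field k'] (φ : k →+* k')
    (ρbar : ResidualGaloisRep k) (b : Module.Basis (Fin 2) k ρbar.V) :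
    Module.Basis (Fin 2) k' (ρbar.baseChangeAlong φ).V :=
  letI : Algebra k k' := φ.toAlgebra
  Algebra.TensorProduct.basis k' b

theorem toMatrix_resBaseChange {k k' : Type} [Field k] [Field k'] (φ : k →+* k')
    (ρbar : ResidualGaloisRep k) (b : Module.Basis (Fin 2) k ρbar.V) (σ : GQ) :
    LinearMap.toMatrix (resBaseChangeBasis φ ρbar b) (resBaseChangeBasis φ ρbar b)
      ((ρbar.baseChangeAlong φ).ρ σ) = (LinearMap.toMatrix b b (ρbar.ρ σ)).map φ := by
  let _ : Algebra k k' := φ.toAlgebra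
  show LinearMap.toMatrix (Algebra.TensorProduct.basis k' b) (Algebra.TensorProduct.basis k' b)
    ((ρbar.ρ σ).baseChange k') = (LinearMap.toMatrix b b (ρbar.ρ σ)).map φ
  rw [LinearMap.toMatrix_baseChange]
  rfl

theorem residual_ofMat_isEquiv (ρbar : ResidualGaloisRep (ResidueField 𝒪))
    (b : Module.Basis (Fin 2) (ResidueField 𝒪) ρbar.V)
    (r : GQ →* Matrix (Fin 2) (Fin 2) A) (h : MatCts A r)
    (hr : IsStrictLift (𝒪 := 𝒪) (resMat ρbar b) r) :
    (ofMat r h).residual.IsEquiv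
      (ρbar.baseChangeAlong (ResidueField.map (algebraMap 𝒪 A))) := by
  refine ⟨⟨(residualBasis (ofMat r h) (ofMatBasis r h)).equiv
    (resBaseChangeBasis (ResidueField.map (algebraMap 𝒪 A)) ρbar b) (Equiv.refl _), fun σ x => ?_⟩⟩
  apply basis_equiv_intertwine
  rw [toMatrix_residual, toMatrix_resBaseChange, toMatrixRep_ofMat]
  exact hr σ

theorem exists_strictLift_of_residual_isEquiv (ρbar : ResidualGaloisRep (ResidueField 𝒪))
    (b : Module.Basis (Fin 2) (ResidueField 𝒪) ρbar.V) (ρ : GaloisRepAdic A)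
    (hρ : ρ.residual.IsEquiv (ρbar.baseChangeAlong (ResidueField.map (algebraMap 𝒪 A)))) :
    ∃ (r : GQ →* Matrix (Fin 2) (Fin 2) A) (h : MatCts A r),
      IsStrictLift (𝒪 := 𝒪) (resMat ρbar b) r ∧ ρ.IsEquiv (ofMat r h) := by
  obtain ⟨e⟩ := hρ
  set ι := ResidueField.map (algebraMap 𝒪 A) with hι
  set b0 := chosenBasis ρ with hb0
  set bA := residualBasis ρ b0 with hbA
  set bk := resBaseChangeBasis ι ρbar b with hbk
  have hM0 := toMatrixRep_continuous ρ b0
  -- the matrix of `e`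
  let Tbar : (Matrix (Fin 2) (Fin 2) (ResidueField A))ˣ :=
    ⟨LinearMap.toMatrix bA bk e.toLinearEquiv.toLinearMap,
      LinearMap.toMatrix bk bA e.toLinearEquiv.symm.toLinearMap,
      by rw [← LinearMap.toMatrix_comp, LinearEquiv.comp_symm, LinearMap.toMatrix_id],
      by rw [← LinearMap.toMatrix_comp, LinearEquiv.symm_comp, LinearMap.toMatrix_id]⟩
  have hTbar : ∀ σ, (Tbar : Matrix (Fin 2) (Fin 2) (ResidueField A)) *
      (toMatrixRep ρ b0 σ).map (residue A) = (resMat ρbar b σ).map ι * Tbar := by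
    intro σ
    rw [← toMatrix_residual, resMat_apply, ← toMatrix_resBaseChange]
    show LinearMap.toMatrix bA bk e.toLinearEquiv.toLinearMap *
        LinearMap.toMatrix bA bA (ρ.residual.ρ σ) =
      LinearMap.toMatrix bk bk ((ρbar.baseChangeAlong ι).ρ σ) *
        LinearMap.toMatrix bA bk e.toLinearEquiv.toLinearMap
    rw [← LinearMap.toMatrix_comp, ← LinearMap.toMatrix_comp]
    congr 1
    ext x
    exact e.map_apply σ x
  obtain ⟨T, hT⟩ := exists_unit_matrix_lift (residue A) residue_surjective Tbar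
  have hTinv : ((T⁻¹ : (Matrix (Fin 2) (Fin 2) A)ˣ) : Matrix (Fin 2) (Fin 2) A).map (residue A) =
      ((Tbar⁻¹ : (Matrix (Fin 2) (Fin 2) (ResidueField A))ˣ) :
        Matrix (Fin 2) (Fin 2) (ResidueField A)) := by
    have h1 : ((T⁻¹ : (Matrix (Fin 2) (Fin 2) A)ˣ) : Matrix (Fin 2) (Fin 2) A).map (residue A) *
        (Tbar : Matrix (Fin 2) (Fin 2) (ResidueField A)) = 1 := by
      rw [← hT, ← Matrix.map_mul, Units.inv_mul, Matrix.map_one _ (map_zero _) (map_one _)]
    calc _ = ((T⁻¹ : (Matrix (Fin 2) (Fin 2) A)ˣ) : Matrix (Fin 2) (Fin 2) A).map (residue A) *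
          ((Tbar : Matrix (Fin 2) (Fin 2) (ResidueField A)) *
            ((Tbar⁻¹ : (Matrix (Fin 2) (Fin 2) (ResidueField A))ˣ) :
              Matrix (Fin 2) (Fin 2) (ResidueField A))) := by rw [Units.mul_inv, mul_one]
      _ = _ := by rw [← mul_assoc, h1, one_mul]
  refine ⟨conjMatrixRep T⁻¹ (toMatrixRep ρ b0), ?_, ?_, ?_⟩
  · refine matrixRepContinuous_of_conj hM0 T fun σ => ?_
    rw [conjMatrixRep_apply, inv_inv, mul_assoc, Units.inv_mul, mul_one]
  · intro σ
    rw [conjMatrixRep_apply, inv_inv, Matrix.map_mul, Matrix.map_mul, hT, hTinv, hTbar σ,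
      mul_assoc, Units.mul_inv, mul_one]
  · refine ⟨(equivOfMatrix ρ b0).trans (equivOfConj hM0 _ T fun σ => ?_)⟩
    rw [conjMatrixRep_apply, inv_inv, mul_assoc, Units.inv_mul, mul_one]

section Functoriality

variable {B : Type} [CommRing B] [IsLocalRing B] [Algebra 𝒪 B] [IsLocalHom (algebraMap 𝒪 B)]

/-- residue field maps are compatible with `𝒪`-algebra homomorphisms -/
theorem residueFieldMap_algHom_apply (φ : A →ₐ[𝒪] B) [IsLocalHom (φ : A →+* B)]
    (x : ResidueField 𝒪) :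
    ResidueField.map (φ : A →+* B) (ResidueField.map (algebraMap 𝒪 A) x) =
      ResidueField.map (algebraMap 𝒪 B) x := by
  obtain ⟨c, rfl⟩ := residue_surjective x
  rw [ResidueField.map_residue, ResidueField.map_residue, ResidueField.map_residue]
  congr 1
  exact φ.commutes c

theorem IsStrictLift.map {rbar : GQ →* Matrix (Fin 2) (Fin 2) (ResidueField 𝒪)}
    {r : GQ →* Matrix (Fin 2) (Fin 2) A} (hr : IsStrictLift (𝒪 := 𝒪) rbar r)
    (φ : A →ₐ[𝒪] B) (hφ : IsLocalHom (φ : A →+* B)) :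
    IsStrictLift (𝒪 := 𝒪) rbar (mapMat (φ : A →+* B) r) := by
  intro σ
  refine Matrix.ext fun i j => ?_
  have h1 := congrFun (congrFun (hr σ) i) j
  simp only [Matrix.map_apply] at h1
  simp only [mapMat_apply, Matrix.map_apply]
  rw [← residueFieldMap_algHom_apply φ, ← h1, ResidueField.map_residue]

theorem IsStrictLift.of_map {rbar : GQ →* Matrix (Fin 2) (Fin 2) (ResidueField 𝒪)}
    {r : GQ →* Matrix (Fin 2) (Fin 2) A} (φ : A →ₐ[𝒪] B) (hφ : IsLocalHom (φ : A →+* B))
    (hr : IsStrictLift (𝒪 := 𝒪) rbar (mapMat (φ : A →+* B) r)) :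
    IsStrictLift (𝒪 := 𝒪) rbar r := by
  intro σ
  refine Matrix.ext fun i j => ?_
  have h1 := congrFun (congrFun (hr σ) i) j
  simp only [mapMat_apply, Matrix.map_apply] at h1
  simp only [Matrix.map_apply]
  apply (ResidueField.map (φ : A →+* B)).injective
  rw [residueFieldMap_algHom_apply φ, ← h1, ResidueField.map_residue]

/-- A strict lift of `rbar` has the trace of `rbar` modulo the maximal ideal. -/
theorem IsStrictLift.residue_trace {rbar : GQ →* Matrix (Fin 2) (Fin 2) (ResidueField 𝒪)}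
    {r : GQ →* Matrix (Fin 2) (Fin 2) A} (hr : IsStrictLift (𝒪 := 𝒪) rbar r) (σ : GQ) :
    residue A (r σ).trace = ResidueField.map (algebraMap 𝒪 A) (rbar σ).trace := by
  have h1 := congrArg Matrix.trace (hr σ)
  rw [← AddMonoidHom.map_trace, ← AddMonoidHom.map_trace] at h1
  exact h1

end Functoriality

end E2

end Fermat.Agent.S53Lib
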