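/-
S53 library: levels `A ⧸ m^(n+1)` of a complete Noetherian local `𝒪`-algebra are Artinian test
algebras (task E3(e)); assembling compatible families of maps to the levels (task K).
-/
import Mathlib
import Fermat.Prelude.Def_GaloisRep_DeformationRingData
import Fermat.Prelude.Def_GaloisRep_DeformationCondition

set_option autoImplicit false
set_option linter.unusedSectionVars false

namespace Fermat.Agent.S53Lib

open IsLocalRing GaloisRep

section Levels

variable (𝒪 : Type) [CommRing 𝒪] [IsLocalRing 𝒪]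
variable (A : Type) [CommRing A] [IsLocalRing A] [Algebra 𝒪 A]

/-- `m_A ^ (n+1)` is a proper ideal. -/
theorem maximalIdeal_pow_succ_ne_top (n : ℕ) : maximalIdeal A ^ (n + 1) ≠ ⊤ := by
  intro h
  have h1 : maximalIdeal A ^ (n + 1) ≤ maximalIdeal A := Ideal.pow_le_self (Nat.succ_ne_zero n)
  rw [h] at h1
  exact (maximalIdeal.isMaximal A).ne_top (top_le_iff.mp h1)

instance level_nontrivial (n : ℕ) : Nontrivial (A ⧸ maximalIdeal A ^ (n + 1)) :=
  Ideal.Quotient.nontrivial_iff.mpr (maximalIdeal_pow_succ_ne_top A n)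

instance level_isLocalRing (n : ℕ) : IsLocalRing (A ⧸ maximalIdeal A ^ (n + 1)) :=
  IsLocalRing.of_surjective' (Ideal.Quotient.mk _) Ideal.Quotient.mk_surjective

instance level_isLocalHom_mk (n : ℕ) :
    IsLocalHom (Ideal.Quotient.mk (maximalIdeal A ^ (n + 1))) :=
  IsLocalHom.of_surjective _ Ideal.Quotient.mk_surjective

/-- the projection to the `n`-th level, as an algebra hom -/
abbrev levelMk (n : ℕ) : A →ₐ[𝒪] A ⧸ maximalIdeal A ^ (n + 1) :=
  Ideal.Quotient.mkₐ 𝒪 (maximalIdeal A ^ (n + 1))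

theorem levelMk_surjective (n : ℕ) : Function.Surjective (levelMk 𝒪 A n) :=
  Ideal.Quotient.mkₐ_surjective 𝒪 _

theorem levelMk_isLocalHom (n : ℕ) : IsLocalHom (levelMk 𝒪 A n : A →+* A ⧸ maximalIdeal A ^ (n + 1)) :=
  level_isLocalHom_mk A n

/-- the transition map between consecutive levels -/
abbrev levelTrans (n : ℕ) :
    (A ⧸ maximalIdeal A ^ (n + 1 + 1)) →ₐ[𝒪] A ⧸ maximalIdeal A ^ (n + 1) :=
  Ideal.Quotient.factorₐ 𝒪 (Ideal.pow_le_pow_right (Nat.le_succ (n + 1)))

theorem levelTrans_comp_levelMk (n : ℕ) :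
    (levelTrans 𝒪 A n).comp (levelMk 𝒪 A (n + 1)) = levelMk 𝒪 A n := by
  ext x
  rfl

theorem levelTrans_surjective (n : ℕ) : Function.Surjective (levelTrans 𝒪 A n) :=
  Ideal.Quotient.factor_surjective (Ideal.pow_le_pow_right (Nat.le_succ (n + 1)))

theorem levelTrans_isLocalHom (n : ℕ) :
    IsLocalHom (levelTrans 𝒪 A n :
      (A ⧸ maximalIdeal A ^ (n + 1 + 1)) →+* A ⧸ maximalIdeal A ^ (n + 1)) :=
  IsLocalHom.of_surjective _ (levelTrans_surjective 𝒪 A n)

/-- the maximal ideal of the `n`-th level is the image of the maximal ideal -/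
theorem maximalIdeal_level (n : ℕ) :
    maximalIdeal (A ⧸ maximalIdeal A ^ (n + 1)) =
      (maximalIdeal A).map (Ideal.Quotient.mk (maximalIdeal A ^ (n + 1))) := by
  ext x
  obtain ⟨a, rfl⟩ := Ideal.Quotient.mk_surjective x
  rw [mem_maximalIdeal, mem_nonunits_iff]
  constructor
  · intro h
    apply Ideal.mem_map_of_mem
    rw [mem_maximalIdeal, mem_nonunits_iff]
    intro ha
    exact h (ha.map _)
  · intro h hu
    have hu' : IsUnit a := (level_isLocalHom_mk A n).map_nonunit a hu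
    rw [Ideal.mem_map_iff_of_surjective _ Ideal.Quotient.mk_surjective] at h
    obtain ⟨b, hb, hab⟩ := h
    have : a - b ∈ maximalIdeal A ^ (n + 1) := by
      rw [← Ideal.Quotient.eq]; exact hab.symm
    have h2 : a - b ∈ maximalIdeal A := Ideal.pow_le_self (Nat.succ_ne_zero n) this
    have h3 : a ∈ maximalIdeal A := by
      have := (maximalIdeal A).add_mem h2 hb
      simpa using this
    exact (mem_nonunits_iff.mp ((mem_maximalIdeal a).mp h3)) hu'

theorem maximalIdeal_level_pow_eq_bot (n : ℕ) :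
    maximalIdeal (A ⧸ maximalIdeal A ^ (n + 1)) ^ (n + 1) = ⊥ := by
  rw [maximalIdeal_level, ← Ideal.map_pow, Ideal.map_quotient_self]

/-- **Task E3(e)**: the levels `A ⧸ m^(n+1)` of a Noetherian local `𝒪`-algebra with local
structure map and surjective residue map are Artinian test algebras. -/
theorem level_isArtinianTestAlgebra [IsNoetherianRing A] [IsLocalHom (algebraMap 𝒪 A)]
    (hsurj : Function.Surjective (residue A ∘ algebraMap 𝒪 A)) (n : ℕ) :
    IsArtinianTestAlgebra 𝒪 (A ⧸ maximalIdeal A ^ (n + 1)) where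
  isLocalHom := by
    have h : (algebraMap 𝒪 (A ⧸ maximalIdeal A ^ (n + 1))) =
        (Ideal.Quotient.mk (maximalIdeal A ^ (n + 1))).comp (algebraMap 𝒪 A) := rfl
    rw [h]
    exact RingHom.isLocalHom_comp _ _
  residue_surjective := by
    intro y
    obtain ⟨x, rfl⟩ := residue_surjective y
    obtain ⟨a, rfl⟩ := Ideal.Quotient.mk_surjective x
    obtain ⟨c, hc⟩ := hsurj (residue A a)
    refine ⟨c, ?_⟩
    simp only [Function.comp_apply] at hc ⊢
    have h1 : algebraMap 𝒪 A c - a ∈ maximalIdeal A := by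
      rw [← residue_eq_zero_iff, map_sub, hc, sub_self]
    have h2 : algebraMap 𝒪 (A ⧸ maximalIdeal A ^ (n + 1)) c - Ideal.Quotient.mk _ a ∈
        maximalIdeal (A ⧸ maximalIdeal A ^ (n + 1)) := by
      rw [maximalIdeal_level]
      have := Ideal.mem_map_of_mem (Ideal.Quotient.mk (maximalIdeal A ^ (n + 1))) h1
      simpa using this
    rw [← residue_eq_zero_iff, map_sub, sub_eq_zero] at h2
    exact h2
  isArtinian := by
    rw [isArtinianRing_iff_isNilpotent_maximalIdeal]
    exact ⟨n + 1, maximalIdeal_level_pow_eq_bot A n⟩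

end Levels

section Assembly

variable (𝒪 : Type) [CommRing 𝒪]
variable (A : Type) [CommRing A] [IsLocalRing A] [Algebra 𝒪 A]
  [IsAdicComplete (maximalIdeal A) A]

/-- Separatedness: two elements agreeing at all levels are equal. -/
theorem eq_of_forall_levelMk_eq {a b : A}
    (h : ∀ n : ℕ, Ideal.Quotient.mk (maximalIdeal A ^ (n + 1)) a =
      Ideal.Quotient.mk (maximalIdeal A ^ (n + 1)) b) : a = b := by
  rw [← sub_eq_zero]
  apply IsHausdorff.haus (inferInstance : IsHausdorff (maximalIdeal A) A)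
  intro n
  have hn := h n
  rw [Ideal.Quotient.eq] at hn
  rw [SModEq.zero, smul_eq_mul, Ideal.mul_top]
  exact Ideal.pow_le_pow_right (Nat.le_succ n) hn

variable {R : Type*} [CommRing R] [Algebra 𝒪 R]

/-- Two algebra homs into a complete local ring agreeing at all levels are equal. -/
theorem algHom_ext_of_levels {f g : R →ₐ[𝒪] A}
    (h : ∀ n : ℕ, (Ideal.Quotient.mkₐ 𝒪 (maximalIdeal A ^ (n + 1))).comp f =
      (Ideal.Quotient.mkₐ 𝒪 (maximalIdeal A ^ (n + 1))).comp g) : f = g := by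
  apply AlgHom.ext
  intro x
  apply eq_of_forall_levelMk_eq A
  intro n
  exact congrArg (fun φ => φ x) (h n)

/-- auxiliary: the family indexed by all `n`, obtained by an index shift -/
noncomputable def shiftFamily (φ : ∀ n, R →ₐ[𝒪] A ⧸ maximalIdeal A ^ (n + 1)) :
    ∀ n, R →ₐ[𝒪] A ⧸ maximalIdeal A ^ n
  | 0 => (Ideal.Quotient.factorₐ 𝒪 (Ideal.pow_le_pow_right (Nat.zero_le 1) :
      maximalIdeal A ^ (0 + 1) ≤ maximalIdeal A ^ 0)).comp (φ 0)
  | (n + 1) => φ n

theorem compatible_levels_of_step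
    (φ : ∀ n, R →ₐ[𝒪] A ⧸ maximalIdeal A ^ (n + 1))
    (hφ : ∀ n, (levelTrans 𝒪 A n).comp (φ (n + 1)) = φ n)
    (m n : ℕ) (hle : m ≤ n) :
    (Ideal.Quotient.factorₐ 𝒪 (Ideal.pow_le_pow_right (Nat.succ_le_succ hle) :
      maximalIdeal A ^ (n + 1) ≤ maximalIdeal A ^ (m + 1))).comp (φ n) = φ m := by
  induction n, hle using Nat.le_induction with
  | base =>
    rw [Ideal.Quotient.factorₐ_refl]
    exact AlgHom.id_comp _
  | succ n hmn ih =>
    rw [← ih, ← hφ n, ← AlgHom.comp_assoc, Ideal.Quotient.factorₐ_comp]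

/-- **Task K**: a compatible family of algebra homs to the levels `A ⧸ m^(n+1)` of a complete
local ring assembles to an algebra hom to `A`. -/
theorem exists_algHom_of_compatible_levels
    (φ : ∀ n, R →ₐ[𝒪] A ⧸ maximalIdeal A ^ (n + 1))
    (hφ : ∀ n, (levelTrans 𝒪 A n).comp (φ (n + 1)) = φ n) :
    ∃ Φ : R →ₐ[𝒪] A, ∀ n, (Ideal.Quotient.mkₐ 𝒪 (maximalIdeal A ^ (n + 1))).comp Φ = φ n := by
  have hcompat : ∀ {m n : ℕ} (hle : m ≤ n),
      (Ideal.Quotient.factorₐ 𝒪 (Ideal.pow_le_pow_right hle :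
        maximalIdeal A ^ n ≤ maximalIdeal A ^ m)).comp (shiftFamily 𝒪 A φ n) =
        shiftFamily 𝒪 A φ m := by
    intro m n hle
    cases m with
    | zero =>
      haveI : Subsingleton (A ⧸ maximalIdeal A ^ 0) := by
        rw [pow_zero, Ideal.one_eq_top]
        exact Ideal.Quotient.subsingleton_iff.mpr rfl
      ext x
      exact Subsingleton.elim _ _
    | succ m =>
      cases n with
      | zero => omega
      | succ n =>
        exact compatible_levels_of_step 𝒪 A φ hφ m n (Nat.le_of_succ_le_succ hle)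
  refine ⟨IsAdicComplete.liftAlgHom (maximalIdeal A) (shiftFamily 𝒪 A φ) hcompat, fun n => ?_⟩
  exact IsAdicComplete.mkₐ_comp_liftAlgHom (maximalIdeal A) (shiftFamily 𝒪 A φ) hcompat (n + 1)

end Assembly

end Fermat.Agent.S53Lib
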