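import Mathlib
import Fermat.Prelude.Def_GaloisRep_DeformationCondition
import Fermat.Agent.Lib.S53.MatInterface
import Fermat.Agent.Lib.S53.Aug

/-!
# S53 library: strict lifts and fibre products over `k`  (helper4, E3 extras)

* `isStrictLift_iff_map_augOf` : `IsStrictLift rbar r ↔ ∀ σ, (r σ).map aug = rbar σ`.
* `exists_glue_strictLift` : two strict lifts over `A`, `B` glue to a strict lift over `A ×_k B`.
* `of_fk_ofMat` : the deformation condition for `ofMat r` over `A ×_k B` follows from the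
  deformation condition of its two projections.
-/

set_option autoImplicit false
set_option linter.unusedSectionVars false

namespace Fermat.Agent.S53Lib

open IsLocalRing GaloisRep

variable {𝒪 : Type} [CommRing 𝒪] [IsLocalRing 𝒪]
variable {A B : Type} [CommRing A] [IsLocalRing A] [Algebra 𝒪 A]
  [CommRing B] [IsLocalRing B] [Algebra 𝒪 B]

instance fp_algebraMap_isLocalHom {C : Type} [CommRing C] [Algebra 𝒪 C] (f : A →ₐ[𝒪] C)
    (g : B →ₐ[𝒪] C) [hA : IsLocalHom (algebraMap 𝒪 A)] :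
    IsLocalHom (algebraMap 𝒪 (fibreProduct f g)) :=
  ⟨fun c hc => by
    have h1 : IsUnit (fpFst f g (algebraMap 𝒪 (fibreProduct f g) c)) := hc.map _
    rw [AlgHom.commutes] at h1
    exact hA.map_nonunit _ h1⟩

instance subalgebra_algebraMap_isLocalHom (S : Subalgebra 𝒪 A) [hA : IsLocalHom (algebraMap 𝒪 A)] :
    IsLocalHom (algebraMap 𝒪 S) :=
  ⟨fun c hc => by
    have h1 : IsUnit (S.val (algebraMap 𝒪 S c)) := hc.map _
    rw [AlgHom.commutes] at h1
    exact hA.map_nonunit _ h1⟩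

theorem isStrictLift_iff_map_augOf [hloc : IsLocalHom (algebraMap 𝒪 A)]
    (hsurj : Function.Surjective (residue A ∘ algebraMap 𝒪 A))
    (rbar : GQ →* Matrix (Fin 2) (Fin 2) (ResidueField 𝒪)) (r : GQ →* Matrix (Fin 2) (Fin 2) A) :
    IsStrictLift (𝒪 := 𝒪) rbar r ↔ ∀ σ, (r σ).map (augOf hloc hsurj) = rbar σ := by
  constructor
  · intro h σ
    refine Matrix.ext fun i j => ?_
    have h1 := congrFun (congrFun (h σ) i) j
    simp only [Matrix.map_apply] at h1 ⊢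
    rw [augOf_eq_iff]
    exact h1
  · intro h σ
    refine Matrix.ext fun i j => ?_
    have h1 := congrFun (congrFun (h σ) i) j
    simp only [Matrix.map_apply] at h1 ⊢
    rw [← h1, residueFieldMap_augOf]

theorem isStrictLift_iff_map_aug [IsLocalHom (algebraMap 𝒪 A)] (hA : IsArtinianTestAlgebra 𝒪 A)
    (rbar : GQ →* Matrix (Fin 2) (Fin 2) (ResidueField 𝒪)) (r : GQ →* Matrix (Fin 2) (Fin 2) A) :
    IsStrictLift (𝒪 := 𝒪) rbar r ↔ ∀ σ, (r σ).map (aug hA) = rbar σ :=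
  isStrictLift_iff_map_augOf hA.residue_surjective rbar r

/-- Two strict lifts of the same residual matrices glue to a strict lift over `A ×_k B`. -/
theorem exists_glue_strictLift [IsLocalHom (algebraMap 𝒪 A)] [IsLocalHom (algebraMap 𝒪 B)]
    (hA : IsArtinianTestAlgebra 𝒪 A) (hB : IsArtinianTestAlgebra 𝒪 B)
    {rbar : GQ →* Matrix (Fin 2) (Fin 2) (ResidueField 𝒪)}
    {rA : GQ →* Matrix (Fin 2) (Fin 2) A} {rB : GQ →* Matrix (Fin 2) (Fin 2) B}
    (hcA : MatCts A rA) (hcB : MatCts B rB)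
    (hsA : IsStrictLift (𝒪 := 𝒪) rbar rA) (hsB : IsStrictLift (𝒪 := 𝒪) rbar rB) :
    ∃ (r : GQ →* Matrix (Fin 2) (Fin 2) (Fk hA hB)) (_ : MatCts (Fk hA hB) r),
      IsStrictLift (𝒪 := 𝒪) rbar r ∧
      mapMat ((fkFst hA hB : Fk hA hB →ₐ[𝒪] A) : Fk hA hB →+* A) r = rA ∧
      mapMat ((fkSnd hA hB : Fk hA hB →ₐ[𝒪] B) : Fk hA hB →+* B) r = rB := by
  have := hA.isArtinian
  have := hB.isArtinian
  have hcompat : ∀ σ, (rA σ).map (aug hA) = (rB σ).map (aug hB) := fun σ => by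
    rw [(isStrictLift_iff_map_aug hA rbar rA).mp hsA σ, (isStrictLift_iff_map_aug hB rbar rB).mp hsB σ]
  have hfl : MatrixRepFiniteLevel (glueMatrixRep (aug hA) (aug hB) rA rB hcompat) :=
    glueMatrixRep_finiteLevel (aug hA) (aug hB) hcompat
      (MatrixRepContinuous.finiteLevel hcA) (MatrixRepContinuous.finiteLevel hcB)
  have h1 : mapMat ((fkFst hA hB : Fk hA hB →ₐ[𝒪] A) : Fk hA hB →+* A)
      (glueMatrixRep (aug hA) (aug hB) rA rB hcompat) = rA :=
    mapMatrixRep_fpFst_glue (aug hA) (aug hB) rA rB hcompat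
  have h2 : mapMat ((fkSnd hA hB : Fk hA hB →ₐ[𝒪] B) : Fk hA hB →+* B)
      (glueMatrixRep (aug hA) (aug hB) rA rB hcompat) = rB :=
    mapMatrixRep_fpSnd_glue (aug hA) (aug hB) rA rB hcompat
  refine ⟨glueMatrixRep (aug hA) (aug hB) rA rB hcompat, hfl.continuous, ?_, h1, h2⟩
  refine IsStrictLift.of_map (fkFst hA hB) inferInstance ?_
  rw [h1]
  exact hsA

/-- The deformation condition over `A ×_k B` can be checked on the two projections
(matrix form). -/
theorem of_fk_ofMat [Finite (ResidueField 𝒪)]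
    {𝒟 : ∀ ⦃A : Type⦄ [CommRing A] [IsLocalRing A] [Algebra 𝒪 A], GaloisRepAdic A → Prop}
    (h𝒟 : IsDeformationCondition 𝒪 𝒟)
    (hA : IsArtinianTestAlgebra 𝒪 A) (hB : IsArtinianTestAlgebra 𝒪 B)
    (r : GQ →* Matrix (Fin 2) (Fin 2) (Fk hA hB)) (hr : MatCts (Fk hA hB) r)
    (h1 : 𝒟 (ofMat (mapMat ((fkFst hA hB : Fk hA hB →ₐ[𝒪] A) : Fk hA hB →+* A) r)
      (hr.map _ inferInstance)))
    (h2 : 𝒟 (ofMat (mapMat ((fkSnd hA hB : Fk hA hB →ₐ[𝒪] B) : Fk hA hB →+* B) r)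
      (hr.map _ inferInstance))) :
    𝒟 (ofMat r hr) := by
  refine of_fk hA hB h𝒟 (ofMat r hr) ?_ ?_
  · obtain ⟨e⟩ := baseChangeAlong_ofMat r hr
      ((fkFst hA hB : Fk hA hB →ₐ[𝒪] A) : Fk hA hB →+* A) inferInstance
    exact h𝒟.of_isEquiv hA ⟨e.symm⟩ h1
  · obtain ⟨e⟩ := baseChangeAlong_ofMat r hr
      ((fkSnd hA hB : Fk hA hB →ₐ[𝒪] B) : Fk hA hB →+* B) inferInstance
    exact h𝒟.of_isEquiv hB ⟨e.symm⟩ h2

end Fermat.Agent.S53Lib
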