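/-
S53 team project, tasks F1 + F2, part 1 (helper9): push-forward of strict lifts and
strictification (conjugating a lift with the right residual traces to a strict lift).
-/
import Fermat.Agent.Lib.S53.Basic
import Fermat.Agent.Lib.S53.MatInterface
import Fermat.Agent.Lib.S53.TraceRigidity
import Fermat.Agent.Lib.S53.TestAlgebra

set_option autoImplicit false

namespace Fermat.Agent.S53Lib

open Matrix IsLocalRing GaloisRep

noncomputable section

section F

variable {𝒪 : Type} [CommRing 𝒪] [IsLocalRing 𝒪]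
variable {rbar : GQ →* Matrix (Fin 2) (Fin 2) (ResidueField 𝒪)}
variable {𝒟 : ∀ ⦃A : Type⦄ [CommRing A] [IsLocalRing A] [Algebra 𝒪 A], GaloisRepAdic A → Prop}

section push
variable {A B : Type} [CommRing A] [IsLocalRing A] [Algebra 𝒪 A] [IsLocalHom (algebraMap 𝒪 A)]
  [CommRing B] [IsLocalRing B] [Algebra 𝒪 B] [IsLocalHom (algebraMap 𝒪 B)]

/-- compatibility of the residue field maps with an `𝒪`-algebra hom -/
theorem residueField_map_map (φ : A →ₐ[𝒪] B) [IsLocalHom (φ : A →+* B)]
    (y : ResidueField 𝒪) :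
    ResidueField.map (φ : A →+* B) (ResidueField.map (algebraMap 𝒪 A) y) =
      ResidueField.map (algebraMap 𝒪 B) y := by
  obtain ⟨c, rfl⟩ := IsLocalRing.residue_surjective y
  rw [ResidueField.map_residue, ResidueField.map_residue, ResidueField.map_residue]
  congr 1
  exact φ.commutes c

theorem isStrictLift_mapMat {r : GQ →* Matrix (Fin 2) (Fin 2) A}
    (hr : IsStrictLift (𝒪 := 𝒪) rbar r) (φ : A →ₐ[𝒪] B) (hφ : IsLocalHom (φ : A →+* B)) :
    IsStrictLift (𝒪 := 𝒪) rbar (mapMat (φ : A →+* B) r) := by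
  intro σ
  ext i j
  have h1 := congrFun (congrFun (hr σ) i) j
  simp only [Matrix.map_apply] at h1
  have h2 := congrArg (ResidueField.map (φ : A →+* B)) h1
  rw [ResidueField.map_residue, residueField_map_map] at h2
  simpa [mapMat, Matrix.map_apply] using h2

theorem isOfType_mapMat (h𝒟 : IsDeformationCondition 𝒪 𝒟)
    (hA : IsArtinianTestAlgebra 𝒪 A) (hB : IsArtinianTestAlgebra 𝒪 B)
    {r : GQ →* Matrix (Fin 2) (Fin 2) A} (h : MatCts A r) (hr : 𝒟 (ofMat r h))
    (φ : A →ₐ[𝒪] B) (hφ : IsLocalHom (φ : A →+* B)) :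
    𝒟 (ofMat (mapMat (φ : A →+* B) r) (h.map _ hφ)) := by
  have h1 := h𝒟.baseChangeAlong hA hB φ hφ hr
  exact h𝒟.of_isEquiv hB (baseChangeAlong_ofMat r h (φ : A →+* B) hφ) h1

end push

section descent
variable {A B : Type} [CommRing A] [IsLocalRing A] [Algebra 𝒪 A] [IsLocalHom (algebraMap 𝒪 A)]
  [CommRing B] [IsLocalRing B] [Algebra 𝒪 B] [IsLocalHom (algebraMap 𝒪 B)]

/-- units of the residue field lift: `GL₂(k_A)` lifts to `GL₂(A)`. -/
theorem exists_unit_matrix_lift_residue (ubar : (Matrix (Fin 2) (Fin 2) (ResidueField A))ˣ) :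
    ∃ v : (Matrix (Fin 2) (Fin 2) A)ˣ,
      (v : Matrix (Fin 2) (Fin 2) A).map (residue A) =
        (ubar : Matrix (Fin 2) (Fin 2) (ResidueField A)) := by
  classical
  -- lift the entries
  have hlift : ∀ i j, ∃ a : A, residue A a =
      (ubar : Matrix (Fin 2) (Fin 2) (ResidueField A)) i j :=
    fun i j => IsLocalRing.residue_surjective _
  choose f hf using hlift
  let v₀ : Matrix (Fin 2) (Fin 2) A := Matrix.of f
  have hv₀ : v₀.map (residue A) = (ubar : Matrix (Fin 2) (Fin 2) (ResidueField A)) := by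
    ext i j
    exact hf i j
  have hdet : IsUnit v₀.det := by
    have h1 : residue A v₀.det = (ubar : Matrix (Fin 2) (Fin 2) (ResidueField A)).det := by
      rw [← hv₀, ← RingHom.mapMatrix_apply, ← RingHom.map_det]
    have h2 : IsUnit (ubar : Matrix (Fin 2) (Fin 2) (ResidueField A)).det :=
      (Matrix.isUnit_iff_isUnit_det _).mp ubar.isUnit
    rw [← h1] at h2
    exact isUnit_of_map_unit (residue A) _ h2
  obtain ⟨v, hv⟩ := (Matrix.isUnit_iff_isUnit_det v₀).mpr hdet
  exact ⟨v, by rw [hv]; exact hv₀⟩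

/-- the trace of an entrywise mapped matrix -/
theorem trace_map_ringHom {R S : Type*} [CommRing R] [CommRing S] (f : R →+* S)
    (M : Matrix (Fin 2) (Fin 2) R) : (M.map f).trace = f M.trace := by
  simp [Matrix.trace]

/-- conjugation of a monoid hom by a unit -/
def conjHom {G : Type*} [Monoid G] {R : Type*} [CommRing R] (v : (Matrix (Fin 2) (Fin 2) R)ˣ)
    (r : G →* Matrix (Fin 2) (Fin 2) R) : G →* Matrix (Fin 2) (Fin 2) R where
  toFun σ := (v : Matrix (Fin 2) (Fin 2) R) * r σ *
    ((v⁻¹ : (Matrix (Fin 2) (Fin 2) R)ˣ) : Matrix (Fin 2) (Fin 2) R)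
  map_one' := by rw [map_one, mul_one, Units.mul_inv]
  map_mul' σ τ := by
    rw [map_mul]
    simp only [mul_assoc, Units.inv_mul_cancel_left]

theorem conjHom_apply {G : Type*} [Monoid G] {R : Type*} [CommRing R]
    (v : (Matrix (Fin 2) (Fin 2) R)ˣ) (r : G →* Matrix (Fin 2) (Fin 2) R) (σ : G) :
    conjHom v r σ = (v : Matrix (Fin 2) (Fin 2) R) * r σ *
      ((v⁻¹ : (Matrix (Fin 2) (Fin 2) R)ˣ) : Matrix (Fin 2) (Fin 2) R) := rfl

theorem trace_conjHom {G : Type*} [Monoid G] {R : Type*} [CommRing R]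
    (v : (Matrix (Fin 2) (Fin 2) R)ˣ) (r : G →* Matrix (Fin 2) (Fin 2) R) (σ : G) :
    (conjHom v r σ).trace = (r σ).trace := by
  rw [conjHom_apply, Matrix.trace_mul_comm, ← mul_assoc, Units.inv_mul, one_mul]

/-- a representation whose traces reduce to those of `rbar` (frame with nonzero Gram determinant)
can be conjugated to a strict lift. -/
theorem exists_conj_isStrictLift (g : FrameIdx → GQ)
    (hg : (gram (fun σ => (rbar σ).trace) g).det ≠ 0)
    (r : GQ →* Matrix (Fin 2) (Fin 2) A)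
    (htr : ∀ σ, residue A (r σ).trace = ResidueField.map (algebraMap 𝒪 A) (rbar σ).trace) :
    ∃ (v : (Matrix (Fin 2) (Fin 2) A)ˣ) (r' : GQ →* Matrix (Fin 2) (Fin 2) A),
      (∀ σ, (v : Matrix (Fin 2) (Fin 2) A) * r σ *
        ((v⁻¹ : (Matrix (Fin 2) (Fin 2) A)ˣ) : Matrix (Fin 2) (Fin 2) A) = r' σ) ∧
      IsStrictLift (𝒪 := 𝒪) rbar r' := by
  -- the two residual representations over `k_A`
  let r₁ : GQ →* Matrix (Fin 2) (Fin 2) (ResidueField A) := mapMat (residue A) r
  let r₂ : GQ →* Matrix (Fin 2) (Fin 2) (ResidueField A) :=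
    mapMat (ResidueField.map (algebraMap 𝒪 A)) rbar
  have h12 : ∀ σ, (r₁ σ).trace = (r₂ σ).trace := by
    intro σ
    show ((r σ).map (residue A)).trace = ((rbar σ).map (ResidueField.map (algebraMap 𝒪 A))).trace
    rw [trace_map_ringHom, trace_map_ringHom]
    exact htr σ
  have hΓ : IsUnit (gram (fun σ => (r₁ σ).trace) g).det := by
    have h1 : (fun σ => (r₁ σ).trace) =
        fun σ => ResidueField.map (algebraMap 𝒪 A) ((rbar σ).trace) := by
      funext σ
      rw [h12 σ]
      show ((rbar σ).map (ResidueField.map (algebraMap 𝒪 A))).trace = _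
      rw [trace_map_ringHom]
    rw [h1, det_gram_map (ResidueField.map (algebraMap 𝒪 A)) (fun σ => (rbar σ).trace) g]
    exact (hg.isUnit).map _
  obtain ⟨ubar, hubar⟩ := trace_rigidity r₁ r₂ h12 g hΓ
  obtain ⟨v, hv⟩ := exists_unit_matrix_lift_residue ubar
  refine ⟨v, conjHom v r, fun σ => rfl, ?_⟩
  intro σ
  -- reduce the conjugate
  have hvinv : ((v⁻¹ : (Matrix (Fin 2) (Fin 2) A)ˣ) : Matrix (Fin 2) (Fin 2) A).map (residue A) =
      ((ubar⁻¹ : (Matrix (Fin 2) (Fin 2) (ResidueField A))ˣ) :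
        Matrix (Fin 2) (Fin 2) (ResidueField A)) := by
    have h1 : Units.map (RingHom.mapMatrix (residue A) :
        Matrix (Fin 2) (Fin 2) A →+* Matrix (Fin 2) (Fin 2) (ResidueField A)).toMonoidHom v
          = ubar := by
      ext1
      exact hv
    have h2 := congrArg (fun w : (Matrix (Fin 2) (Fin 2) (ResidueField A))ˣ =>
      ((w⁻¹ : (Matrix (Fin 2) (Fin 2) (ResidueField A))ˣ) :
        Matrix (Fin 2) (Fin 2) (ResidueField A))) h1
    simpa using h2
  rw [conjHom_apply]
  have hmul : ((v : Matrix (Fin 2) (Fin 2) A) * r σ *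
      ((v⁻¹ : (Matrix (Fin 2) (Fin 2) A)ˣ) : Matrix (Fin 2) (Fin 2) A)).map (residue A) =
      (v : Matrix (Fin 2) (Fin 2) A).map (residue A) * (r σ).map (residue A) *
        ((v⁻¹ : (Matrix (Fin 2) (Fin 2) A)ˣ) : Matrix (Fin 2) (Fin 2) A).map (residue A) := by
    rw [Matrix.map_mul, Matrix.map_mul]
  rw [hmul, hv, hvinv]
  exact hubar σ

/-- the trace of a strict lift reduces to the trace of `rbar` -/
theorem residue_trace_of_isStrictLift {r : GQ →* Matrix (Fin 2) (Fin 2) A}
    (hr : IsStrictLift (𝒪 := 𝒪) rbar r) (σ : GQ) :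
    residue A (r σ).trace = ResidueField.map (algebraMap 𝒪 A) (rbar σ).trace := by
  rw [← trace_map_ringHom, ← trace_map_ringHom, hr σ]

/-- for a strict lift the Gram determinant of the frame is a unit -/
theorem isUnit_det_gram_of_isStrictLift (g : FrameIdx → GQ)
    (hg : (gram (fun σ => (rbar σ).trace) g).det ≠ 0)
    {r : GQ →* Matrix (Fin 2) (Fin 2) A} (hr : IsStrictLift (𝒪 := 𝒪) rbar r) :
    IsUnit (gram (fun σ => (r σ).trace) g).det := by
  have h1 : residue A (gram (fun σ => (r σ).trace) g).det =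
      ResidueField.map (algebraMap 𝒪 A) (gram (fun σ => (rbar σ).trace) g).det := by
    rw [← det_gram_map, ← det_gram_map]
    congr 2
    funext σ
    exact residue_trace_of_isStrictLift hr σ
  have h2 : IsUnit (residue A (gram (fun σ => (r σ).trace) g).det) := by
    rw [h1]
    exact (hg.isUnit).map _
  exact isUnit_of_map_unit (residue A) _ h2

end descent

end F

end

end Fermat.Agent.S53Lib
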