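import Mathlib
import Fermat.Prelude.Def_GaloisRep_DeformationRingData
import Fermat.Prelude.Def_GaloisRep_DeformationCondition
import Fermat.Agent.Lib.S53.Basic
import Fermat.Agent.Lib.S53.MatInterface
import Fermat.Agent.Lib.S53.Aug
import Fermat.Agent.Lib.S53.GlueStrict
import Fermat.Agent.Lib.S53.PushStrict

/-!
# S53 library: D-pairs (strict matrix deformations over Artinian test algebras)  (helper4)

`DPair rbar 𝒟` (verbatim from `S53stubs/StubsF.lean`), push-forward (using F1 from `PushStrict`)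
and the fibre product over the residue field `DPair.prod`.
-/

set_option autoImplicit false
set_option linter.unusedSectionVars false

namespace Fermat.Agent.S53Lib

open Matrix IsLocalRing GaloisRep

noncomputable section

section F

variable {𝒪 : Type} [CommRing 𝒪] [IsLocalRing 𝒪]
variable (rbar : GQ →* Matrix (Fin 2) (Fin 2) (ResidueField 𝒪))
variable (𝒟 : ∀ ⦃A : Type⦄ [CommRing A] [IsLocalRing A] [Algebra 𝒪 A], GaloisRepAdic A → Prop)

/-- A `𝒟`-deformation of `rbar` in strict matrix form over an Artinian test algebra. -/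
structure DPair where
  A : Type
  [instCommRing : CommRing A]
  [instIsLocalRing : IsLocalRing A]
  [instAlgebra : Algebra 𝒪 A]
  [instIsLocalHom : IsLocalHom (algebraMap 𝒪 A)]
  residue_surjective : Function.Surjective (residue A ∘ algebraMap 𝒪 A)
  isArtinian : IsArtinianRing A
  r : GQ →* Matrix (Fin 2) (Fin 2) A
  cts : MatCts A r
  strict : IsStrictLift (𝒪 := 𝒪) rbar r
  isOfType : 𝒟 (ofMat r cts)

attribute [instance] DPair.instCommRing DPair.instIsLocalRing DPair.instAlgebra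
  DPair.instIsLocalHom

variable {rbar 𝒟}

/-- the trace function of a D-pair -/
def DPair.t (P : DPair rbar 𝒟) (σ : GQ) : P.A := (P.r σ).trace

theorem DPair.isArtinianTestAlgebra (P : DPair rbar 𝒟) : IsArtinianTestAlgebra 𝒪 P.A :=
  ⟨inferInstance, P.residue_surjective, P.isArtinian⟩

/-- trace commutes with entrywise ring homomorphisms -/
theorem matTrace_map {A B : Type*} [CommRing A] [CommRing B] (φ : A →+* B)
    (M : Matrix (Fin 2) (Fin 2) A) : (M.map φ).trace = φ M.trace := by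
  simp [Matrix.trace, Fin.sum_univ_two]

/-- transport of the deformation condition along an equality of matrix representations -/
theorem isOfType_ofMat_congr {A : Type} [CommRing A] [IsLocalRing A] [Algebra 𝒪 A]
    {r r' : GQ →* Matrix (Fin 2) (Fin 2) A} (h : MatCts A r) (h' : MatCts A r') (e : r = r')
    (hr : 𝒟 (ofMat r h)) : 𝒟 (ofMat r' h') := by
  subst e
  exact hr

/-! ### push-forward along a local algebra hom (F1 lemmas are in `PushStrict`) -/

/-- push-forward of a D-pair -/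
def DPair.push (h𝒟 : IsDeformationCondition 𝒪 𝒟) (P : DPair rbar 𝒟)
    {B : Type} [CommRing B] [IsLocalRing B] [Algebra 𝒪 B] (hB : IsArtinianTestAlgebra 𝒪 B)
    (φ : P.A →ₐ[𝒪] B) (hφ : IsLocalHom (φ : P.A →+* B)) : DPair rbar 𝒟 :=
  haveI := hB.isLocalHom
  { A := B
    residue_surjective := hB.residue_surjective
    isArtinian := hB.isArtinian
    r := mapMat (φ : P.A →+* B) P.r
    cts := P.cts.map _ hφ
    strict := isStrictLift_mapMat P.strict φ hφ
    isOfType := isOfType_mapMat h𝒟 P.isArtinianTestAlgebra hB P.cts P.isOfType φ hφ }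

@[simp] theorem DPair.push_A (h𝒟 : IsDeformationCondition 𝒪 𝒟) (P : DPair rbar 𝒟)
    {B : Type} [CommRing B] [IsLocalRing B] [Algebra 𝒪 B] (hB : IsArtinianTestAlgebra 𝒪 B)
    (φ : P.A →ₐ[𝒪] B) (hφ : IsLocalHom (φ : P.A →+* B)) : (P.push h𝒟 hB φ hφ).A = B := rfl

theorem DPair.push_r (h𝒟 : IsDeformationCondition 𝒪 𝒟) (P : DPair rbar 𝒟)
    {B : Type} [CommRing B] [IsLocalRing B] [Algebra 𝒪 B] (hB : IsArtinianTestAlgebra 𝒪 B)
    (φ : P.A →ₐ[𝒪] B) (hφ : IsLocalHom (φ : P.A →+* B)) :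
    (P.push h𝒟 hB φ hφ).r = mapMat (φ : P.A →+* B) P.r := rfl

theorem DPair.push_t (h𝒟 : IsDeformationCondition 𝒪 𝒟) (P : DPair rbar 𝒟)
    {B : Type} [CommRing B] [IsLocalRing B] [Algebra 𝒪 B] (hB : IsArtinianTestAlgebra 𝒪 B)
    (φ : P.A →ₐ[𝒪] B) (hφ : IsLocalHom (φ : P.A →+* B)) (σ : GQ) :
    (P.push h𝒟 hB φ hφ).t σ = φ (P.t σ) := by
  exact matTrace_map (φ : P.A →+* B) (P.r σ)

/-! ### Fibre product over `k` of two D-pairs -/

section prod

variable (P Q : DPair rbar 𝒟)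

/-- the two strict lifts agree after augmentation -/
theorem DPair.aug_compat (σ : GQ) :
    (P.r σ).map (aug P.isArtinianTestAlgebra) = (Q.r σ).map (aug Q.isArtinianTestAlgebra) := by
  rw [(isStrictLift_iff_map_aug P.isArtinianTestAlgebra rbar P.r).mp P.strict σ,
    (isStrictLift_iff_map_aug Q.isArtinianTestAlgebra rbar Q.r).mp Q.strict σ]

/-- The underlying algebra `P.A ×_k Q.A` of the product D-pair. -/
abbrev DPair.prodAlg : Subalgebra 𝒪 (P.A × Q.A) :=
  Fk P.isArtinianTestAlgebra Q.isArtinianTestAlgebra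

/-- first projection `P.A ×_k Q.A → P.A` -/
abbrev DPair.prodFst : P.prodAlg Q →ₐ[𝒪] P.A :=
  fkFst P.isArtinianTestAlgebra Q.isArtinianTestAlgebra

/-- second projection `P.A ×_k Q.A → Q.A` -/
abbrev DPair.prodSnd : P.prodAlg Q →ₐ[𝒪] Q.A :=
  fkSnd P.isArtinianTestAlgebra Q.isArtinianTestAlgebra

/-- the glued matrix representation over `P.A ×_k Q.A` -/
def DPair.prodR : GQ →* Matrix (Fin 2) (Fin 2) (P.prodAlg Q) :=
  glueMatrixRep (aug P.isArtinianTestAlgebra) (aug Q.isArtinianTestAlgebra) P.r Q.r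
    (P.aug_compat Q)

theorem DPair.mapMat_prodFst_prodR :
    mapMat ((P.prodFst Q : P.prodAlg Q →ₐ[𝒪] P.A) : P.prodAlg Q →+* P.A) (P.prodR Q) = P.r :=
  mapMatrixRep_fpFst_glue _ _ P.r Q.r (P.aug_compat Q)

theorem DPair.mapMat_prodSnd_prodR :
    mapMat ((P.prodSnd Q : P.prodAlg Q →ₐ[𝒪] Q.A) : P.prodAlg Q →+* Q.A) (P.prodR Q) = Q.r :=
  mapMatrixRep_fpSnd_glue _ _ P.r Q.r (P.aug_compat Q)

theorem DPair.prodR_cts : MatCts (P.prodAlg Q) (P.prodR Q) := by
  have := P.isArtinian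
  have := Q.isArtinian
  exact (glueMatrixRep_finiteLevel _ _ (P.aug_compat Q)
    (MatrixRepContinuous.finiteLevel P.cts) (MatrixRepContinuous.finiteLevel Q.cts)).continuous

theorem DPair.prodR_strict : IsStrictLift (𝒪 := 𝒪) rbar (P.prodR Q) := by
  refine IsStrictLift.of_map (P.prodFst Q) inferInstance ?_
  rw [P.mapMat_prodFst_prodR Q]
  exact P.strict

/-- **Fibre product over `k` of two D-pairs.** -/
def DPair.prod [Finite (ResidueField 𝒪)] (h𝒟 : IsDeformationCondition 𝒪 𝒟) : DPair rbar 𝒟 where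
  A := P.prodAlg Q
  residue_surjective :=
    (fk_isArtinianTestAlgebra P.isArtinianTestAlgebra Q.isArtinianTestAlgebra).residue_surjective
  isArtinian :=
    (fk_isArtinianTestAlgebra P.isArtinianTestAlgebra Q.isArtinianTestAlgebra).isArtinian
  r := P.prodR Q
  cts := P.prodR_cts Q
  strict := P.prodR_strict Q
  isOfType := of_fk_ofMat h𝒟 P.isArtinianTestAlgebra Q.isArtinianTestAlgebra (P.prodR Q)
    (P.prodR_cts Q)
    (isOfType_ofMat_congr P.cts _ (P.mapMat_prodFst_prodR Q).symm P.isOfType)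
    (isOfType_ofMat_congr Q.cts _ (P.mapMat_prodSnd_prodR Q).symm Q.isOfType)

variable [Finite (ResidueField 𝒪)] (h𝒟 : IsDeformationCondition 𝒪 𝒟)

theorem DPair.prod_A : (P.prod Q h𝒟).A = P.prodAlg Q := rfl

theorem DPair.prod_r : (P.prod Q h𝒟).r = P.prodR Q := rfl

/-- first projection of the product D-pair, as an algebra hom out of `(P.prod Q h𝒟).A` -/
def DPair.prodFst' : (P.prod Q h𝒟).A →ₐ[𝒪] P.A := P.prodFst Q

/-- second projection of the product D-pair, as an algebra hom out of `(P.prod Q h𝒟).A` -/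
def DPair.prodSnd' : (P.prod Q h𝒟).A →ₐ[𝒪] Q.A := P.prodSnd Q

instance DPair.prodFst'_isLocalHom :
    IsLocalHom ((P.prodFst' Q h𝒟 : (P.prod Q h𝒟).A →ₐ[𝒪] P.A) : (P.prod Q h𝒟).A →+* P.A) :=
  inferInstanceAs (IsLocalHom ((P.prodFst Q : P.prodAlg Q →ₐ[𝒪] P.A) : P.prodAlg Q →+* P.A))

instance DPair.prodSnd'_isLocalHom :
    IsLocalHom ((P.prodSnd' Q h𝒟 : (P.prod Q h𝒟).A →ₐ[𝒪] Q.A) : (P.prod Q h𝒟).A →+* Q.A) :=
  inferInstanceAs (IsLocalHom ((P.prodSnd Q : P.prodAlg Q →ₐ[𝒪] Q.A) : P.prodAlg Q →+* Q.A))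

theorem DPair.prodFst'_surjective : Function.Surjective (P.prodFst' Q h𝒟) :=
  fkFst_surjective _ _

theorem DPair.prodSnd'_surjective : Function.Surjective (P.prodSnd' Q h𝒟) :=
  fkSnd_surjective _ _

theorem DPair.mapMat_prodFst' :
    mapMat ((P.prodFst' Q h𝒟 : (P.prod Q h𝒟).A →ₐ[𝒪] P.A) : (P.prod Q h𝒟).A →+* P.A)
      (P.prod Q h𝒟).r = P.r :=
  P.mapMat_prodFst_prodR Q

theorem DPair.mapMat_prodSnd' :
    mapMat ((P.prodSnd' Q h𝒟 : (P.prod Q h𝒟).A →ₐ[𝒪] Q.A) : (P.prod Q h𝒟).A →+* Q.A)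
      (P.prod Q h𝒟).r = Q.r :=
  P.mapMat_prodSnd_prodR Q

theorem DPair.prodFst'_t (σ : GQ) : P.prodFst' Q h𝒟 ((P.prod Q h𝒟).t σ) = P.t σ := by
  have h := congrArg (fun r => (r σ).trace) (P.mapMat_prodFst' Q h𝒟)
  simp only [mapMat_apply] at h
  exact (matTrace_map _ _).symm.trans h

theorem DPair.prodSnd'_t (σ : GQ) : P.prodSnd' Q h𝒟 ((P.prod Q h𝒟).t σ) = Q.t σ := by
  have h := congrArg (fun r => (r σ).trace) (P.mapMat_prodSnd' Q h𝒟)
  simp only [mapMat_apply] at h
  exact (matTrace_map _ _).symm.trans h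

/-- elements of the product algebra are determined by their two projections -/
theorem DPair.prod_ext {x y : (P.prod Q h𝒟).A} (h1 : P.prodFst' Q h𝒟 x = P.prodFst' Q h𝒟 y)
    (h2 : P.prodSnd' Q h𝒟 x = P.prodSnd' Q h𝒟 y) : x = y :=
  fp_ext _ _ h1 h2

end prod

end F

end

end Fermat.Agent.S53Lib
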