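/-
S53 library (helper1): identities for `2 × 2` matrices over a commutative ring, rank-one
idempotents, and coordinates with respect to a system of matrix units.
-/
import Mathlib
import Fermat.Agent.Lib.S53.SkolemNoether

set_option autoImplicit false

namespace Fermat.Agent.S53Lib

open Matrix

variable {P : Type*} [CommRing P]

/-- Cayley–Hamilton for `2 × 2` matrices. -/
theorem cayley_hamilton_two (y : Matrix (Fin 2) (Fin 2) P) :
    y * y - y.trace • y + y.det • (1 : Matrix (Fin 2) (Fin 2) P) = 0 := by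
  ext i j
  fin_cases i <;> fin_cases j <;>
    simp [Matrix.mul_apply, Fin.sum_univ_two, Matrix.trace, Matrix.det_fin_two] <;> ring

/-- The identity `X Y X = tr(XY) X − det(X) adj(Y)` for `2 × 2` matrices. -/
theorem mul_mul_self_two (X Y : Matrix (Fin 2) (Fin 2) P) :
    X * Y * X = (X * Y).trace • X - X.det • Y.adjugate := by
  ext i j
  fin_cases i <;> fin_cases j <;>
    simp [Matrix.mul_apply, Fin.sum_univ_two, Matrix.trace, Matrix.det_fin_two,
      Matrix.adjugate_fin_two] <;> ring

/-- An idempotent `2 × 2` matrix of trace one has determinant zero. -/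
theorem det_eq_zero_of_idem_of_trace_one (e : Matrix (Fin 2) (Fin 2) P) (he : e * e = e)
    (htr : e.trace = 1) : e.det = 0 := by
  have h := cayley_hamilton_two e
  rw [he, htr, one_smul, sub_self, zero_add] at h
  have h00 := congrFun (congrFun h 0) 0
  simpa using h00

/-- The rank-one idempotent identity `e z e = tr(e z) e`. -/
theorem idem_mul_mul_idem (e : Matrix (Fin 2) (Fin 2) P) (he : e * e = e) (htr : e.trace = 1)
    (z : Matrix (Fin 2) (Fin 2) P) : e * z * e = (e * z).trace • e := by
  rw [mul_mul_self_two, det_eq_zero_of_idem_of_trace_one e he htr, zero_smul, sub_zero]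

section MatrixUnits

variable {f : Fin 2 → Fin 2 → Matrix (Fin 2) (Fin 2) P}

theorem IsMatrixUnits.mul_same (hf : IsMatrixUnits f) (i j l : Fin 2) :
    f i j * f j l = f i l := by
  rw [hf.mul, if_pos rfl]

theorem IsMatrixUnits.mul_of_ne (hf : IsMatrixUnits f) (i : Fin 2) {j k : Fin 2} (h : j ≠ k)
    (l : Fin 2) : f i j * f k l = 0 := by
  rw [hf.mul, if_neg h]

theorem IsMatrixUnits.sum_diag (hf : IsMatrixUnits f) : ∑ i, f i i = 1 := by
  rw [Fin.sum_univ_two]; exact hf.sum

/-- Traces of matrix units, given `tr (f 0 0) = 1`. -/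
theorem IsMatrixUnits.trace_eq (hf : IsMatrixUnits f) (h0 : (f 0 0).trace = 1) (i j : Fin 2) :
    (f i j).trace = if i = j then 1 else 0 := by
  have h11 : (f 1 1).trace = 1 := by
    rw [← hf.mul_same 1 0 1, Matrix.trace_mul_comm, hf.mul_same, h0]
  by_cases hij : i = j
  · subst hij
    rw [if_pos rfl]
    fin_cases i
    · exact h0
    · exact h11
  · rw [if_neg hij, ← hf.mul_same i i j, Matrix.trace_mul_comm,
      hf.mul_of_ne i (fun h => hij h.symm) i, Matrix.trace_zero]

/-- `f i i * z * f j j = tr (z * f j i) • f i j`. -/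
theorem IsMatrixUnits.corner (hf : IsMatrixUnits f) (h0 : (f 0 0).trace = 1)
    (z : Matrix (Fin 2) (Fin 2) P) (i j : Fin 2) :
    f i i * z * f j j = (z * f j i).trace • f i j := by
  have he : f 0 0 * f 0 0 = f 0 0 := hf.mul_same 0 0 0
  have h1 : f i i * z * f j j = f i 0 * (f 0 0 * (f 0 i * z * f j 0) * f 0 0) * f 0 j := by
    simp only [← mul_assoc]
    rw [hf.mul_same i 0 0, hf.mul_same i 0 i]
    simp only [mul_assoc]
    rw [hf.mul_same 0 0 j, hf.mul_same j 0 j]
  rw [h1, idem_mul_mul_idem _ he h0, Matrix.mul_smul, Matrix.smul_mul, hf.mul_same i 0 0,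
    hf.mul_same i 0 j]
  congr 1
  rw [← mul_assoc, ← mul_assoc, hf.mul_same 0 0 i, mul_assoc, Matrix.trace_mul_comm, mul_assoc,
    hf.mul_same j 0 i]

/-- Every matrix is the combination of the matrix units with coefficients `tr (z * f j i)`. -/
theorem IsMatrixUnits.eq_sum (hf : IsMatrixUnits f) (h0 : (f 0 0).trace = 1)
    (z : Matrix (Fin 2) (Fin 2) P) : z = ∑ i, ∑ j, (z * f j i).trace • f i j := by
  have h1 : z = (∑ i, f i i) * z * (∑ j, f j j) := by
    rw [hf.sum_diag, one_mul, mul_one]
  conv_lhs => rw [h1]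
  rw [Finset.sum_mul, Finset.sum_mul]
  refine Finset.sum_congr rfl fun i _ => ?_
  rw [Finset.mul_sum]
  refine Finset.sum_congr rfl fun j _ => ?_
  exact hf.corner h0 z i j

/-- Multiplicativity of the coordinates `z ↦ tr (z * f j i)`. -/
theorem IsMatrixUnits.trace_mul_mul (hf : IsMatrixUnits f) (h0 : (f 0 0).trace = 1)
    (z w : Matrix (Fin 2) (Fin 2) P) (i j : Fin 2) :
    (z * w * f j i).trace = ∑ q, (z * f q i).trace * (w * f j q).trace := by
  conv_lhs => rw [hf.eq_sum h0 z]
  simp only [Finset.sum_mul, Matrix.smul_mul, Matrix.trace_sum, Matrix.trace_smul, smul_eq_mul]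
  -- `tr (f p q * w * f j i) = tr (w * f j i * f p q) = δ_{i p} tr (w * f j q)`
  have key : ∀ p q : Fin 2, (f p q * w * f j i).trace =
      if i = p then (w * f j q).trace else 0 := by
    intro p q
    rw [mul_assoc, Matrix.trace_mul_comm, mul_assoc, hf.mul]
    split_ifs <;> simp
  simp only [key]
  rw [Finset.sum_comm]
  refine Finset.sum_congr rfl fun q _ => ?_
  rw [Finset.sum_eq_single i]
  · rw [if_pos rfl]
  · intro p _ hp
    rw [if_neg (Ne.symm hp), mul_zero]
  · intro h; exact absurd (Finset.mem_univ i) h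

end MatrixUnits

end Fermat.Agent.S53Lib
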