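/-
S53 library (helper1), task M2: Carayol-type descent to a Henselian local subring.
-/
import Mathlib
import Fermat.Agent.Lib.S53.Basic
import Fermat.Agent.Lib.S53.Gram
import Fermat.Agent.Lib.S53.TraceRigidity
import Fermat.Agent.Lib.S53.TwoByTwo

set_option autoImplicit false

namespace Fermat.Agent.S53Lib

open Matrix IsLocalRing

section Span

variable {R P : Type*} [CommRing R] [CommRing P] (ι : R →+* P)
  (v : FrameIdx → Matrix (Fin 2) (Fin 2) P)

/-- `X` lies in the `R`-span (through `ι`) of the family `v`. -/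
def InSpan (X : Matrix (Fin 2) (Fin 2) P) : Prop :=
  ∃ c : FrameIdx → R, X = ∑ a, ι (c a) • v a

variable {ι v}

theorem InSpan.zero : InSpan ι v 0 := ⟨0, by simp⟩

theorem InSpan.base (a : FrameIdx) : InSpan ι v (v a) := by
  classical
  refine ⟨fun b => if b = a then 1 else 0, ?_⟩
  rw [Finset.sum_eq_single a]
  · simp
  · intro b _ hb; simp [hb]
  · intro h; exact absurd (Finset.mem_univ a) h

theorem InSpan.add {X Y : Matrix (Fin 2) (Fin 2) P} (hX : InSpan ι v X) (hY : InSpan ι v Y) :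
    InSpan ι v (X + Y) := by
  obtain ⟨c, rfl⟩ := hX
  obtain ⟨d, rfl⟩ := hY
  refine ⟨c + d, ?_⟩
  simp only [Pi.add_apply, map_add, add_smul, Finset.sum_add_distrib]

theorem InSpan.smul (s : R) {X : Matrix (Fin 2) (Fin 2) P} (hX : InSpan ι v X) :
    InSpan ι v (ι s • X) := by
  obtain ⟨c, rfl⟩ := hX
  refine ⟨fun a => s * c a, ?_⟩
  simp only [map_mul, Finset.smul_sum, smul_smul]

theorem InSpan.neg {X : Matrix (Fin 2) (Fin 2) P} (hX : InSpan ι v X) : InSpan ι v (-X) := by
  have := hX.smul (-1)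
  simpa using this

theorem InSpan.sub {X Y : Matrix (Fin 2) (Fin 2) P} (hX : InSpan ι v X) (hY : InSpan ι v Y) :
    InSpan ι v (X - Y) := by
  rw [sub_eq_add_neg]; exact hX.add hY.neg

theorem InSpan.sum {κ : Type*} (s : Finset κ) (F : κ → Matrix (Fin 2) (Fin 2) P)
    (h : ∀ i ∈ s, InSpan ι v (F i)) : InSpan ι v (∑ i ∈ s, F i) := by
  classical
  induction s using Finset.induction_on with
  | empty => simpa using InSpan.zero
  | insert i s hi ih =>
    rw [Finset.sum_insert hi]
    exact (h i (Finset.mem_insert_self i s)).add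
      (ih fun j hj => h j (Finset.mem_insert_of_mem hj))

theorem InSpan.mul (hmul : ∀ a b, InSpan ι v (v a * v b)) {X Y : Matrix (Fin 2) (Fin 2) P}
    (hX : InSpan ι v X) (hY : InSpan ι v Y) : InSpan ι v (X * Y) := by
  obtain ⟨c, rfl⟩ := hX
  obtain ⟨d, rfl⟩ := hY
  rw [Finset.sum_mul]
  refine InSpan.sum _ _ fun a _ => ?_
  rw [Finset.mul_sum]
  refine InSpan.sum _ _ fun b _ => ?_
  rw [Matrix.smul_mul, Matrix.mul_smul]
  exact ((hmul a b).smul (d b)).smul (c a)

theorem InSpan.trace (htr : ∀ a, ∃ s : R, ι s = (v a).trace) {X : Matrix (Fin 2) (Fin 2) P}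
    (hX : InSpan ι v X) : ∃ s : R, ι s = X.trace := by
  obtain ⟨c, rfl⟩ := hX
  choose s hs using htr
  refine ⟨∑ a, c a * s a, ?_⟩
  simp only [map_sum, map_mul, hs, Matrix.trace_sum, Matrix.trace_smul, smul_eq_mul]

end Span

/-- If `c ᵥ* Γ_v = (tr (X * v b))_b` for a family `v` with unit Gram determinant, then
`X = ∑ c a • v a`. -/
theorem eq_sum_of_vecMul_gramMat {P : Type*} [CommRing P] (v : FrameIdx → Matrix (Fin 2) (Fin 2) P)
    (h : IsUnit (gramMat v).det) (X : Matrix (Fin 2) (Fin 2) P) (c : FrameIdx → P)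
    (hc : Matrix.vecMul c (gramMat v) = fun b => (X * v b).trace) : X = ∑ a, c a • v a := by
  have e1 := gramBasis_repr_vecMul v h X
  have hinv : ∀ w : FrameIdx → P,
      Matrix.vecMul (Matrix.vecMul w (gramMat v)) (gramMat v)⁻¹ = w := by
    intro w
    rw [Matrix.vecMul_vecMul, Matrix.mul_nonsing_inv _ h, Matrix.vecMul_one]
  have e2 : (fun a => (gramBasis v h).repr X a) = c := by
    have := congrArg (fun w => Matrix.vecMul w (gramMat v)⁻¹) (e1.trans hc.symm)
    simpa only [hinv] using this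
  conv_lhs => rw [← (gramBasis v h).sum_repr X]
  refine Finset.sum_congr rfl fun a _ => ?_
  rw [gramBasis_apply, ← e2]

end Fermat.Agent.S53Lib

namespace Fermat.Agent.S53Lib

open Matrix IsLocalRing Polynomial

section Units

variable {R P : Type*} [CommRing R] [IsLocalRing R] [CommRing P]

theorem isUnit_of_residue_eq_one {s : R} (h : residue R s = 1) : IsUnit s := by
  rw [← IsLocalRing.notMem_maximalIdeal, ← IsLocalRing.residue_eq_zero_iff, h]
  exact one_ne_zero

theorem mapMatrix_smul' {k : Type*} [CommRing k] (π : P →+* k) (p : P)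
    (X : Matrix (Fin 2) (Fin 2) P) : π.mapMatrix (p • X) = π p • π.mapMatrix X := by
  rw [RingHom.mapMatrix_apply, RingHom.mapMatrix_apply, Matrix.map_smul' _ _ _ (map_mul π)]

theorem trace_mapMatrix {k : Type*} [CommRing k] (π : P →+* k) (X : Matrix (Fin 2) (Fin 2) P) :
    (π.mapMatrix X).trace = π X.trace := by
  rw [RingHom.mapMatrix_apply, ← AddMonoidHom.map_trace]

theorem det_mapMatrix {k : Type*} [CommRing k] (π : P →+* k) (X : Matrix (Fin 2) (Fin 2) P) :
    (π.mapMatrix X).det = π X.det := (RingHom.map_det π X).symm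

/-- The hypotheses on the `R`-span `E` of the frame matrices used in the descent argument. -/
structure SpanCtx (ι : R →+* P) (π : P →+* ResidueField R)
    (v : FrameIdx → Matrix (Fin 2) (Fin 2) P) : Prop where
  mul : ∀ a b, InSpan ι v (v a * v b)
  tr : ∀ a, ∃ s : R, ι s = (v a).trace
  one : InSpan ι v 1
  surj : ∀ Z : Matrix (Fin 2) (Fin 2) (ResidueField R), ∃ X, InSpan ι v X ∧ π.mapMatrix X = Z

variable {ι : R →+* P} {π : P →+* ResidueField R} {v : FrameIdx → Matrix (Fin 2) (Fin 2) P}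

/-- Step 1: a rank-one idempotent of trace one in the span, lifting `E₁₁`. -/
theorem SpanCtx.exists_idem [HenselianRing R (maximalIdeal R)] (ctx : SpanCtx ι π v)
    (hπ : ∀ s, π (ι s) = residue R s) :
    ∃ e : Matrix (Fin 2) (Fin 2) P, InSpan ι v e ∧ e * e = e ∧ e.trace = 1 ∧
      π.mapMatrix e = Matrix.single 0 0 1 := by
  obtain ⟨y, hyE, hyred⟩ := ctx.surj (Matrix.single 0 0 1)
  obtain ⟨t, ht⟩ := hyE.trace ctx.tr
  have hrest : residue R t = 1 := by
    rw [← hπ, ht, ← trace_mapMatrix, hyred, Matrix.trace_single_eq_same]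
  have htu : IsUnit t := isUnit_of_residue_eq_one hrest
  -- `w = det y • 1` lies in the span
  have hCH := cayley_hamilton_two y
  obtain ⟨w, hw⟩ : ∃ w : Matrix (Fin 2) (Fin 2) P, w = y * (ι t • 1 - y) := ⟨_, rfl⟩
  have hwdet : w = y.det • (1 : Matrix (Fin 2) (Fin 2) P) := by
    rw [hw, ht, mul_sub, Matrix.mul_smul, mul_one]
    linear_combination (norm := module) -hCH
  have hwE : InSpan ι v w := hw ▸ InSpan.mul ctx.mul hyE ((ctx.one.smul t).sub hyE)
  -- the determinant of `y` comes from `R`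
  obtain ⟨s, hs⟩ := (InSpan.mul ctx.mul hwE hyE).trace ctx.tr
  have hs' : ι s = y.det * ι t := by
    rw [hs, hwdet, Matrix.smul_mul, one_mul, Matrix.trace_smul, smul_eq_mul, ht]
  obtain ⟨d, hd⟩ : ∃ d : R, d = ↑(htu.unit⁻¹) * s := ⟨_, rfl⟩
  have hιd : ι d = y.det := by
    rw [hd, map_mul, hs', mul_comm (y.det), ← mul_assoc, ← map_mul, IsUnit.val_inv_mul, map_one,
      one_mul]
  have hresd : residue R d = 0 := by
    rw [← hπ, hιd, ← det_mapMatrix, hyred]
    simp [Matrix.det_fin_two]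
  -- Hensel's lemma for `X² - t X + d` at the approximate root `1`
  obtain ⟨f, hf⟩ : ∃ f : R[X], f = X ^ 2 - C t * X + C d := ⟨_, rfl⟩
  have hfm : f.Monic := by
    have h1 : f = X ^ 2 - (C t * X - C d) := by rw [hf]; ring
    rw [h1]
    apply Polynomial.monic_X_pow_sub
    refine lt_of_le_of_lt (Polynomial.degree_sub_le _ _) ?_
    refine max_lt_iff.2 ⟨lt_of_le_of_lt (Polynomial.degree_C_mul_X_le _) (by norm_num),
      lt_of_le_of_lt Polynomial.degree_C_le (by norm_num)⟩
  have hf1 : f.eval 1 ∈ maximalIdeal R := by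
    rw [← IsLocalRing.residue_eq_zero_iff]
    simp only [hf, eval_add, eval_sub, eval_pow, eval_X, eval_mul, eval_C, one_pow, mul_one,
      map_add, map_sub, map_one, hrest, hresd]
    ring
  have hf1' : IsUnit (Ideal.Quotient.mk (maximalIdeal R) (f.derivative.eval 1)) := by
    have : IsUnit (f.derivative.eval 1) := by
      apply isUnit_of_residue_eq_one
      simp only [hf, derivative_add, derivative_X_pow, derivative_mul, derivative_C,
        derivative_X, eval_sub, eval_mul, eval_C, eval_X, zero_mul, zero_add,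
        mul_one, map_sub, hrest, Nat.cast_ofNat, eval_ofNat, Nat.add_one_sub_one,
        pow_one, map_ofNat, add_zero]
      ring
    exact this.map (Ideal.Quotient.mk (maximalIdeal R))
  obtain ⟨α, hα, hα1⟩ := HenselianRing.is_henselian f hfm 1 hf1 hf1'
  have hα' : α ^ 2 - t * α + d = 0 := by
    have := hα
    simpa only [hf, IsRoot.def, eval_add, eval_sub, eval_pow, eval_X, eval_mul, eval_C] using this
  have hresα : residue R α = 1 := by
    have := (IsLocalRing.residue_eq_zero_iff _).2 hα1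
    rwa [map_sub, map_one, sub_eq_zero] at this
  obtain ⟨β, hβ⟩ : ∃ β : R, β = t - α := ⟨_, rfl⟩
  have hresβ : residue R β = 0 := by rw [hβ, map_sub, hrest, hresα, sub_self]
  obtain ⟨δ, hδ⟩ : ∃ δ : R, δ = α - β := ⟨_, rfl⟩
  have hresδ : residue R δ = 1 := by rw [hδ, map_sub, hresα, hresβ, sub_zero]
  have hδu : IsUnit δ := isUnit_of_residue_eq_one hresδ
  have hαβ : α * β = d := by rw [hβ]; linear_combination -hα'
  -- the idempotent
  obtain ⟨Y, hY⟩ : ∃ Y : Matrix (Fin 2) (Fin 2) P, Y = y - ι β • 1 := ⟨_, rfl⟩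
  have hYY : Y * Y = ι δ • Y := by
    have h1 : y.trace = ι α + ι β := by
      rw [← ht, ← map_add]; congr 1; rw [hβ]; ring
    have h2 : y.det = ι α * ι β := by rw [← hιd, ← hαβ, map_mul]
    rw [h1, h2] at hCH
    rw [hY, hδ, map_sub]
    simp only [sub_mul, mul_sub, Matrix.smul_mul, Matrix.mul_smul, one_mul, mul_one]
    linear_combination (norm := module) hCH
  have hYE : InSpan ι v Y := hY ▸ hyE.sub (ctx.one.smul β)
  obtain ⟨δi, hδi⟩ : ∃ δi : R, δi = ↑(hδu.unit⁻¹) := ⟨_, rfl⟩
  have hδδ : ι δi * ι δ = 1 := by rw [← map_mul, hδi, IsUnit.val_inv_mul, map_one]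
  refine ⟨ι δi • Y, hYE.smul δi, ?_, ?_, ?_⟩
  · rw [Matrix.smul_mul, Matrix.mul_smul, hYY, smul_smul, smul_smul, mul_assoc, hδδ, mul_one]
  · rw [Matrix.trace_smul, hY, Matrix.trace_sub, Matrix.trace_smul, Matrix.trace_one, ← ht,
      Fintype.card_fin, smul_eq_mul, smul_eq_mul]
    have : ι t - ι β * ((2 : ℕ) : P) = ι δ := by
      rw [hδ, hβ]; simp only [map_sub]; push_cast; ring
    rw [this, hδδ]
  · rw [mapMatrix_smul', hY, map_sub, mapMatrix_smul', map_one, hyred, hπ, hπ, hresβ, zero_smul,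
      sub_zero]
    have : residue R δi = 1 := by
      have h := congrArg (residue R) (IsUnit.val_inv_mul hδu)
      rw [map_mul, hresδ, mul_one, map_one] at h
      rw [hδi]; exact h
    rw [this, one_smul]

/-- Step 2: a system of matrix units in the span, with `tr (f 0 0) = 1`. -/
theorem SpanCtx.exists_matrixUnits [HenselianRing R (maximalIdeal R)] (ctx : SpanCtx ι π v)
    (hπ : ∀ s, π (ι s) = residue R s) :
    ∃ f : Fin 2 → Fin 2 → Matrix (Fin 2) (Fin 2) P, IsMatrixUnits f ∧ (f 0 0).trace = 1 ∧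
      ∀ i j, InSpan ι v (f i j) := by
  obtain ⟨e, heE, hee, htre, hrede⟩ := ctx.exists_idem hπ
  obtain ⟨e', he'⟩ : ∃ e' : Matrix (Fin 2) (Fin 2) P, e' = 1 - e := ⟨_, rfl⟩
  have he'E : InSpan ι v e' := he' ▸ ctx.one.sub heE
  have hee' : e * e' = 0 := by rw [he', mul_sub, mul_one, hee, sub_self]
  have he'e : e' * e = 0 := by rw [he', sub_mul, one_mul, hee, sub_self]
  have he'e' : e' * e' = e' := by
    have : e' * e' = e' - e * e' := by
      have h1 : e' * e' = (1 - e) * e' := by rw [← he']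
      rw [h1, sub_mul, one_mul]
    rw [this, hee', sub_zero]
  have htre' : e'.trace = 1 := by
    rw [he', Matrix.trace_sub, Matrix.trace_one, htre, Fintype.card_fin]
    norm_num
  have hrede' : π.mapMatrix e' = Matrix.single 1 1 1 := by
    rw [he', map_sub, map_one, hrede]
    ext i j
    fin_cases i <;> fin_cases j <;> simp
  obtain ⟨x₀, hx₀E, hx₀red⟩ := ctx.surj (Matrix.single 0 1 1)
  obtain ⟨y₀, hy₀E, hy₀red⟩ := ctx.surj (Matrix.single 1 0 1)
  -- the corner `e (x₀ e' y₀) e = tr(..) • e`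
  have hzE : InSpan ι v (x₀ * e' * y₀) := InSpan.mul ctx.mul (InSpan.mul ctx.mul hx₀E he'E) hy₀E
  have hz := idem_mul_mul_idem e hee htre (x₀ * e' * y₀)
  obtain ⟨s, hs⟩ := (InSpan.mul ctx.mul heE hzE).trace ctx.tr
  have hress : residue R s = 1 := by
    rw [← hπ, hs, ← trace_mapMatrix, map_mul, map_mul, map_mul, hrede, hx₀red, hrede', hy₀red]
    simp
  have hsu : IsUnit s := isUnit_of_residue_eq_one hress
  obtain ⟨si, hsi⟩ : ∃ si : R, si = ↑(hsu.unit⁻¹) := ⟨_, rfl⟩
  have hsis : ι si * ι s = 1 := by rw [← map_mul, hsi, IsUnit.val_inv_mul, map_one]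
  obtain ⟨x, hx⟩ : ∃ x : Matrix (Fin 2) (Fin 2) P, x = ι si • (e * x₀ * e') := ⟨_, rfl⟩
  obtain ⟨y, hy⟩ : ∃ y : Matrix (Fin 2) (Fin 2) P, y = e' * y₀ * e := ⟨_, rfl⟩
  have hxE : InSpan ι v x :=
    hx ▸ (InSpan.mul ctx.mul (InSpan.mul ctx.mul heE hx₀E) he'E).smul si
  have hyE : InSpan ι v y := hy ▸ InSpan.mul ctx.mul (InSpan.mul ctx.mul he'E hy₀E) heE
  have hex : e * x = x := by
    rw [hx, Matrix.mul_smul, ← mul_assoc, ← mul_assoc, hee]
  have hxe' : x * e' = x := by
    rw [hx, Matrix.smul_mul, mul_assoc, he'e']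
  have he'y : e' * y = y := by
    rw [hy, ← mul_assoc, ← mul_assoc, he'e']
  have hye : y * e = y := by
    rw [hy, mul_assoc, hee]
  have hxy : x * y = e := by
    have h1 : e * x₀ * e' * (e' * y₀ * e) = e * (x₀ * e' * y₀) * e := by
      have : e * x₀ * e' * (e' * y₀ * e) = e * x₀ * (e' * e') * y₀ * e := by
        simp only [mul_assoc]
      rw [this, he'e']
      simp only [mul_assoc]
    rw [hx, hy, Matrix.smul_mul, h1, hz, ← hs, smul_smul, hsis, one_smul]
  have hyx : y * x = e' := by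
    have h1 : e' * y₀ * e * (e * x₀ * e') = e' * (y₀ * e * x₀) * e' := by
      have : e' * y₀ * e * (e * x₀ * e') = e' * y₀ * (e * e) * x₀ * e' := by
        simp only [mul_assoc]
      rw [this, hee]
      simp only [mul_assoc]
    have h2 : (e' * (y₀ * e * x₀)).trace = ι s := by
      rw [hs]
      have e1 : e' * (y₀ * e * x₀) = (e' * y₀) * (e * x₀) := by simp only [mul_assoc]
      have e2 : e * (x₀ * e' * y₀) = (e * x₀) * (e' * y₀) := by simp only [mul_assoc]
      rw [e1, e2, Matrix.trace_mul_comm]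
    rw [hx, hy, Matrix.mul_smul, h1, idem_mul_mul_idem e' he'e' htre', h2, smul_smul, hsis,
      one_smul]
  -- the remaining products
  have hey : e * y = 0 := by rw [← he'y, ← mul_assoc, hee', zero_mul]
  have hxe : x * e = 0 := by rw [← hxe', mul_assoc, he'e, mul_zero]
  have hxx : x * x = 0 := by
    calc x * x = (x * e') * (e * x) := by rw [hxe', hex]
      _ = x * (e' * e) * x := by simp only [mul_assoc]
      _ = 0 := by rw [he'e, mul_zero, zero_mul]
  have hyy : y * y = 0 := by
    calc y * y = (y * e) * (e' * y) := by rw [hye, he'y]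
      _ = y * (e * e') * y := by simp only [mul_assoc]
      _ = 0 := by rw [hee', mul_zero, zero_mul]
  have hye' : y * e' = 0 := by rw [← hye, mul_assoc, hee', mul_zero]
  have he'x : e' * x = 0 := by rw [← hex, ← mul_assoc, he'e, zero_mul]
  refine ⟨![![e, x], ![y, e']], ⟨?_, ?_⟩, ?_, ?_⟩
  · intro i j k l
    fin_cases i <;> fin_cases j <;> fin_cases k <;> fin_cases l <;>
      simp [hee, hex, hey, hee', hxe, hxx, hxy, hxe', hye, hyx, hyy, hye', he'e, he'x, he'y, he'e']
  · simp [he']
  · simpa using htre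
  · intro i j
    fin_cases i <;> fin_cases j <;> simpa

end Units

/-- **Task M2: Carayol-type descent to a Henselian local subring.** -/
theorem descent {R P : Type*} [CommRing R] [IsLocalRing R] [HenselianRing R (maximalIdeal R)]
    [CommRing P] (ι : R →+* P) (hι : Function.Injective ι)
    (π : P →+* ResidueField R) (hπ : π.comp ι = residue R)
    {G : Type*} [Monoid G] (r : G →* Matrix (Fin 2) (Fin 2) P) (τ : G → R)
    (hτ : ∀ x, ι (τ x) = (r x).trace)
    (g : FrameIdx → G) (hΓ : IsUnit (gram τ g).det) :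
    ∃ (r' : G →* Matrix (Fin 2) (Fin 2) R) (c : Fin 2 → Fin 2 → FrameIdx → R),
      (∀ x, (r' x).trace = τ x) ∧ ∀ x i j, r' x i j = ∑ a, c i j a * τ (x * g a) := by
  classical
  have hπ' : ∀ s, π (ι s) = residue R s := fun s => RingHom.congr_fun hπ s
  obtain ⟨v, hv⟩ : ∃ v : FrameIdx → Matrix (Fin 2) (Fin 2) P, v = fun a => r (g a) := ⟨_, rfl⟩
  have hva : ∀ a, v a = r (g a) := fun a => by rw [hv]
  -- Gram matrices
  have hgram : gramMat v = (gram τ g).map ι := by
    rw [hv, ← gram_trace_eq_gramMat r g]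
    ext a b
    rw [gram_apply, Matrix.map_apply, gram_apply, hτ]
  have hdetP : IsUnit (gramMat v).det := by
    rw [hgram, ← RingHom.mapMatrix_apply, ← RingHom.map_det]
    exact hΓ.map ι
  -- every `r x` lies in the span
  have hE1 : ∀ x, InSpan ι v (r x) := by
    intro x
    refine ⟨Matrix.vecMul (fun b => τ (x * g b)) (gram τ g)⁻¹, ?_⟩
    apply eq_sum_of_vecMul_gramMat v hdetP
    funext b
    rw [hgram]
    have := RingHom.map_vecMul ι (gram τ g)
      (Matrix.vecMul (fun b => τ (x * g b)) (gram τ g)⁻¹) b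
    rw [Matrix.vecMul_vecMul, Matrix.nonsing_inv_mul _ hΓ, Matrix.vecMul_one] at this
    rw [hva, ← map_mul, ← hτ]
    exact this.symm
  have ctx : SpanCtx ι π v := by
    refine ⟨fun a b => ?_, fun a => ⟨τ (g a), by rw [hτ, hva]⟩, ?_, ?_⟩
    · rw [hva, hva, ← map_mul]; exact hE1 _
    · rw [← map_one r]; exact hE1 1
    · intro Z
      have hgrambar : gramMat (fun a => (v a).map π) = (gramMat v).map π := gramMat_map π v
      have hdetbar : IsUnit (gramMat (fun a => (v a).map π)).det := by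
        rw [det_gramMat_map]; exact hdetP.map π
      set bbar := gramBasis (fun a => (v a).map π) hdetbar with hbbar
      have hsurj : ∀ a, ∃ c : R, residue R c = bbar.repr Z a := fun a =>
        IsLocalRing.residue_surjective _
      choose c hc using hsurj
      refine ⟨∑ a, ι (c a) • v a, ⟨c, rfl⟩, ?_⟩
      rw [map_sum]
      conv_rhs => rw [← bbar.sum_repr Z]
      refine Finset.sum_congr rfl fun a _ => ?_
      rw [mapMatrix_smul', hπ', hc, hbbar, gramBasis_apply, RingHom.mapMatrix_apply]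
  obtain ⟨f, hf, hf0, hfE⟩ := ctx.exists_matrixUnits hπ'
  choose lam hlam using hfE
  -- the descended representation, by the explicit formula
  let r'fun : G → Matrix (Fin 2) (Fin 2) R := fun x =>
    Matrix.of fun i j => ∑ a, lam j i a * τ (x * g a)
  have key : ∀ x i j, ι (r'fun x i j) = (r x * f j i).trace := by
    intro x i j
    simp only [r'fun, Matrix.of_apply, map_sum, map_mul]
    conv_rhs => rw [hlam j i]
    rw [Finset.mul_sum, Matrix.trace_sum]
    refine Finset.sum_congr rfl fun a _ => ?_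
    rw [Matrix.mul_smul, Matrix.trace_smul, smul_eq_mul, hva, ← map_mul r, ← hτ]
  have hone : r'fun 1 = 1 := by
    ext i j
    apply hι
    rw [key, map_one, one_mul, hf.trace_eq hf0 j i, Matrix.one_apply]
    by_cases hij : i = j
    · subst hij; simp
    · rw [if_neg hij, if_neg (fun h => hij h.symm), map_zero]
  have hmul : ∀ x y, r'fun (x * y) = r'fun x * r'fun y := by
    intro x y
    ext i j
    apply hι
    rw [key, map_mul, hf.trace_mul_mul hf0, Matrix.mul_apply, map_sum]
    refine Finset.sum_congr rfl fun q _ => ?_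
    rw [map_mul, key, key]
  refine ⟨⟨⟨r'fun, hone⟩, hmul⟩, fun i j a => lam j i a, ?_, ?_⟩
  · intro x
    apply hι
    show ι (r'fun x).trace = ι (τ x)
    rw [Matrix.trace, map_sum]
    simp only [Matrix.diag_apply, key]
    rw [← Matrix.trace_sum, ← Finset.mul_sum, hf.sum_diag, mul_one, hτ]
  · intro x i j
    rfl

end Fermat.Agent.S53Lib
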