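import Mathlib
import Fermat.Agent.Lib.S53.Basic
import Fermat.Agent.Lib.S53.MatInterface
import Fermat.Agent.Lib.S53.Descent
import Fermat.Agent.Lib.S53.AdicLevels

/-!
# S53 library: a representation over a complete local ring from its levels and its trace (helper4)

`exists_matRep_of_levels`: let `R` be a complete local ring, `τ : GQ → R` a function and `g` a frame
with `IsUnit (gram τ g).det`.  If for every `n` there is a (finite level) matrix representation over
`R ⧸ m^(n+1)` with trace `τ mod m^(n+1)`, then there is a continuous `r : GQ →* M₂(R)` with trace `τ`.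
(Carayol descent `descent` applied to `R ↪ ∏ₙ R ⧸ m^(n+1)`; continuity from the explicit formula.)
-/

set_option autoImplicit false
set_option linter.unusedSectionVars false

namespace Fermat.Agent.S53Lib

open Matrix IsLocalRing

section PiMat

variable {G : Type*} [Monoid G] {S : ℕ → Type*} [∀ n, CommRing (S n)]

/-- A family of matrix representations over rings `S n` as a representation over `∏ₙ S n`. -/
def piMatRep (rn : ∀ n, G →* Matrix (Fin 2) (Fin 2) (S n)) :
    G →* Matrix (Fin 2) (Fin 2) (∀ n, S n) where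
  toFun x := Matrix.of fun i j n => rn n x i j
  map_one' := by
    refine Matrix.ext fun i j => funext fun n => ?_
    simp only [Matrix.of_apply, map_one, Matrix.one_apply]
    split_ifs <;> rfl
  map_mul' x y := by
    refine Matrix.ext fun i j => funext fun n => ?_
    simp only [Matrix.of_apply, map_mul, Matrix.mul_apply, Finset.sum_apply, Pi.mul_apply]

@[simp] theorem piMatRep_apply (rn : ∀ n, G →* Matrix (Fin 2) (Fin 2) (S n)) (x : G) (i j : Fin 2)
    (n : ℕ) : piMatRep rn x i j n = rn n x i j := rfl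

theorem piMatRep_trace (rn : ∀ n, G →* Matrix (Fin 2) (Fin 2) (S n)) (x : G) (n : ℕ) :
    (piMatRep rn x).trace n = (rn n x).trace := by
  simp [Matrix.trace_fin_two]

end PiMat

section Levels

variable (R : Type) [CommRing R] [IsLocalRing R]

/-- the diagonal map `R → ∏ₙ R ⧸ m^(n+1)` -/
def levelsHom : R →+* (∀ n : ℕ, R ⧸ maximalIdeal R ^ (n + 1)) :=
  RingHom.pi fun n => Ideal.Quotient.mk (maximalIdeal R ^ (n + 1))

@[simp] theorem levelsHom_apply (x : R) (n : ℕ) :
    levelsHom R x n = Ideal.Quotient.mk (maximalIdeal R ^ (n + 1)) x := rfl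

theorem levelsHom_injective [IsAdicComplete (maximalIdeal R) R] :
    Function.Injective (levelsHom R) := by
  intro a b h
  exact eq_of_forall_levelMk_eq R fun n => congrFun h n

/-- the projection `∏ₙ R ⧸ m^(n+1) → R ⧸ m` -/
def levelsResidue : (∀ n : ℕ, R ⧸ maximalIdeal R ^ (n + 1)) →+* ResidueField R :=
  (Ideal.Quotient.factor (by rw [zero_add, pow_one] :
    maximalIdeal R ^ (0 + 1) ≤ maximalIdeal R)).comp
    (Pi.evalRingHom (fun n : ℕ => R ⧸ maximalIdeal R ^ (n + 1)) 0)

theorem levelsResidue_comp_levelsHom : (levelsResidue R).comp (levelsHom R) = residue R := by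
  ext x
  rfl

end Levels

section Main

variable {R : Type} [CommRing R] [IsLocalRing R] [IsAdicComplete (maximalIdeal R) R]

/-- **Universal representation from levels** (finite level hypothesis form). -/
theorem exists_matRep_of_levels_finiteLevel (τ : GQ → R) (g : FrameIdx → GQ)
    (hΓ : IsUnit (gram τ g).det)
    (rn : ∀ n : ℕ, GQ →* Matrix (Fin 2) (Fin 2) (R ⧸ maximalIdeal R ^ (n + 1)))
    (hfl : ∀ n, ∃ L : IntermediateField ℚ (AlgebraicClosure ℚ), FiniteDimensional ℚ L ∧
      ∀ σ : GQ, (∀ x ∈ L, σ x = x) → rn n σ = 1)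
    (htr : ∀ n σ, (rn n σ).trace = Ideal.Quotient.mk (maximalIdeal R ^ (n + 1)) (τ σ)) :
    ∃ r : GQ →* Matrix (Fin 2) (Fin 2) R, MatCts R r ∧ ∀ σ, (r σ).trace = τ σ := by
  obtain ⟨r', c, htr', hformula⟩ := descent (levelsHom R) (levelsHom_injective R)
    (levelsResidue R) (levelsResidue_comp_levelsHom R) (piMatRep rn) τ
    (fun x => by
      funext n
      rw [piMatRep_trace, htr, levelsHom_apply]) g hΓ
  refine ⟨r', ?_, htr'⟩
  intro N
  obtain ⟨L, hL, hσ⟩ := hfl N
  refine ⟨L, hL, fun σ hσL i j => ?_⟩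
  have h1 : rn N σ = 1 := hσ σ hσL
  -- the trace differences lie in `m^(N+1)`
  have hdiff : ∀ a, τ (σ * g a) - τ (1 * g a) ∈ maximalIdeal R ^ (N + 1) := by
    intro a
    rw [← Ideal.Quotient.eq, ← htr, ← htr, map_mul, map_mul, h1, map_one]
  have h2 : (r' σ - 1) i j = ∑ a, c i j a * (τ (σ * g a) - τ (1 * g a)) := by
    have h3 : (r' σ - 1) i j = r' σ i j - r' 1 i j := by rw [map_one]; rfl
    rw [h3, hformula, hformula, ← Finset.sum_sub_distrib]
    exact Finset.sum_congr rfl fun a _ => by ring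
  rw [h2]
  refine Ideal.sum_mem _ fun a _ => Ideal.mul_mem_left _ _ ?_
  exact Ideal.pow_le_pow_right (Nat.le_succ N) (hdiff a)

/-- **Universal representation from levels** (`MatCts` hypothesis form). -/
theorem exists_matRep_of_levels (τ : GQ → R) (g : FrameIdx → GQ)
    (hΓ : IsUnit (gram τ g).det)
    (hlev : ∀ n : ℕ, ∃ rn : GQ →* Matrix (Fin 2) (Fin 2) (R ⧸ maximalIdeal R ^ (n + 1)),
      MatCts (R ⧸ maximalIdeal R ^ (n + 1)) rn ∧
      ∀ σ, (rn σ).trace = Ideal.Quotient.mk (maximalIdeal R ^ (n + 1)) (τ σ)) :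
    ∃ r : GQ →* Matrix (Fin 2) (Fin 2) R, MatCts R r ∧ ∀ σ, (r σ).trace = τ σ := by
  choose rn hcts htr using hlev
  refine exists_matRep_of_levels_finiteLevel τ g hΓ rn (fun n => ?_) htr
  obtain ⟨L, hL, hσ⟩ := hcts n (n + 1)
  refine ⟨L, hL, fun σ hσL => ?_⟩
  refine Matrix.ext fun i j => ?_
  have h1 := hσ σ hσL i j
  rw [maximalIdeal_level_pow_eq_bot, Ideal.mem_bot, Matrix.sub_apply, sub_eq_zero] at h1
  exact h1

end Main

end Fermat.Agent.S53Lib
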