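import Mathlib
import Fermat.Prelude.Def_GaloisRep_DeformationRingData
import Fermat.Prelude.Def_GaloisRep_DeformationCondition
import Fermat.Agent.Lib.S53.Basic
import Fermat.Agent.Lib.S53.MatInterface
import Fermat.Agent.Lib.S53.Aug
import Fermat.Agent.Lib.S53.PushStrict
import Fermat.Agent.Lib.S53.DPair
import Fermat.Agent.Lib.S53.AdicLevels
import Fermat.Agent.Lib.S53.TraceRigidity
import Fermat.Agent.Lib.S53.GramBurnside
import Fermat.Agent.Lib.S53.UnivRep

/-!
# S53 library: abstract assembly of `DeformationRingData` from a universal trace  (helper4)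

Main result `nonempty_deformationRingData_of_universal_trace`: a complete Noetherian local
`𝒪`-algebra `R` with a function `τ : GQ → R` such that
* (H1) every level `R ⧸ m^(n+1)` receives a D-pair whose trace maps to `τ mod m^(n+1)`,
* (H2) every D-pair `P` admits an algebra hom `R → P.A` carrying `τ` to the trace of `P`,
* (H3) algebra homs from `R` to Artinian test algebras are determined by their values on `τ`,
carries a universal deformation.
-/

set_option autoImplicit false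
set_option linter.unusedSectionVars false

namespace Fermat.Agent.S53Lib

open Matrix IsLocalRing GaloisRep

section EquivLemmas

variable {A : Type} [CommRing A] [IsLocalRing A]

theorem isEquiv_symm {ρ ρ' : GaloisRepAdic A} (h : ρ.IsEquiv ρ') : ρ'.IsEquiv ρ :=
  let ⟨e⟩ := h
  ⟨e.symm⟩

theorem isEquiv_trans {ρ ρ' ρ'' : GaloisRepAdic A} (h : ρ.IsEquiv ρ') (h' : ρ'.IsEquiv ρ'') :
    ρ.IsEquiv ρ'' :=
  let ⟨e⟩ := h
  let ⟨e'⟩ := h'
  ⟨e.trans e'⟩

theorem isEquiv_baseChangeAlong {B : Type} [CommRing B] [IsLocalRing B] (φ : A →+* B)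
    (hφ : IsLocalHom φ) {ρ ρ' : GaloisRepAdic A} (h : ρ.IsEquiv ρ') :
    (ρ.baseChangeAlong φ hφ).IsEquiv (ρ'.baseChangeAlong φ hφ) :=
  let ⟨e⟩ := h
  ⟨e.baseChangeAlong φ hφ⟩

end EquivLemmas

section LevelInstances

variable (𝒪 : Type) [CommRing 𝒪]
variable (A : Type) [CommRing A] [IsLocalRing A] [Algebra 𝒪 A]

instance level_algebraMap_isLocalHom [IsLocalHom (algebraMap 𝒪 A)] (n : ℕ) :
    IsLocalHom (algebraMap 𝒪 (A ⧸ maximalIdeal A ^ (n + 1))) := by
  have h : (algebraMap 𝒪 (A ⧸ maximalIdeal A ^ (n + 1))) =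
      (Ideal.Quotient.mk (maximalIdeal A ^ (n + 1))).comp (algebraMap 𝒪 A) := rfl
  rw [h]
  exact RingHom.isLocalHom_comp _ _

end LevelInstances

section Factor

variable {𝒪 : Type} [CommRing 𝒪]
variable {R : Type} [CommRing R] [IsLocalRing R] [Algebra 𝒪 R]
variable {B : Type} [CommRing B] [IsLocalRing B] [Algebra 𝒪 B]

/-- A local algebra hom to an Artinian local ring factors through a level. -/
theorem exists_factor_level [IsArtinianRing B] (q : R →ₐ[𝒪] B) (hq : IsLocalHom (q : R →+* B)) :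
    ∃ (n : ℕ) (q' : (R ⧸ maximalIdeal R ^ (n + 1)) →ₐ[𝒪] B), q'.comp (levelMk 𝒪 R n) = q := by
  obtain ⟨n, hn⟩ := exists_maximalIdeal_pow_eq_bot B
  have hker : ∀ a ∈ maximalIdeal R ^ (n + 1), q a = 0 := by
    intro a ha
    have h1 : a ∈ maximalIdeal R ^ n := Ideal.pow_le_pow_right (Nat.le_succ n) ha
    have h2 : (q : R →+* B) a ∈ maximalIdeal B ^ n :=
      map_maximalIdeal_pow_le (q : R →+* B) hq n (Ideal.mem_map_of_mem _ h1)
    rw [hn, Ideal.mem_bot] at h2
    exact h2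
  refine ⟨n, Ideal.Quotient.liftₐ (maximalIdeal R ^ (n + 1)) q hker, ?_⟩
  ext x
  rfl

end Factor

section Rigidity

variable {𝒪 : Type} [CommRing 𝒪] [IsLocalRing 𝒪]
variable {rbar : GQ →* Matrix (Fin 2) (Fin 2) (ResidueField 𝒪)}
variable {A : Type} [CommRing A] [IsLocalRing A] [Algebra 𝒪 A] [IsLocalHom (algebraMap 𝒪 A)]

/-- Two strict lifts with the same trace give equivalent representations. -/
theorem isEquiv_ofMat_of_trace_eq (g : FrameIdx → GQ)
    (hg : (gram (fun σ => (rbar σ).trace) g).det ≠ 0)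
    {r₁ r₂ : GQ →* Matrix (Fin 2) (Fin 2) A} (h₁ : MatCts A r₁) (h₂ : MatCts A r₂)
    (hs₁ : IsStrictLift (𝒪 := 𝒪) rbar r₁)
    (htr : ∀ σ, (r₁ σ).trace = (r₂ σ).trace) :
    (ofMat r₁ h₁).IsEquiv (ofMat r₂ h₂) := by
  obtain ⟨u, hu⟩ := trace_rigidity r₁ r₂ htr g (isUnit_det_gram_of_isStrictLift g hg hs₁)
  exact isEquiv_ofMat_of_conj h₁ h₂ u hu

end Rigidity

section Levels

variable {𝒪 : Type} [CommRing 𝒪] [IsLocalRing 𝒪]
variable {𝒟 : ∀ ⦃A : Type⦄ [CommRing A] [IsLocalRing A] [Algebra 𝒪 A], GaloisRepAdic A → Prop}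
variable {R : Type} [CommRing R] [IsLocalRing R] [IsNoetherianRing R]
  [IsAdicComplete (maximalIdeal R) R] [Algebra 𝒪 R] [IsLocalHom (algebraMap 𝒪 R)]

theorem mapMat_comp {A B C : Type} [CommRing A] [CommRing B] [CommRing C]
    (φ : A →+* B) (ψ : B →+* C) (r : GQ →* Matrix (Fin 2) (Fin 2) A) :
    mapMat ψ (mapMat φ r) = mapMat (ψ.comp φ) r := by
  ext σ i j
  rfl

/-- **𝒟 over a complete ring from 𝒟 on all levels** (matrix form). -/
theorem isOfType_of_levels (h𝒟 : IsDeformationCondition 𝒪 𝒟)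
    (hsurj : Function.Surjective (residue R ∘ algebraMap 𝒪 R))
    (r : GQ →* Matrix (Fin 2) (Fin 2) R) (hr : MatCts R r)
    (H : ∀ n, 𝒟 (ofMat (mapMat (levelMk 𝒪 R n : R →+* R ⧸ maximalIdeal R ^ (n + 1)) r)
      (hr.map _ (levelMk_isLocalHom 𝒪 R n)))) :
    𝒟 (ofMat r hr) := by
  rw [h𝒟.iff_forall_surjective inferInstance hsurj]
  intro B _ _ _ hB q hq _
  have := hB.isArtinian
  have := hB.isLocalHom
  refine h𝒟.of_isEquiv hB (isEquiv_symm (baseChangeAlong_ofMat r hr (q : R →+* B) hq)) ?_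
  obtain ⟨n, q', hq'⟩ := exists_factor_level q hq
  have hlev := level_isArtinianTestAlgebra 𝒪 R hsurj n
  have := hlev.isArtinian
  have hq'loc : IsLocalHom (q' : (R ⧸ maximalIdeal R ^ (n + 1)) →+* B) :=
    isLocalHom_of_isArtinianRing _
  have h1 := isOfType_mapMat h𝒟 hlev hB _ (H n) q' hq'loc
  refine isOfType_ofMat_congr _ _ ?_ h1
  rw [mapMat_comp]
  congr 1
  exact congrArg (fun f : R →ₐ[𝒪] B => (f : R →+* B)) hq'

/-- **Levels of a representation of type 𝒟 over a complete ring are of type 𝒟** (matrix form). -/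
theorem isOfType_level_of_isEquiv (h𝒟 : IsDeformationCondition 𝒪 𝒟)
    (hsurj : Function.Surjective (residue R ∘ algebraMap 𝒪 R))
    (ρ : GaloisRepAdic R) (hρ : 𝒟 ρ) (r : GQ →* Matrix (Fin 2) (Fin 2) R) (hr : MatCts R r)
    (e : ρ.IsEquiv (ofMat r hr)) (n : ℕ) :
    𝒟 (ofMat (mapMat (levelMk 𝒪 R n : R →+* R ⧸ maximalIdeal R ^ (n + 1)) r)
      (hr.map _ (levelMk_isLocalHom 𝒪 R n))) := by
  have hlev := level_isArtinianTestAlgebra 𝒪 R hsurj n
  have h1 := (h𝒟.iff_forall_surjective inferInstance hsurj ρ).mp hρ hlev (levelMk 𝒪 R n)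
    (levelMk_isLocalHom 𝒪 R n) (levelMk_surjective 𝒪 R n)
  exact h𝒟.of_isEquiv hlev (isEquiv_trans (isEquiv_baseChangeAlong _ _ e)
    (baseChangeAlong_ofMat r hr _ _)) h1

end Levels

section Main

variable (𝒪 : Type) [CommRing 𝒪] [IsDomain 𝒪] [IsDiscreteValuationRing 𝒪]
  [IsAdicComplete (maximalIdeal 𝒪) 𝒪]
variable (ρbar : ResidualGaloisRep (ResidueField 𝒪))
variable (𝒟 : ∀ ⦃A : Type⦄ [CommRing A] [IsLocalRing A] [Algebra 𝒪 A], GaloisRepAdic A → Prop)

/-- **Abstract assembly**: a complete Noetherian local `𝒪`-algebra with a universal trace function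
carries a universal deformation. -/
theorem nonempty_deformationRingData_of_universal_trace
    (habs : ρbar.IsAbsolutelyIrreducible) (h𝒟 : IsDeformationCondition 𝒪 𝒟)
    (b : Module.Basis (Fin 2) (ResidueField 𝒪) ρbar.V)
    (R : Type) [CommRing R] [IsLocalRing R] [IsNoetherianRing R]
    [IsAdicComplete (maximalIdeal R) R] [Algebra 𝒪 R] [IsLocalHom (algebraMap 𝒪 R)]
    (hsurj : Function.Surjective (residue R ∘ algebraMap 𝒪 R))
    (τ : GQ → R)
    (H1 : ∀ n : ℕ, ∃ (P : DPair (resMat ρbar b) 𝒟) (q : P.A →ₐ[𝒪] R ⧸ maximalIdeal R ^ (n + 1)),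
      ∀ σ, q (P.t σ) = Ideal.Quotient.mk (maximalIdeal R ^ (n + 1)) (τ σ))
    (H2 : ∀ P : DPair (resMat ρbar b) 𝒟, ∃ φ : R →ₐ[𝒪] P.A, ∀ σ, φ (τ σ) = P.t σ)
    (H3 : ∀ (B : Type) [CommRing B] [IsLocalRing B] [Algebra 𝒪 B], IsArtinianTestAlgebra 𝒪 B →
      ∀ φ φ' : R →ₐ[𝒪] B, (∀ σ, φ (τ σ) = φ' (τ σ)) → φ = φ') :
    Nonempty (DeformationRingData 𝒪 ρbar 𝒟) := by
  classical
  set rbar := resMat ρbar b with hrbar
  -- the frame
  obtain ⟨g, hg0⟩ := exists_gram_ne_zero ρbar habs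
  have hg : (gram (fun σ => (rbar σ).trace) g).det ≠ 0 := by
    have h1 : (fun σ => (rbar σ).trace) =
        fun σ => LinearMap.trace (ResidueField 𝒪) ρbar.V (ρbar.ρ σ) := by
      funext σ
      rw [hrbar, resMat_apply, LinearMap.trace_eq_matrix_trace (ResidueField 𝒪) b]
    rw [h1]
    exact hg0
  -- level data
  have hlevAT : ∀ n, IsArtinianTestAlgebra 𝒪 (R ⧸ maximalIdeal R ^ (n + 1)) :=
    level_isArtinianTestAlgebra 𝒪 R hsurj
  have hlev : ∀ n : ℕ, ∃ rn : GQ →* Matrix (Fin 2) (Fin 2) (R ⧸ maximalIdeal R ^ (n + 1)),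
      ∃ hc : MatCts (R ⧸ maximalIdeal R ^ (n + 1)) rn,
      IsStrictLift (𝒪 := 𝒪) rbar rn ∧ 𝒟 (ofMat rn hc) ∧
        ∀ σ, (rn σ).trace = Ideal.Quotient.mk (maximalIdeal R ^ (n + 1)) (τ σ) := by
    intro n
    obtain ⟨P, q, hq⟩ := H1 n
    have hqloc : IsLocalHom (q : P.A →+* R ⧸ maximalIdeal R ^ (n + 1)) := by
      have := P.isArtinian
      exact isLocalHom_of_isArtinianRing _
    refine ⟨mapMat (q : P.A →+* R ⧸ maximalIdeal R ^ (n + 1)) P.r, P.cts.map _ hqloc,
      isStrictLift_mapMat P.strict q hqloc,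
      isOfType_mapMat h𝒟 P.isArtinianTestAlgebra (hlevAT n) P.cts P.isOfType q hqloc, fun σ => ?_⟩
    rw [mapMat_apply, trace_map_ringHom]
    exact hq σ
  choose rn hrn_cts hrn_strict hrn_D hrn_tr using hlev
  -- the Gram determinant of `τ` is a unit
  have hΓ : IsUnit (gram τ g).det := by
    have h1 := isUnit_det_gram_of_isStrictLift g hg (hrn_strict 0)
    have h2 : (fun σ => ((rn 0) σ).trace) =
        fun σ => Ideal.Quotient.mk (maximalIdeal R ^ (0 + 1)) (τ σ) := funext (hrn_tr 0)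
    rw [h2, det_gram_map] at h1
    exact isUnit_of_map_unit (Ideal.Quotient.mk (maximalIdeal R ^ (0 + 1))) _ h1
  -- the representation over `R`
  obtain ⟨r₀, hr₀_cts, hr₀_tr⟩ :=
    exists_matRep_of_levels τ g hΓ (fun n => ⟨rn n, hrn_cts n, hrn_tr n⟩)
  -- strictify
  have htr₀ : ∀ σ, residue R (r₀ σ).trace =
      ResidueField.map (algebraMap 𝒪 R) (rbar σ).trace := by
    intro σ
    rw [hr₀_tr]
    have h1 := residue_trace_of_isStrictLift (hrn_strict 0) σ
    rw [hrn_tr 0] at h1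
    have := levelMk_isLocalHom 𝒪 R 0
    apply (ResidueField.map (levelMk 𝒪 R 0 : R →+* R ⧸ maximalIdeal R ^ (0 + 1))).injective
    rw [ResidueField.map_residue, residueField_map_map (levelMk 𝒪 R 0)]
    exact h1
  obtain ⟨v, r, hv, hr_strict⟩ := exists_conj_isStrictLift g hg r₀ htr₀
  have hr_cts : MatCts R r := hr₀_cts.conj v r hv
  have hr_tr : ∀ σ, (r σ).trace = τ σ := by
    intro σ
    rw [← hv σ, Matrix.trace_mul_comm, ← mul_assoc, Units.inv_mul, one_mul, hr₀_tr]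
  -- the deformation condition
  have hr_D : 𝒟 (ofMat r hr_cts) := by
    refine isOfType_of_levels h𝒟 hsurj r hr_cts fun n => ?_
    refine h𝒟.of_isEquiv (hlevAT n)
      (isEquiv_ofMat_of_trace_eq g hg (hrn_cts n) _ (hrn_strict n) fun σ => ?_) (hrn_D n)
    rw [hrn_tr, mapMat_apply, trace_map_ringHom, hr_tr]
    rfl
  refine ⟨{ R := R
            residue_surjective := hsurj
            absIrr := habs
            ρ := ofMat r hr_cts
            isOfType := hr_D
            residual_isEquiv := residual_ofMat_isEquiv ρbar b r hr_cts hr_strict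
            universal := ?_ }⟩
  intro A _ _ _ _ _ _ hsurjA ρA hρA hresA
  obtain ⟨rA, hrA_cts, hrA_strict, hrA_e⟩ :=
    exists_strictLift_of_residual_isEquiv ρbar b ρA hresA
  have hlevA : ∀ n, IsArtinianTestAlgebra 𝒪 (A ⧸ maximalIdeal A ^ (n + 1)) :=
    level_isArtinianTestAlgebra 𝒪 A hsurjA
  -- level D-pairs of `ρA`
  let PA : ℕ → DPair rbar 𝒟 := fun n =>
    { A := A ⧸ maximalIdeal A ^ (n + 1)
      residue_surjective := (hlevA n).residue_surjective
      isArtinian := (hlevA n).isArtinian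
      r := mapMat (levelMk 𝒪 A n : A →+* A ⧸ maximalIdeal A ^ (n + 1)) rA
      cts := hrA_cts.map _ (levelMk_isLocalHom 𝒪 A n)
      strict := isStrictLift_mapMat hrA_strict (levelMk 𝒪 A n) (levelMk_isLocalHom 𝒪 A n)
      isOfType := isOfType_level_of_isEquiv h𝒟 hsurjA ρA hρA rA hrA_cts hrA_e n }
  have hPA_t : ∀ n σ, (PA n).t σ =
      Ideal.Quotient.mk (maximalIdeal A ^ (n + 1)) ((rA σ).trace) := by
    intro n σ
    show ((rA σ).map (levelMk 𝒪 A n : A →+* A ⧸ maximalIdeal A ^ (n + 1))).trace = _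
    rw [trace_map_ringHom]
    rfl
  choose φn hφn using fun n => H2 (PA n)
  have hcompat : ∀ n, (levelTrans 𝒪 A n).comp (φn (n + 1)) = φn n := by
    intro n
    apply H3 _ (hlevA n)
    intro σ
    rw [AlgHom.comp_apply, hφn, hφn, hPA_t, hPA_t]
    rfl
  obtain ⟨Φ, hΦ⟩ := exists_algHom_of_compatible_levels 𝒪 A φn hcompat
  have hΦloc : IsLocalHom (Φ : R →+* A) :=
    isLocalHom_of_algHom inferInstance hsurj inferInstance hsurjA Φ
  have hΦτ : ∀ σ, Φ (τ σ) = (rA σ).trace := by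
    intro σ
    apply eq_of_forall_levelMk_eq A
    intro n
    have h1 := congrArg (fun f => f (τ σ)) (hΦ n)
    simp only [AlgHom.comp_apply] at h1
    rw [hφn, hPA_t] at h1
    exact h1
  refine ⟨Φ, ⟨hΦloc, ?_⟩, ?_⟩
  · refine isEquiv_trans (baseChangeAlong_ofMat r hr_cts (Φ : R →+* A) hΦloc)
      (isEquiv_trans (isEquiv_ofMat_of_trace_eq g hg _ hrA_cts
        (isStrictLift_mapMat hr_strict Φ hΦloc) fun σ => ?_) (isEquiv_symm hrA_e))
    rw [mapMat_apply, trace_map_ringHom, hr_tr]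
    exact hΦτ σ
  · rintro φ' ⟨hφ'loc, he'⟩
    have hφ'τ : ∀ σ, φ' (τ σ) = (rA σ).trace := by
      intro σ
      have h1 := trace_eq_of_isEquiv (isEquiv_trans (isEquiv_symm
        (baseChangeAlong_ofMat r hr_cts (φ' : R →+* A) hφ'loc)) (isEquiv_trans he' hrA_e)) σ
      rw [trace_ofMat, trace_ofMat, mapMat_apply, trace_map_ringHom, hr_tr] at h1
      exact h1
    apply algHom_ext_of_levels 𝒪 A
    intro n
    apply H3 _ (hlevA n)
    intro σ
    rw [AlgHom.comp_apply, AlgHom.comp_apply, hφ'τ, hΦτ]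

end Main

end Fermat.Agent.S53Lib
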