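/-
S53 library, task F3: a finite set of functions is separated by finitely many points.
-/
import Mathlib

set_option autoImplicit false

namespace Fermat.Agent.S53Lib

/-- **F3**: a finite set of functions is separated by finitely many points. -/
theorem exists_separating_points {X Y : Type*} (T : Set (X → Y)) (hT : T.Finite) :
    ∃ (d : ℕ) (γ : Fin d → X), ∀ t₁ ∈ T, ∀ t₂ ∈ T, (∀ i, t₁ (γ i) = t₂ (γ i)) → t₁ = t₂ := by
  classical
  let T' : Finset (X → Y) := hT.toFinset
  let P : Finset ((X → Y) × (X → Y)) := (T' ×ˢ T').filter (fun p => p.1 ≠ p.2)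
  have hP : ∀ p : {p // p ∈ P}, ∃ x : X, p.1.1 x ≠ p.1.2 x := by
    rintro ⟨p, hp⟩
    have h := (Finset.mem_filter.mp hp).2
    exact Function.ne_iff.mp h
  choose x hx using hP
  refine ⟨P.card, fun i => x (P.equivFin.symm i), ?_⟩
  intro t₁ h₁ t₂ h₂ h
  by_contra hne
  have hp : (t₁, t₂) ∈ P := by
    refine Finset.mem_filter.mpr ⟨Finset.mem_product.mpr ⟨?_, ?_⟩, hne⟩
    · exact hT.mem_toFinset.mpr h₁
    · exact hT.mem_toFinset.mpr h₂
  have h' := h (P.equivFin ⟨(t₁, t₂), hp⟩)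
  simp only [Equiv.symm_apply_apply] at h'
  exact hx ⟨(t₁, t₂), hp⟩ h'

end Fermat.Agent.S53Lib
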