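/-
S53 trunk, part 1 (helper5): the setup, the maps ψ_P : Λ → P.A, the ideal 𝔞 = ⋂ ker ψ_P,
the ring R = Λ/𝔞 with its instances, and the induced maps barpsi P : R → P.A.
-/
import Fermat.Agent.Lib.S53.DPair
import Fermat.Agent.Lib.S53.PowerSeriesP
import Fermat.Agent.Lib.S53.TangentFiniteBridge

set_option autoImplicit false
set_option linter.unusedSectionVars false

namespace Fermat.Agent.S53Lib

open Matrix IsLocalRing GaloisRep

noncomputable section

attribute [local instance] dualNumberAlgebra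

variable {𝒪 : Type} [CommRing 𝒪] [IsDomain 𝒪] [IsDiscreteValuationRing 𝒪]
  [IsAdicComplete (maximalIdeal 𝒪) 𝒪] [Finite (ResidueField 𝒪)]
variable (rbar : GQ →* Matrix (Fin 2) (Fin 2) (ResidueField 𝒪))
variable (𝒟 : ∀ ⦃A : Type⦄ [CommRing A] [IsLocalRing A] [Algebra 𝒪 A], GaloisRepAdic A → Prop)

/-- the data fixed throughout the construction of the universal deformation ring -/
structure Setup : Type 1 where
  h𝒟 : IsDeformationCondition 𝒪 𝒟
  g : FrameIdx → GQ
  hg : (gram (fun σ => (rbar σ).trace) g).det ≠ 0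
  d : ℕ
  γ : Fin d → GQ
  c : Fin d → 𝒪
  hc : ∀ i, residue 𝒪 (c i) = (rbar (γ i)).trace
  hsep : ∀ (Q : DPair rbar 𝒟) (χ₁ χ₂ : Q.A →ₐ[𝒪] DualNumber (ResidueField 𝒪)),
    (∀ i, χ₁ (Q.t (γ i)) = χ₂ (Q.t (γ i))) → ∀ σ, χ₁ (Q.t σ) = χ₂ (Q.t σ)
  base : DPair rbar 𝒟

variable {rbar 𝒟}

instance DPair.instIsArtinianRing (P : DPair rbar 𝒟) : IsArtinianRing P.A := P.isArtinian

/-- nilpotency of the maximal ideal of a D-pair algebra -/
theorem DPair.exists_pow_eq_bot (P : DPair rbar 𝒟) : ∃ n, maximalIdeal P.A ^ n = ⊥ :=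
  exists_maximalIdeal_pow_eq_bot P.A

/-- the trace of a D-pair reduces to the trace of `rbar` -/
theorem DPair.residue_t (P : DPair rbar 𝒟) (σ : GQ) :
    residue P.A (P.t σ) = ResidueField.map (algebraMap 𝒪 P.A) (rbar σ).trace :=
  P.strict.residue_trace σ

theorem trace_mapMat {A B : Type} [CommRing A] [IsLocalRing A] [CommRing B] [IsLocalRing B]
    (φ : A →+* B) (r : GQ →* Matrix (Fin 2) (Fin 2) A) (σ : GQ) :
    (mapMat φ r σ).trace = φ (r σ).trace := by
  rw [mapMat_apply]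
  exact matTrace_map φ (r σ)

variable (S : Setup rbar 𝒟)

/-- the power series ring -/
abbrev Setup.Lam : Type := MvPowerSeries (Fin S.d) 𝒪

/-- the images of the variables -/
def Setup.varImage (P : DPair rbar 𝒟) (i : Fin S.d) : P.A :=
  P.t (S.γ i) - algebraMap 𝒪 P.A (S.c i)

theorem Setup.varImage_mem (P : DPair rbar 𝒟) (i : Fin S.d) :
    S.varImage P i ∈ maximalIdeal P.A := by
  rw [← IsLocalRing.residue_eq_zero_iff, Setup.varImage, map_sub, P.residue_t, ← S.hc i,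
    sub_eq_zero, ResidueField.map_residue]

/-- the canonical map `Λ → P.A` -/
def Setup.psi (P : DPair rbar 𝒟) : S.Lam →ₐ[𝒪] P.A :=
  evalAdic (maximalIdeal P.A) (S.varImage P) (S.varImage_mem P)

theorem Setup.psi_X (P : DPair rbar 𝒟) (i : Fin S.d) :
    S.psi P (MvPowerSeries.X i) = S.varImage P i :=
  evalAdic_X _ _ _ i

theorem Setup.psi_unique (P : DPair rbar 𝒟) (ψ : S.Lam →ₐ[𝒪] P.A)
    (hψ : ∀ i, ψ (MvPowerSeries.X i) = S.varImage P i) : ψ = S.psi P :=
  eq_evalAdic _ _ _ ψ hψ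

theorem Setup.psi_isLocalHom (P : DPair rbar 𝒟) : IsLocalHom (S.psi P : S.Lam →+* P.A) :=
  isLocalHom_evalAdic _ _


/-! ### compatibility with push-forward and products -/

theorem Setup.psi_push (P : DPair rbar 𝒟) {B : Type} [CommRing B] [IsLocalRing B] [Algebra 𝒪 B]
    (hB : IsArtinianTestAlgebra 𝒪 B) (φ : P.A →ₐ[𝒪] B) (hφ : IsLocalHom (φ : P.A →+* B))
    (x : S.Lam) : S.psi (P.push S.h𝒟 hB φ hφ) x = φ (S.psi P x) := by
  have h := S.psi_unique (P.push S.h𝒟 hB φ hφ) (φ.comp (S.psi P)) (fun i => by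
    have h1 : (φ.comp (S.psi P)) (MvPowerSeries.X i) = φ (S.varImage P i) := by
      rw [AlgHom.comp_apply, S.psi_X]
    have h2 : S.varImage (P.push S.h𝒟 hB φ hφ) i = φ (S.varImage P i) := by
      unfold Setup.varImage
      rw [P.push_t, map_sub, AlgHom.commutes]
      rfl
    exact h1.trans h2.symm)
  exact (AlgHom.congr_fun h x).symm

theorem Setup.psi_prodFst (P Q : DPair rbar 𝒟) (x : S.Lam) :
    P.prodFst' Q S.h𝒟 (S.psi (P.prod Q S.h𝒟) x) = S.psi P x := by
  have h := S.psi_unique P ((P.prodFst' Q S.h𝒟).comp (S.psi (P.prod Q S.h𝒟))) (fun i => by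
    rw [AlgHom.comp_apply, S.psi_X, Setup.varImage, Setup.varImage, map_sub, AlgHom.commutes,
      P.prodFst'_t])
  exact AlgHom.congr_fun h x

theorem Setup.psi_prodSnd (P Q : DPair rbar 𝒟) (x : S.Lam) :
    P.prodSnd' Q S.h𝒟 (S.psi (P.prod Q S.h𝒟) x) = S.psi Q x := by
  have h := S.psi_unique Q ((P.prodSnd' Q S.h𝒟).comp (S.psi (P.prod Q S.h𝒟))) (fun i => by
    rw [AlgHom.comp_apply, S.psi_X, Setup.varImage, Setup.varImage, map_sub, AlgHom.commutes,
      P.prodSnd'_t])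
  exact AlgHom.congr_fun h x

theorem Setup.ker_psi_prod (P Q : DPair rbar 𝒟) :
    RingHom.ker (S.psi (P.prod Q S.h𝒟)) = RingHom.ker (S.psi P) ⊓ RingHom.ker (S.psi Q) := by
  ext x
  simp only [Ideal.mem_inf, RingHom.mem_ker]
  constructor
  · intro h
    rw [← S.psi_prodFst P Q, ← S.psi_prodSnd P Q, h, map_zero, map_zero]
    exact ⟨rfl, rfl⟩
  · rintro ⟨h1, h2⟩
    apply P.prod_ext Q S.h𝒟
    · rw [S.psi_prodFst, h1, map_zero]
    · rw [S.psi_prodSnd, h2, map_zero]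

/-- the kernels of the `ψ_P` are open -/
theorem Setup.exists_pow_le_ker_psi (P : DPair rbar 𝒟) :
    ∃ n, maximalIdeal S.Lam ^ n ≤ RingHom.ker (S.psi P) := by
  obtain ⟨n, hn⟩ := P.exists_pow_eq_bot
  refine ⟨n, fun x hx => ?_⟩
  have := S.psi_isLocalHom P
  have h1 : (maximalIdeal S.Lam ^ n).map (S.psi P : S.Lam →+* P.A) ≤ maximalIdeal P.A ^ n := by
    rw [Ideal.map_pow]
    exact Ideal.pow_right_mono (map_maximalIdeal_le _) n
  have h2 := h1 (Ideal.mem_map_of_mem _ hx)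
  rw [hn, Ideal.mem_bot] at h2
  exact h2

/-! ### the ideal `𝔞` and the ring `R` -/

/-- the intersection of all kernels -/
def Setup.univIdeal : Ideal S.Lam := ⨅ P : DPair rbar 𝒟, RingHom.ker (S.psi P)

theorem Setup.mem_univIdeal {x : S.Lam} : x ∈ S.univIdeal ↔ ∀ P : DPair rbar 𝒟, S.psi P x = 0 := by
  simp [Setup.univIdeal, RingHom.mem_ker]

theorem Setup.univIdeal_ne_top : S.univIdeal ≠ ⊤ := by
  intro h
  have h1 : (1 : S.Lam) ∈ S.univIdeal := by rw [h]; trivial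
  have h2 := S.mem_univIdeal.mp h1 S.base
  rw [map_one] at h2
  exact one_ne_zero h2

/-- the universal deformation ring -/
abbrev Setup.R : Type := S.Lam ⧸ S.univIdeal

instance Setup.instIsLocalRingR : IsLocalRing S.R := isLocalRing_quotient _ S.univIdeal_ne_top

instance Setup.instIsLocalHomR : IsLocalHom (algebraMap 𝒪 S.R) :=
  isLocalHom_algebraMap_quotient _

instance Setup.instIsAdicCompleteR : IsAdicComplete (maximalIdeal S.R) S.R :=
  isAdicComplete_quotient _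

theorem Setup.residue_surjective_R : Function.Surjective (residue S.R ∘ algebraMap 𝒪 S.R) :=
  residue_comp_algebraMap_quotient_surjective _

example : IsNoetherianRing S.R := inferInstance

/-- the map `R → P.A` induced by `ψ_P` -/
def Setup.barpsi (P : DPair rbar 𝒟) : S.R →ₐ[𝒪] P.A :=
  Ideal.Quotient.liftₐ S.univIdeal (S.psi P) (fun _ hx => S.mem_univIdeal.mp hx P)

@[simp] theorem Setup.barpsi_mk (P : DPair rbar 𝒟) (x : S.Lam) :
    S.barpsi P (Ideal.Quotient.mk S.univIdeal x) = S.psi P x := rfl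

theorem Setup.barpsi_ext {x y : S.R} (h : ∀ P : DPair rbar 𝒟, S.barpsi P x = S.barpsi P y) :
    x = y := by
  obtain ⟨x, rfl⟩ := Ideal.Quotient.mk_surjective x
  obtain ⟨y, rfl⟩ := Ideal.Quotient.mk_surjective y
  rw [Ideal.Quotient.eq, S.mem_univIdeal]
  intro P
  have := h P
  rw [S.barpsi_mk, S.barpsi_mk] at this
  rw [map_sub, this, sub_self]

theorem Setup.barpsi_isLocalHom (P : DPair rbar 𝒟) : IsLocalHom (S.barpsi P : S.R →+* P.A) := by
  refine ⟨fun a ha => ?_⟩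
  obtain ⟨x, rfl⟩ := Ideal.Quotient.mk_surjective a
  have := S.psi_isLocalHom P
  have hx : IsUnit ((S.psi P : S.Lam →+* P.A) x) := ha
  exact (isUnit_of_map_unit (S.psi P : S.Lam →+* P.A) x hx).map _

theorem Setup.barpsi_push (P : DPair rbar 𝒟) {B : Type} [CommRing B] [IsLocalRing B] [Algebra 𝒪 B]
    (hB : IsArtinianTestAlgebra 𝒪 B) (φ : P.A →ₐ[𝒪] B) (hφ : IsLocalHom (φ : P.A →+* B))
    (x : S.R) : S.barpsi (P.push S.h𝒟 hB φ hφ) x = φ (S.barpsi P x) := by
  obtain ⟨x, rfl⟩ := Ideal.Quotient.mk_surjective x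
  exact S.psi_push P hB φ hφ x

theorem Setup.mk_X (i : Fin S.d) (P : DPair rbar 𝒟) :
    S.barpsi P (Ideal.Quotient.mk S.univIdeal (MvPowerSeries.X i)) = S.varImage P i := by
  rw [S.barpsi_mk, S.psi_X]

end

end Fermat.Agent.S53Lib
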