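/- S53 leaves L0, L1: base D-pair and separating points (helper4). -/
import Fermat.Agent.Lib.S53.Trunk1
import Fermat.Agent.Lib.S53.TangentBridge
import Fermat.Agent.Lib.S53.TangentN
import Fermat.Agent.Lib.S53.SeparatingPoints

set_option autoImplicit false
set_option linter.unusedSectionVars false

namespace Fermat.Agent.S53Lib

open Matrix IsLocalRing GaloisRep

noncomputable section

attribute [local instance] dualNumberAlgebra

variable {𝒪 : Type} [CommRing 𝒪] [IsDomain 𝒪] [IsDiscreteValuationRing 𝒪]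
  [IsAdicComplete (maximalIdeal 𝒪) 𝒪] [Finite (ResidueField 𝒪)]
variable {rbar : GQ →* Matrix (Fin 2) (Fin 2) (ResidueField 𝒪)}
variable {𝒟 : ∀ ⦃A : Type⦄ [CommRing A] [IsLocalRing A] [Algebra 𝒪 A], GaloisRepAdic A → Prop}

/-- the residual matrices are trivially continuous -/
theorem matCts_resMat (ρbar : ResidualGaloisRep (ResidueField 𝒪))
    (b : Module.Basis (Fin 2) (ResidueField 𝒪) ρbar.V) :
    MatCts (ResidueField 𝒪) (resMat ρbar b) := by
  intro n
  obtain ⟨L, hL, h⟩ := ρbar.factorsThroughFiniteLevel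
  refine ⟨L, hL, fun σ hσ i j => ?_⟩
  have h1 : resMat ρbar b σ = 1 := by
    rw [resMat_apply, h σ hσ]
    exact LinearMap.toMatrix_one b
  rw [h1, sub_self]
  exact Ideal.zero_mem _

instance isLocalHom_algebraMap_residueField :
    IsLocalHom (algebraMap 𝒪 (ResidueField 𝒪)) :=
  inferInstanceAs (IsLocalHom (residue 𝒪))

/-- the residual matrices are a strict lift of themselves -/
theorem isStrictLift_resMat_self (rbar : GQ →* Matrix (Fin 2) (Fin 2) (ResidueField 𝒪)) :
    IsStrictLift (𝒪 := 𝒪) (A := ResidueField 𝒪) rbar rbar := by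
  intro σ
  refine Matrix.ext fun i j => ?_
  simp only [Matrix.map_apply]
  obtain ⟨c, hc⟩ := residue_surjective (rbar σ i j)
  rw [← hc]
  rfl

/-- **L0.** `ρbar` itself (in the basis `b`) is a D-pair over `k`. -/
theorem exists_base_dpair (h𝒟 : IsDeformationCondition 𝒪 𝒟)
    (ρbar : ResidualGaloisRep (ResidueField 𝒪))
    (b : Module.Basis (Fin 2) (ResidueField 𝒪) ρbar.V)
    (hbar : 𝒟 (GaloisRepAdic.ofResidualGaloisRep ρbar)) :
    Nonempty (DPair (resMat ρbar b) 𝒟) := by
  have hk : IsArtinianTestAlgebra 𝒪 (ResidueField 𝒪) := isArtinianTestAlgebra_residueField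
  let b' : Module.Basis (Fin 2) (ResidueField 𝒪) (GaloisRepAdic.ofResidualGaloisRep ρbar).V := b
  have hmat : toMatrixRep (GaloisRepAdic.ofResidualGaloisRep ρbar) b' = resMat ρbar b := by
    ext σ : 1
    rfl
  have he : (GaloisRepAdic.ofResidualGaloisRep ρbar).IsEquiv
      (ofMat (resMat ρbar b) (matCts_resMat ρbar b)) := by
    have e := equivOfMatrix (GaloisRepAdic.ofResidualGaloisRep ρbar) b'
    exact ⟨e.trans (equivOfEq hmat _ _)⟩
  exact ⟨{ A := ResidueField 𝒪
           residue_surjective := hk.residue_surjective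
           isArtinian := hk.isArtinian
           r := resMat ρbar b
           cts := matCts_resMat ρbar b
           strict := isStrictLift_resMat_self _
           isOfType := h𝒟.of_isEquiv hk he hbar }⟩

/-- **L1.** Finitely many points of `GQ` separate the tangent trace functions. -/
theorem exists_separating (h𝒟 : IsDeformationCondition 𝒪 𝒟)
    (ρbar : ResidualGaloisRep (ResidueField 𝒪))
    (b : Module.Basis (Fin 2) (ResidueField 𝒪) ρbar.V)
    (hfin : TangentFinite 𝒪 ρbar 𝒟) :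
    ∃ (d : ℕ) (γ : Fin d → GQ), ∀ (Q : DPair (resMat ρbar b) 𝒟)
      (χ₁ χ₂ : Q.A →ₐ[𝒪] DualNumber (ResidueField 𝒪)),
      (∀ i, χ₁ (Q.t (γ i)) = χ₂ (Q.t (γ i))) → ∀ σ, χ₁ (Q.t σ) = χ₂ (Q.t σ) := by
  have hloc : IsLocalHom (algebraMap 𝒪 (DualNumber (ResidueField 𝒪))) :=
    isLocalHom_algebraMap_dualNumber 𝒪
  have hT := tangent_traces_finite 𝒪 ρbar 𝒟 hfin
  obtain ⟨d, γ, hsep⟩ := exists_separating_points _ hT
  refine ⟨d, γ, fun Q χ₁ χ₂ hagree σ => ?_⟩
  have hkε : IsArtinianTestAlgebra 𝒪 (DualNumber (ResidueField 𝒪)) :=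
    isArtinianTestAlgebra_dualNumber 𝒪
  -- the trace functions of the two push-forwards are tangent traces
  have hmem : ∀ χ : Q.A →ₐ[𝒪] DualNumber (ResidueField 𝒪),
      (fun σ => χ (Q.t σ)) ∈ {t : GQ → DualNumber (ResidueField 𝒪) |
        ∃ ρ : GaloisRepAdic (DualNumber (ResidueField 𝒪)), 𝒟 ρ ∧
          ρ.residual.IsEquiv (ρbar.baseChangeAlong
            (ResidueField.map (algebraMap 𝒪 (DualNumber (ResidueField 𝒪))))) ∧
          ∀ σ, ρ.trace σ = t σ} := by
    intro χ
    have hχ : IsLocalHom (χ : Q.A →+* DualNumber (ResidueField 𝒪)) :=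
      isLocalHom_of_isArtinianRing _
    refine ⟨ofMat (mapMat (χ : Q.A →+* DualNumber (ResidueField 𝒪)) Q.r) (Q.cts.map _ hχ),
      isOfType_mapMat h𝒟 Q.isArtinianTestAlgebra hkε Q.cts Q.isOfType χ hχ,
      residual_ofMat_isEquiv ρbar b _ _ (isStrictLift_mapMat Q.strict χ hχ), fun σ => ?_⟩
    rw [trace_ofMat, trace_mapMat]
    rfl
  have h := hsep _ (hmem χ₁) _ (hmem χ₂) hagree
  exact congrFun h σ

end

end Fermat.Agent.S53Lib
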