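/-
S53 team project, task F2, part 2 (helper9): descent of a `𝒟`-deformation to a sub test algebra
containing the traces.
-/
import Fermat.Agent.Lib.S53.PushStrict
import Fermat.Agent.Lib.S53.Descent

set_option autoImplicit false

namespace Fermat.Agent.S53Lib

open Matrix IsLocalRing GaloisRep

noncomputable section

section F

variable {𝒪 : Type} [CommRing 𝒪] [IsLocalRing 𝒪]
variable {rbar : GQ →* Matrix (Fin 2) (Fin 2) (ResidueField 𝒪)}
variable {𝒟 : ∀ ⦃A : Type⦄ [CommRing A] [IsLocalRing A] [Algebra 𝒪 A], GaloisRepAdic A → Prop}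

section descent
variable {A B : Type} [CommRing A] [IsLocalRing A] [Algebra 𝒪 A] [IsLocalHom (algebraMap 𝒪 A)]
  [CommRing B] [IsLocalRing B] [Algebra 𝒪 B] [IsLocalHom (algebraMap 𝒪 B)]

/-- `ResidueField.map` of an injective-on-residue-fields situation: for test algebras the
residue field map is bijective. -/
theorem residueField_map_bijective (hA : IsArtinianTestAlgebra 𝒪 A)
    (φ : B →ₐ[𝒪] A) [IsLocalHom (φ : B →+* A)] :
    Function.Bijective (ResidueField.map (φ : B →+* A)) := by
  refine ⟨(ResidueField.map (φ : B →+* A)).injective, ?_⟩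
  intro y
  obtain ⟨c, rfl⟩ := hA.residue_surjective y
  refine ⟨residue B (algebraMap 𝒪 B c), ?_⟩
  rw [ResidueField.map_residue]
  show residue A (φ (algebraMap 𝒪 B c)) = residue A (algebraMap 𝒪 A c)
  rw [φ.commutes]

/-- **Descent of a D-deformation to a sub test algebra containing the traces.** -/
theorem exists_descent_of_trace_mem (h𝒟 : IsDeformationCondition 𝒪 𝒟) (g : FrameIdx → GQ)
    (hg : (gram (fun σ => (rbar σ).trace) g).det ≠ 0)
    (hA : IsArtinianTestAlgebra 𝒪 A) (hB : IsArtinianTestAlgebra 𝒪 B)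
    (r : GQ →* Matrix (Fin 2) (Fin 2) A) (h : MatCts A r)
    (hs : IsStrictLift (𝒪 := 𝒪) rbar r) (hD : 𝒟 (ofMat r h))
    (φ : B →ₐ[𝒪] A) (hinj : Function.Injective φ) (hφ : IsLocalHom (φ : B →+* A))
    (τ : GQ → B) (hτ : ∀ σ, φ (τ σ) = (r σ).trace) :
    ∃ (r' : GQ →* Matrix (Fin 2) (Fin 2) B) (h' : MatCts B r'),
      IsStrictLift (𝒪 := 𝒪) rbar r' ∧ 𝒟 (ofMat r' h') ∧ ∀ σ, (r' σ).trace = τ σ := by
  haveI : IsArtinianRing B := hB.isArtinian
  haveI : IsArtinianRing A := hA.isArtinian
  haveI : IsLocalHom (φ : B →+* A) := hφ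
  -- the residue field identification and the projection `π`
  have hbij := residueField_map_bijective hA φ
  let e : ResidueField B ≃+* ResidueField A := RingEquiv.ofBijective _ hbij
  let π : A →+* ResidueField B := (e.symm : ResidueField A →+* ResidueField B).comp (residue A)
  have hπ : π.comp (φ : B →+* A) = residue B := by
    ext b
    show e.symm (residue A (φ b)) = residue B b
    rw [RingEquiv.symm_apply_eq]
    show residue A (φ b) = ResidueField.map (φ : B →+* A) (residue B b)
    rw [ResidueField.map_residue]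
    rfl
  -- the Gram determinant is a unit in `B`
  have hΓA : IsUnit (gram (fun σ => (r σ).trace) g).det :=
    isUnit_det_gram_of_isStrictLift g hg hs
  have hΓB : IsUnit (gram τ g).det := by
    have h1 : (φ : B →+* A) (gram τ g).det = (gram (fun σ => (r σ).trace) g).det := by
      rw [← det_gram_map]
      congr 2
      funext σ
      exact hτ σ
    rw [← h1] at hΓA
    exact isUnit_of_map_unit (φ : B →+* A) _ hΓA
  -- Carayol descent
  obtain ⟨r'', c, htr'', hformula⟩ :=
    descent (φ : B →+* A) hinj π hπ r τ (fun x => hτ x) g hΓB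
  -- continuity of `r''`
  obtain ⟨n, hn⟩ := exists_maximalIdeal_pow_eq_bot (A := A)
  obtain ⟨L, hL, hLσ⟩ := h n
  have hr1 : ∀ σ : GQ, (∀ x ∈ L, σ x = x) → r σ = 1 := by
    intro σ hσ
    ext i j
    have h1 := hLσ σ hσ i j
    rw [hn, Ideal.mem_bot, Matrix.sub_apply, sub_eq_zero] at h1
    exact h1
  have hr''1 : ∀ σ : GQ, (∀ x ∈ L, σ x = x) → r'' σ = 1 := by
    intro σ hσ
    have hτσ : ∀ x, τ (σ * x) = τ x := by
      intro x
      apply hinj
      rw [hτ, hτ, map_mul, hr1 σ hσ, one_mul]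
    ext i j
    rw [hformula σ i j, ← map_one r'', hformula 1 i j]
    refine Finset.sum_congr rfl fun a _ => ?_
    rw [hτσ, one_mul]
  have hcts'' : MatCts B r'' := by
    intro m
    refine ⟨L, hL, fun σ hσ i j => ?_⟩
    rw [hr''1 σ hσ, sub_self]
    exact Ideal.zero_mem _
  -- strictify
  have htrres : ∀ σ, residue B (r'' σ).trace =
      ResidueField.map (algebraMap 𝒪 B) (rbar σ).trace := by
    intro σ
    apply hbij.1
    rw [htr'' σ, ResidueField.map_residue, residueField_map_map]
    show residue A (φ (τ σ)) = _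
    rw [hτ σ]
    exact residue_trace_of_isStrictLift hs σ
  obtain ⟨v, r', hvr, hstrict⟩ := exists_conj_isStrictLift (𝒪 := 𝒪) (rbar := rbar) g hg r'' htrres
  have hcts' : MatCts B r' := hcts''.conj v r' hvr
  have htr' : ∀ σ, (r' σ).trace = τ σ := by
    intro σ
    rw [← hvr σ, Matrix.trace_mul_comm, ← mul_assoc, Units.inv_mul, one_mul, htr'' σ]
  refine ⟨r', hcts', hstrict, ?_, htr'⟩
  -- the deformation condition
  have htrA : ∀ σ, (r σ).trace = (mapMat (φ : B →+* A) r' σ).trace := by
    intro σ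
    show (r σ).trace = ((r' σ).map (φ : B →+* A)).trace
    rw [trace_map_ringHom, htr' σ]
    exact (hτ σ).symm
  obtain ⟨u, hu⟩ := trace_rigidity r (mapMat (φ : B →+* A) r') htrA g hΓA
  have e1 : (ofMat r h).IsEquiv (ofMat (mapMat (φ : B →+* A) r') (hcts'.map _ hφ)) :=
    isEquiv_ofMat_of_conj h (hcts'.map _ hφ) u hu
  have e2 : ((ofMat r' hcts').baseChangeAlong (φ : B →+* A) hφ).IsEquiv
      (ofMat (mapMat (φ : B →+* A) r') (hcts'.map _ hφ)) :=
    baseChangeAlong_ofMat r' hcts' (φ : B →+* A) hφ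
  have e3 : (ofMat r h).IsEquiv ((ofMat r' hcts').baseChangeAlong (φ : B →+* A) hφ) := by
    obtain ⟨f1⟩ := e1
    obtain ⟨f2⟩ := e2
    exact ⟨f1.trans f2.symm⟩
  have hD' : 𝒟 ((ofMat r' hcts').baseChangeAlong (φ : B →+* A) hφ) :=
    h𝒟.of_isEquiv hA e3 hD
  exact h𝒟.of_baseChangeAlong_injective hB hA φ hφ hinj hD'

end descent

end F

end

end Fermat.Agent.S53Lib
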