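/-
Linear compactness of an adically complete ring with finite quotients `Λ ⧸ m ^ n`:
a directed family of nonempty "open" subsets (stable under translation by some `m ^ n`)
has nonempty intersection.
-/
import Mathlib

set_option autoImplicit false

namespace Fermat.Agent.S53Lib

open CategoryTheory

section LC

variable {Λ : Type*} [CommRing Λ] (m : Ideal Λ)

/-- the set of classes mod `m ^ n` that meet every member of the family -/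
def lcLevel (𝒞 : Set (Set Λ)) (n : ℕ) : Set (Λ ⧸ m ^ n) :=
  {q | ∀ C ∈ 𝒞, ∃ y ∈ C, Ideal.Quotient.mk (m ^ n) y = q}

theorem lcLevel_nonempty [∀ n, Finite (Λ ⧸ m ^ n)] (𝒞 : Set (Set Λ)) (h𝒞 : 𝒞.Nonempty)
    (hne : ∀ C ∈ 𝒞, C.Nonempty)
    (hdir : ∀ C₁ ∈ 𝒞, ∀ C₂ ∈ 𝒞, ∃ C₃ ∈ 𝒞, C₃ ⊆ C₁ ∩ C₂) (n : ℕ) :
    (lcLevel m 𝒞 n).Nonempty := by
  classical
  -- the finite set of images
  let S : Set (Set (Λ ⧸ m ^ n)) := (fun C => Ideal.Quotient.mk (m ^ n) '' C) '' 𝒞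
  have hSfin : S.Finite := Set.toFinite S
  have hSne : S.Nonempty := h𝒞.image _
  obtain ⟨I, hI⟩ := hSfin.exists_minimal hSne
  obtain ⟨⟨C₀, hC₀, rfl⟩, hmin⟩ := hI
  obtain ⟨y₀, hy₀⟩ := hne C₀ hC₀
  refine ⟨Ideal.Quotient.mk (m ^ n) y₀, fun C hC => ?_⟩
  obtain ⟨C₃, hC₃, hsub⟩ := hdir C₀ hC₀ C hC
  have h3 : (Ideal.Quotient.mk (m ^ n) '' C₃) ∈ S := ⟨C₃, hC₃, rfl⟩
  have hle : (Ideal.Quotient.mk (m ^ n) '' C₃) ≤ (Ideal.Quotient.mk (m ^ n) '' C₀) :=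
    Set.image_mono (fun x hx => (hsub hx).1)
  have hge := hmin h3 hle
  have : Ideal.Quotient.mk (m ^ n) y₀ ∈ Ideal.Quotient.mk (m ^ n) '' C₃ :=
    hge ⟨y₀, hy₀, rfl⟩
  obtain ⟨y, hy, hyq⟩ := this
  exact ⟨y, (hsub hy).2, hyq⟩

theorem lcLevel_factor (𝒞 : Set (Set Λ)) {a b : ℕ} (hab : a ≤ b) {q : Λ ⧸ m ^ b}
    (hq : q ∈ lcLevel m 𝒞 b) :
    Ideal.Quotient.factor (Ideal.pow_le_pow_right hab) q ∈ lcLevel m 𝒞 a := by
  intro C hC
  obtain ⟨y, hy, rfl⟩ := hq C hC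
  exact ⟨y, hy, by rw [Ideal.Quotient.factor_mk]⟩

/-- the inverse system of the level sets -/
def lcFunctor (𝒞 : Set (Set Λ)) : ℕᵒᵖ ⥤ Type _ where
  obj n := lcLevel m 𝒞 n.unop
  map {a b} f := TypeCat.ofHom (fun q : lcLevel m 𝒞 a.unop =>
    (⟨Ideal.Quotient.factor (Ideal.pow_le_pow_right (leOfHom f.unop)) q.1,
      lcLevel_factor m 𝒞 (leOfHom f.unop) q.2⟩ : lcLevel m 𝒞 b.unop))
  map_id a := TypeCat.homEquiv.injective (funext fun q => by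
    apply Subtype.ext
    obtain ⟨y, hy⟩ := Ideal.Quotient.mk_surjective q.1
    show Ideal.Quotient.factor _ q.1 = q.1
    rw [← hy, Ideal.Quotient.factor_mk])
  map_comp {a b c} f g := TypeCat.homEquiv.injective (funext fun q => by
    apply Subtype.ext
    obtain ⟨y, hy⟩ := Ideal.Quotient.mk_surjective q.1
    show Ideal.Quotient.factor _ q.1 = Ideal.Quotient.factor _ (Ideal.Quotient.factor _ q.1)
    rw [← hy, Ideal.Quotient.factor_mk, Ideal.Quotient.factor_mk, Ideal.Quotient.factor_mk])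

/-- **Linear compactness.** -/
theorem exists_mem_of_directed_open [IsAdicComplete m Λ] [∀ n, Finite (Λ ⧸ m ^ n)]
    (𝒞 : Set (Set Λ)) (h𝒞 : 𝒞.Nonempty) (hne : ∀ C ∈ 𝒞, C.Nonempty)
    (hopen : ∀ C ∈ 𝒞, ∃ n, ∀ x ∈ C, ∀ y, y - x ∈ m ^ n → y ∈ C)
    (hdir : ∀ C₁ ∈ 𝒞, ∀ C₂ ∈ 𝒞, ∃ C₃ ∈ 𝒞, C₃ ⊆ C₁ ∩ C₂) :
    ∃ x, ∀ C ∈ 𝒞, x ∈ C := by
  classical
  have : ∀ j : ℕᵒᵖ, Finite ((lcFunctor m 𝒞).obj j) := fun j => by
    show Finite (lcLevel m 𝒞 j.unop)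
    infer_instance
  have : ∀ j : ℕᵒᵖ, Nonempty ((lcFunctor m 𝒞).obj j) := fun j =>
    (lcLevel_nonempty m 𝒞 h𝒞 hne hdir j.unop).to_subtype
  obtain ⟨s, hs⟩ := nonempty_sections_of_finite_inverse_system (lcFunctor m 𝒞)
  -- representatives
  let f : ℕ → Λ := fun n => Quotient.out (s (Opposite.op n)).1
  have hf : ∀ n, Ideal.Quotient.mk (m ^ n) (f n) = (s (Opposite.op n)).1 := fun n =>
    Quotient.out_eq _
  have hcompat : ∀ {a b : ℕ}, a ≤ b → f a ≡ f b [SMOD (m ^ a • ⊤ : Submodule Λ Λ)] := by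
    intro a b hab
    have h1 := hs (homOfLE hab).op
    have h2 : Ideal.Quotient.factor (Ideal.pow_le_pow_right hab) (s (Opposite.op b)).1 =
        (s (Opposite.op a)).1 := congrArg Subtype.val h1
    rw [← hf a, ← hf b, Ideal.Quotient.factor_mk] at h2
    rw [SModEq.sub_mem, smul_eq_mul, Ideal.mul_top]
    have := (Ideal.Quotient.eq.mp h2)
    simpa using (m ^ a).neg_mem this
  obtain ⟨L, hL⟩ := (IsAdicComplete.toIsPrecomplete (I := m) (M := Λ)).prec hcompat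
  refine ⟨L, fun C hC => ?_⟩
  obtain ⟨N, hN⟩ := hopen C hC
  obtain ⟨y, hy, hyq⟩ := (s (Opposite.op N)).2 C hC
  refine hN y hy L ?_
  have h1 : f N - L ∈ m ^ N := by
    have := hL N
    rwa [SModEq.sub_mem, smul_eq_mul, Ideal.mul_top] at this
  have h2 : y - f N ∈ m ^ N := by
    rw [← Ideal.Quotient.eq, hyq, hf]
  have : L - y = -((f N - L) + (y - f N)) := by ring
  rw [this]
  exact (m ^ N).neg_mem ((m ^ N).add_mem h1 h2)

end LC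

end Fermat.Agent.S53Lib
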