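/- S53 leaf L3: Chevalley's lemma. Owner: helper7. -/
import Mathlib
import Fermat.Agent.Lib.S53.LinearCompact

set_option autoImplicit false
set_option linter.unusedSectionVars false

namespace Fermat.Agent.S53Lib

open Matrix IsLocalRing

noncomputable section

/-- **L3 (Chevalley).** In a complete ring with finite quotients `Λ/m^n`, a downward directed
family of open ideals is cofinal with `sInf + m^n`. -/
theorem exists_le_sInf_sup_pow {Λ : Type*} [CommRing Λ] (m : Ideal Λ) [IsAdicComplete m Λ]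
    [∀ n, Finite (Λ ⧸ m ^ n)] (ℐ : Set (Ideal Λ)) (hne : ℐ.Nonempty)
    (hopen : ∀ I ∈ ℐ, ∃ n, m ^ n ≤ I)
    (hdir : ∀ I ∈ ℐ, ∀ J ∈ ℐ, ∃ K ∈ ℐ, K ≤ I ⊓ J) (n : ℕ) :
    ∃ I ∈ ℐ, I ≤ sInf ℐ ⊔ m ^ n := by
  classical
  -- the finite set of images in `Λ ⧸ m ^ n`
  let S : Set (Set (Λ ⧸ m ^ n)) :=
    (fun I : Ideal Λ => Ideal.Quotient.mk (m ^ n) '' (I : Set Λ)) '' ℐ
  have hSfin : S.Finite := Set.toFinite S
  have hSne : S.Nonempty := hne.image _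
  obtain ⟨T, hT⟩ := hSfin.exists_minimal hSne
  obtain ⟨⟨I₀, hI₀, rfl⟩, hmin⟩ := hT
  refine ⟨I₀, hI₀, fun x hx => ?_⟩
  -- key: for every `K ∈ ℐ` below `I₀`, `x ∈ K + m ^ n`
  have hkey : ∀ I ∈ ℐ, ∃ y ∈ I, y - x ∈ m ^ n := by
    intro I hI
    obtain ⟨K, hK, hKle⟩ := hdir I hI I₀ hI₀
    have h3 : (Ideal.Quotient.mk (m ^ n) '' (K : Set Λ)) ∈ S := ⟨K, hK, rfl⟩
    have hle : (Ideal.Quotient.mk (m ^ n) '' (K : Set Λ)) ≤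
        (Ideal.Quotient.mk (m ^ n) '' (I₀ : Set Λ)) :=
      Set.image_mono (fun z hz => (hKle hz).2)
    have hge := hmin h3 hle
    obtain ⟨y, hy, hyq⟩ := hge ⟨x, hx, rfl⟩
    exact ⟨y, (hKle hy).1, Ideal.Quotient.eq.mp hyq⟩
  -- linear compactness on the cosets `(x + m ^ n) ∩ I`
  let 𝒞 : Set (Set Λ) := (fun I : Ideal Λ => {y : Λ | y ∈ I ∧ y - x ∈ m ^ n}) '' ℐ
  have h𝒞ne : 𝒞.Nonempty := hne.image _
  have hCne : ∀ C ∈ 𝒞, C.Nonempty := by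
    rintro _ ⟨I, hI, rfl⟩
    obtain ⟨y, hy, hyx⟩ := hkey I hI
    exact ⟨y, hy, hyx⟩
  have hCopen : ∀ C ∈ 𝒞, ∃ N, ∀ z ∈ C, ∀ y, y - z ∈ m ^ N → y ∈ C := by
    rintro _ ⟨I, hI, rfl⟩
    obtain ⟨k, hk⟩ := hopen I hI
    refine ⟨max k n, fun z hz y hy => ?_⟩
    have hyk : y - z ∈ m ^ k := Ideal.pow_le_pow_right (le_max_left k n) hy
    have hyn : y - z ∈ m ^ n := Ideal.pow_le_pow_right (le_max_right k n) hy
    refine ⟨?_, ?_⟩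
    · have : y = (y - z) + z := by ring
      rw [this]
      exact I.add_mem (hk hyk) hz.1
    · have : y - x = (y - z) + (z - x) := by ring
      rw [this]
      exact (m ^ n).add_mem hyn hz.2
  have hCdir : ∀ C₁ ∈ 𝒞, ∀ C₂ ∈ 𝒞, ∃ C₃ ∈ 𝒞, C₃ ⊆ C₁ ∩ C₂ := by
    rintro _ ⟨I, hI, rfl⟩ _ ⟨J, hJ, rfl⟩
    obtain ⟨K, hK, hKle⟩ := hdir I hI J hJ
    refine ⟨_, ⟨K, hK, rfl⟩, fun y hy => ⟨⟨(hKle hy.1).1, hy.2⟩, ⟨(hKle hy.1).2, hy.2⟩⟩⟩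
  obtain ⟨y, hy⟩ := exists_mem_of_directed_open m 𝒞 h𝒞ne hCne hCopen hCdir
  have hyInf : y ∈ sInf ℐ := by
    rw [Ideal.mem_sInf]
    intro I hI
    exact (hy _ ⟨I, hI, rfl⟩).1
  obtain ⟨I₁, hI₁⟩ := hne
  have hyx : y - x ∈ m ^ n := (hy _ ⟨I₁, hI₁, rfl⟩).2
  have : x = y + -(y - x) := by ring
  rw [this]
  exact Ideal.add_mem _ (Ideal.mem_sup_left hyInf) (Ideal.mem_sup_right ((m ^ n).neg_mem hyx))

end

end Fermat.Agent.S53Lib
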