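/-
S53 trunk, auxiliary facts (helper5): instances for the levels `A ⧸ m^(n+1)`, symmetry and
transitivity of `GaloisRepAdic.IsEquiv`.
-/
import Fermat.Agent.Lib.S53.Trunk1
import Fermat.Agent.Lib.S53.AdicLevels

set_option autoImplicit false
set_option linter.unusedSectionVars false

namespace Fermat.Agent.S53Lib

open Matrix IsLocalRing GaloisRep

instance level_isLocalHom_algebraMap {𝒪 : Type} [CommRing 𝒪] {A : Type} [CommRing A]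
    [IsLocalRing A] [Algebra 𝒪 A] [IsLocalHom (algebraMap 𝒪 A)] (n : ℕ) :
    IsLocalHom (algebraMap 𝒪 (A ⧸ maximalIdeal A ^ (n + 1))) := by
  have h : (algebraMap 𝒪 (A ⧸ maximalIdeal A ^ (n + 1))) =
      (Ideal.Quotient.mk (maximalIdeal A ^ (n + 1))).comp (algebraMap 𝒪 A) := rfl
  rw [h]
  exact RingHom.isLocalHom_comp _ _

theorem isEquiv_trans' {A : Type} [CommRing A] [IsLocalRing A] {ρ₁ ρ₂ ρ₃ : GaloisRepAdic A}
    (h₁ : ρ₁.IsEquiv ρ₂) (h₂ : ρ₂.IsEquiv ρ₃) : ρ₁.IsEquiv ρ₃ := by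
  obtain ⟨e₁⟩ := h₁
  obtain ⟨e₂⟩ := h₂
  exact ⟨e₁.trans e₂⟩

theorem isEquiv_symm' {A : Type} [CommRing A] [IsLocalRing A] {ρ₁ ρ₂ : GaloisRepAdic A}
    (h₁ : ρ₁.IsEquiv ρ₂) : ρ₂.IsEquiv ρ₁ := by
  obtain ⟨e₁⟩ := h₁
  exact ⟨e₁.symm⟩

end Fermat.Agent.S53Lib
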