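/- S53 leaf L5: cofinality of the kernels. Owner: helper7. -/
import Fermat.Agent.Lib.S53.TrunkAux
import Fermat.Agent.Lib.S53.LeafChevalley

set_option autoImplicit false
set_option linter.unusedSectionVars false

namespace Fermat.Agent.S53Lib

open Matrix IsLocalRing GaloisRep

noncomputable section

variable {𝒪 : Type} [CommRing 𝒪] [IsDomain 𝒪] [IsDiscreteValuationRing 𝒪]
  [IsAdicComplete (maximalIdeal 𝒪) 𝒪] [Finite (ResidueField 𝒪)]
variable {rbar : GQ →* Matrix (Fin 2) (Fin 2) (ResidueField 𝒪)}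
variable {𝒟 : ∀ ⦃A : Type⦄ [CommRing A] [IsLocalRing A] [Algebra 𝒪 A], GaloisRepAdic A → Prop}

variable (S : Setup rbar 𝒟)

/-- the kernels of the `psi P` are cofinal with `univIdeal + m^n` -/
theorem Setup.exists_ker_psi_le (n : ℕ) :
    ∃ P : DPair rbar 𝒟, RingHom.ker (S.psi P) ≤ S.univIdeal ⊔ maximalIdeal S.Lam ^ n := by
  haveI : IsAdicComplete (maximalIdeal S.Lam) S.Lam := isAdicComplete_mvPowerSeries 𝒪 S.d
  haveI : ∀ k, Finite (S.Lam ⧸ maximalIdeal S.Lam ^ k) :=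
    fun k => finite_mvPowerSeries_quot_pow 𝒪 S.d k
  let ℐ : Set (Ideal S.Lam) := Set.range (fun P : DPair rbar 𝒟 => RingHom.ker (S.psi P))
  have hne : ℐ.Nonempty := ⟨_, ⟨S.base, rfl⟩⟩
  have hopen : ∀ I ∈ ℐ, ∃ k, maximalIdeal S.Lam ^ k ≤ I := by
    rintro _ ⟨P, rfl⟩
    exact S.exists_pow_le_ker_psi P
  have hdir : ∀ I ∈ ℐ, ∀ J ∈ ℐ, ∃ K ∈ ℐ, K ≤ I ⊓ J := by
    rintro _ ⟨P, rfl⟩ _ ⟨Q, rfl⟩
    exact ⟨_, ⟨P.prod Q S.h𝒟, rfl⟩, (S.ker_psi_prod P Q).le⟩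
  obtain ⟨_, ⟨P, rfl⟩, hP⟩ :=
    exists_le_sInf_sup_pow (maximalIdeal S.Lam) ℐ hne hopen hdir n
  refine ⟨P, ?_⟩
  have hInf : sInf ℐ = S.univIdeal := by
    rw [Setup.univIdeal, iInf]
  rwa [hInf] at hP

/-- **L5.** the kernels of the `barpsi P` are cofinal among the powers of the maximal ideal -/
theorem Setup.exists_ker_barpsi_le (n : ℕ) :
    ∃ P : DPair rbar 𝒟, RingHom.ker (S.barpsi P) ≤ maximalIdeal S.R ^ n := by
  obtain ⟨P, hP⟩ := S.exists_ker_psi_le n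
  refine ⟨P, fun x hx => ?_⟩
  obtain ⟨y, rfl⟩ := Ideal.Quotient.mk_surjective x
  rw [RingHom.mem_ker] at hx
  have hy : y ∈ RingHom.ker (S.psi P) := by
    rw [RingHom.mem_ker]
    exact hx
  have h1 := hP hy
  obtain ⟨a, ha, b, hb, rfl⟩ := Submodule.mem_sup.mp h1
  have hmap : (maximalIdeal S.Lam).map (Ideal.Quotient.mk S.univIdeal) = maximalIdeal S.R :=
    map_maximalIdeal_of_surjective _ Ideal.Quotient.mk_surjective
  rw [map_add, Ideal.Quotient.eq_zero_iff_mem.mpr ha, zero_add, ← hmap, ← Ideal.map_pow]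
  exact Ideal.mem_map_of_mem _ hb

end

end Fermat.Agent.S53Lib
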