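import Fermat.Agent.Lib.S53.Trunk1
import Fermat.Agent.Lib.S53.DescentTrace
import Fermat.Agent.Lib.S53.TangentN
import Fermat.Agent.Lib.S53.GlueStrict

/-!
# S53 trunk (helper4): `ψ_P` is onto the trace algebra

For every D-pair `P` there is a D-pair `Q` over the subalgebra `T ⊆ P.A` generated by the traces
of `P`, with the same traces, such that `ψ_Q : Λ → Q.A` is surjective and `ψ_P = ι ∘ ψ_Q`.
In particular every trace `P.t σ` lies in the image of `ψ_P`.
-/

set_option autoImplicit false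
set_option linter.unusedSectionVars false

namespace Fermat.Agent.S53Lib

open Matrix IsLocalRing GaloisRep

noncomputable section

attribute [local instance] dualNumberAlgebra

variable {𝒪 : Type} [CommRing 𝒪] [IsDomain 𝒪] [IsDiscreteValuationRing 𝒪]
  [IsAdicComplete (maximalIdeal 𝒪) 𝒪] [Finite (ResidueField 𝒪)]
variable {rbar : GQ →* Matrix (Fin 2) (Fin 2) (ResidueField 𝒪)}
variable {𝒟 : ∀ ⦃A : Type⦄ [CommRing A] [IsLocalRing A] [Algebra 𝒪 A], GaloisRepAdic A → Prop}
variable (S : Setup rbar 𝒟)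

/-- If the traces of `Q` generate `Q.A`, then `ψ_Q` is surjective. -/
theorem Setup.psi_surjective_of_adjoin_t_eq_top (Q : DPair rbar 𝒟)
    (hQ : Algebra.adjoin 𝒪 (Set.range Q.t) = ⊤) : Function.Surjective (S.psi Q) := by
  -- the variables' images generate `Q.A`
  have hgen : Algebra.adjoin 𝒪 (Set.range (S.varImage Q)) = ⊤ := by
    by_contra hne
    obtain ⟨χ₁, χ₂, hχ, hagree⟩ :=
      exists_ne_algHom_dualNumber Q.isArtinianTestAlgebra (Set.range (S.varImage Q)) hne
    apply hχ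
    have h1 : ∀ i, χ₁ (Q.t (S.γ i)) = χ₂ (Q.t (S.γ i)) := by
      intro i
      have h2 : Q.t (S.γ i) = S.varImage Q i + algebraMap 𝒪 Q.A (S.c i) := by
        unfold Setup.varImage
        ring
      rw [h2, map_add, map_add, AlgHom.commutes, AlgHom.commutes, hagree _ ⟨i, rfl⟩]
    have h3 := S.hsep Q χ₁ χ₂ h1
    refine AlgHom.ext_of_adjoin_eq_top hQ ?_
    rintro _ ⟨σ, rfl⟩
    exact h3 σ
  have hle : (⊤ : Subalgebra 𝒪 Q.A) ≤ (S.psi Q).range := by
    rw [← hgen]
    refine Algebra.adjoin_le ?_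
    rintro _ ⟨i, rfl⟩
    exact ⟨MvPowerSeries.X i, S.psi_X Q i⟩
  intro y
  obtain ⟨x, hx⟩ := hle (Algebra.mem_top : y ∈ (⊤ : Subalgebra 𝒪 Q.A))
  exact ⟨x, hx⟩

/-- **Surjective model.** Every D-pair `P` comes from a D-pair `Q` with surjective `ψ_Q` by an
injective algebra hom `ι : Q.A → P.A` preserving traces. -/
theorem Setup.exists_surjective_model (P : DPair rbar 𝒟) :
    ∃ (Q : DPair rbar 𝒟) (ι : Q.A →ₐ[𝒪] P.A), Function.Injective ι ∧
      (∀ σ, ι (Q.t σ) = P.t σ) ∧ Function.Surjective (S.psi Q) ∧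
      ∀ x, S.psi P x = ι (S.psi Q x) := by
  have hfin : Finite P.A := testAlg_finite P.isArtinianTestAlgebra
  -- the trace algebra
  set T : Subalgebra 𝒪 P.A := Algebra.adjoin 𝒪 (Set.range P.t) with hT
  have hTA : IsArtinianTestAlgebra 𝒪 T := subalgebra_isArtinianTestAlgebra P.isArtinianTestAlgebra T
  let τ : GQ → T := fun σ => ⟨P.t σ, Algebra.subset_adjoin ⟨σ, rfl⟩⟩
  obtain ⟨r', h', hs', hD', htr'⟩ := exists_descent_of_trace_mem S.h𝒟 S.g S.hg
    P.isArtinianTestAlgebra hTA P.r P.cts P.strict P.isOfType T.val Subtype.val_injective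
    (subalgebra_val_isLocalHom T) τ (fun σ => rfl)
  let Q : DPair rbar 𝒟 :=
    { A := T
      residue_surjective := hTA.residue_surjective
      isArtinian := hTA.isArtinian
      r := r'
      cts := h'
      strict := hs'
      isOfType := hD' }
  have hQt : ∀ σ, Q.t σ = τ σ := htr'
  have hgen : Algebra.adjoin 𝒪 (Set.range Q.t) = ⊤ := by
    have h1 : Set.range Q.t = ((↑) : T → P.A) ⁻¹' (Set.range P.t) := by
      ext y
      constructor
      · rintro ⟨σ, rfl⟩
        exact ⟨σ, by rw [hQt]⟩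
      · rintro ⟨σ, hσ⟩
        exact ⟨σ, by rw [hQt]; exact Subtype.ext hσ⟩
    rw [h1]
    exact Algebra.adjoin_adjoin_coe_preimage
  refine ⟨Q, T.val, Subtype.val_injective, fun σ => by rw [hQt]; rfl,
    S.psi_surjective_of_adjoin_t_eq_top Q hgen, fun x => ?_⟩
  have h := S.psi_unique P (T.val.comp (S.psi Q)) (fun i => by
    rw [AlgHom.comp_apply, S.psi_X]
    unfold Setup.varImage
    rw [map_sub, AlgHom.commutes, hQt]
    rfl)
  exact (AlgHom.congr_fun h x).symm

/-- Every trace of a D-pair lies in the image of `ψ_P`. -/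
theorem Setup.exists_psi_eq_t (P : DPair rbar 𝒟) (σ : GQ) : ∃ x : S.Lam, S.psi P x = P.t σ := by
  obtain ⟨Q, ι, _, hι, hsurj, hfac⟩ := S.exists_surjective_model P
  obtain ⟨x, hx⟩ := hsurj (Q.t σ)
  exact ⟨x, by rw [hfac, hx, hι]⟩

end

end Fermat.Agent.S53Lib
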