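/- S53 leaf L2: (S) the traces of a D-pair lie in the range of ψ_P.
The theorem `Setup.exists_psi_eq_t` (exact stub statement) is proved in `TrunkSurj.lean` (helper4);
this file only re-exports it so that `import Fermat.Agent.Lib.S53.LeafSurj` keeps working. -/
import Fermat.Agent.Lib.S53.TrunkSurj
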