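/- S53 trunk part 2: L4 universal trace (helper4). -/
import Fermat.Agent.Lib.S53.TrunkAux
import Fermat.Agent.Lib.S53.LeafSurj
import Fermat.Agent.Lib.S53.LinearCompact

set_option autoImplicit false
set_option linter.unusedSectionVars false

namespace Fermat.Agent.S53Lib

open Matrix IsLocalRing GaloisRep

noncomputable section

variable {𝒪 : Type} [CommRing 𝒪] [IsDomain 𝒪] [IsDiscreteValuationRing 𝒪]
  [IsAdicComplete (maximalIdeal 𝒪) 𝒪] [Finite (ResidueField 𝒪)]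
variable {rbar : GQ →* Matrix (Fin 2) (Fin 2) (ResidueField 𝒪)}
variable {𝒟 : ∀ ⦃A : Type⦄ [CommRing A] [IsLocalRing A] [Algebra 𝒪 A], GaloisRepAdic A → Prop}

variable (S : Setup rbar 𝒟)

/-- the coset of `Λ` of elements mapping to the trace `P.t σ` under `ψ_P` -/
def Setup.traceCoset (σ : GQ) (P : DPair rbar 𝒟) : Set S.Lam := {x | S.psi P x = P.t σ}

/-- **L4 in `Λ`.** a common preimage of all the traces -/
theorem Setup.exists_lam_trace (σ : GQ) :
    ∃ x : S.Lam, ∀ P : DPair rbar 𝒟, S.psi P x = P.t σ := by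
  have hcomplete : IsAdicComplete (maximalIdeal S.Lam) S.Lam := isAdicComplete_mvPowerSeries 𝒪 S.d
  have hfinite : ∀ n, Finite (S.Lam ⧸ maximalIdeal S.Lam ^ n) :=
    fun n => finite_mvPowerSeries_quot_pow 𝒪 S.d n
  have hne : ∀ C ∈ Set.range (S.traceCoset σ), C.Nonempty := by
    rintro _ ⟨P, rfl⟩
    exact S.exists_psi_eq_t P σ
  have hopen : ∀ C ∈ Set.range (S.traceCoset σ), ∃ n, ∀ x ∈ C, ∀ y,
      y - x ∈ maximalIdeal S.Lam ^ n → y ∈ C := by
    rintro _ ⟨P, rfl⟩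
    obtain ⟨n, hn⟩ := S.exists_pow_le_ker_psi P
    refine ⟨n, fun x hx y hy => ?_⟩
    have h1 : S.psi P (y - x) = 0 := hn hy
    show S.psi P y = P.t σ
    rw [map_sub, sub_eq_zero] at h1
    rw [h1]
    exact hx
  have hdir : ∀ C₁ ∈ Set.range (S.traceCoset σ), ∀ C₂ ∈ Set.range (S.traceCoset σ),
      ∃ C₃ ∈ Set.range (S.traceCoset σ), C₃ ⊆ C₁ ∩ C₂ := by
    rintro _ ⟨P, rfl⟩ _ ⟨Q, rfl⟩
    refine ⟨_, ⟨P.prod Q S.h𝒟, rfl⟩, fun x hx => ⟨?_, ?_⟩⟩
    · show S.psi P x = P.t σ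
      have hx' : S.psi (P.prod Q S.h𝒟) x = (P.prod Q S.h𝒟).t σ := hx
      rw [← S.psi_prodFst P Q, hx', P.prodFst'_t]
    · show S.psi Q x = Q.t σ
      have hx' : S.psi (P.prod Q S.h𝒟) x = (P.prod Q S.h𝒟).t σ := hx
      rw [← S.psi_prodSnd P Q, hx', P.prodSnd'_t]
  obtain ⟨x, hx⟩ := exists_mem_of_directed_open (maximalIdeal S.Lam)
    (Set.range (S.traceCoset σ)) ⟨_, ⟨S.base, rfl⟩⟩ hne hopen hdir
  exact ⟨x, fun P => hx _ ⟨P, rfl⟩⟩

/-- **L4.** the universal trace exists (linear compactness + products + (S)) -/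
theorem Setup.exists_univ_trace (σ : GQ) :
    ∃ x : S.R, ∀ P : DPair rbar 𝒟, S.barpsi P x = P.t σ := by
  obtain ⟨x, hx⟩ := S.exists_lam_trace σ
  exact ⟨Ideal.Quotient.mk S.univIdeal x, fun P => by rw [S.barpsi_mk, hx]⟩

/-- the universal trace function -/
def Setup.τ (σ : GQ) : S.R := (S.exists_univ_trace σ).choose

theorem Setup.barpsi_τ (P : DPair rbar 𝒟) (σ : GQ) : S.barpsi P (S.τ σ) = P.t σ :=
  (S.exists_univ_trace σ).choose_spec P

end

end Fermat.Agent.S53Lib
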