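/- S53 leaf H1: the levels R/m^(n+1) receive D-pairs with trace τ. Owner: helper4. -/
import Fermat.Agent.Lib.S53.Trunk2
import Fermat.Agent.Lib.S53.LeafCofinal
import Fermat.Agent.Lib.S53.DescentTrace
import Fermat.Agent.Lib.S53.TrunkSurj

set_option autoImplicit false
set_option linter.unusedSectionVars false

namespace Fermat.Agent.S53Lib

open Matrix IsLocalRing GaloisRep

noncomputable section

variable {𝒪 : Type} [CommRing 𝒪] [IsDomain 𝒪] [IsDiscreteValuationRing 𝒪]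
  [IsAdicComplete (maximalIdeal 𝒪) 𝒪] [Finite (ResidueField 𝒪)]
variable {rbar : GQ →* Matrix (Fin 2) (Fin 2) (ResidueField 𝒪)}
variable {𝒟 : ∀ ⦃A : Type⦄ [CommRing A] [IsLocalRing A] [Algebra 𝒪 A], GaloisRepAdic A → Prop}

variable (S : Setup rbar 𝒟)

/-- **H1.** (from L5: `P` with `ker (barpsi P) ≤ m^(n+1)`; replace `P` by its surjective model `Q`
over the trace algebra (`Setup.exists_surjective_model`); then `barpsi Q` is surjective with
`ker (barpsi Q) ≤ ker (barpsi P)` and `q := Q.A ≃ R/ker → R/m^(n+1)`.) -/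
theorem Setup.exists_level_dpair (n : ℕ) :
    ∃ (P : DPair rbar 𝒟) (q : P.A →ₐ[𝒪] S.R ⧸ maximalIdeal S.R ^ (n + 1)),
      ∀ σ, q (P.t σ) = Ideal.Quotient.mk (maximalIdeal S.R ^ (n + 1)) (S.τ σ) := by
  obtain ⟨P, hP⟩ := S.exists_ker_barpsi_le (n + 1)
  obtain ⟨Q, ι, hιinj, _, hsurj, hfac⟩ := S.exists_surjective_model P
  have hbsurj : Function.Surjective (S.barpsi Q) := by
    intro y
    obtain ⟨x, hx⟩ := hsurj y
    exact ⟨Ideal.Quotient.mk S.univIdeal x, by rw [S.barpsi_mk, hx]⟩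
  have hker : RingHom.ker (S.barpsi Q) ≤ maximalIdeal S.R ^ (n + 1) := by
    refine le_trans (fun z hz => ?_) hP
    obtain ⟨x, rfl⟩ := Ideal.Quotient.mk_surjective z
    rw [RingHom.mem_ker, S.barpsi_mk] at hz ⊢
    rw [hfac, hz, map_zero]
  let e : (S.R ⧸ RingHom.ker (S.barpsi Q)) ≃ₐ[𝒪] Q.A :=
    Ideal.quotientKerAlgEquivOfSurjective hbsurj
  refine ⟨Q, (Ideal.Quotient.factorₐ 𝒪 hker).comp (e.symm : Q.A →ₐ[𝒪] _), fun σ => ?_⟩
  have h1 : e.symm (Q.t σ) = Ideal.Quotient.mk (RingHom.ker (S.barpsi Q)) (S.τ σ) := by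
    rw [AlgEquiv.symm_apply_eq, ← S.barpsi_τ Q σ]
    rfl
  rw [AlgHom.comp_apply]
  show Ideal.Quotient.factorₐ 𝒪 hker (e.symm (Q.t σ)) = _
  rw [h1]
  rfl

end

end Fermat.Agent.S53Lib
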