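/- S53 leaf H3: algebra homs out of R are determined by the images of the universal
traces. (helper6) -/
import Fermat.Agent.Lib.S53.Trunk2
import Fermat.Agent.Lib.S53.Aug

set_option autoImplicit false
set_option linter.unusedSectionVars false

namespace Fermat.Agent.S53Lib

open Matrix IsLocalRing GaloisRep

noncomputable section

variable {𝒪 : Type} [CommRing 𝒪] [IsDomain 𝒪] [IsDiscreteValuationRing 𝒪]
  [IsAdicComplete (maximalIdeal 𝒪) 𝒪] [Finite (ResidueField 𝒪)]
variable {rbar : GQ →* Matrix (Fin 2) (Fin 2) (ResidueField 𝒪)}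
variable {𝒟 : ∀ ⦃A : Type⦄ [CommRing A] [IsLocalRing A] [Algebra 𝒪 A], GaloisRepAdic A → Prop}

variable (S : Setup rbar 𝒟)

/-- `X_i = τ(γ_i) - c_i` in `R` (from `barpsi_ext`, `barpsi_τ`, `mk_X`) -/
theorem Setup.mk_X_eq (i : Fin S.d) :
    (Ideal.Quotient.mk S.univIdeal (MvPowerSeries.X i) : S.R) =
      S.τ (S.γ i) - algebraMap 𝒪 S.R (S.c i) := by
  apply S.barpsi_ext
  intro P
  rw [S.mk_X, map_sub, S.barpsi_τ, AlgHom.commutes, Setup.varImage]

/-- **H3.** (`quotient_algHom_ext` with `I = maximalIdeal B`; `φ` is local by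
`isLocalHom_of_algHom`) -/
theorem Setup.algHom_ext_of_τ (B : Type) [CommRing B] [IsLocalRing B] [Algebra 𝒪 B]
    (hB : IsArtinianTestAlgebra 𝒪 B) (φ φ' : S.R →ₐ[𝒪] B)
    (h : ∀ σ, φ (S.τ σ) = φ' (S.τ σ)) : φ = φ' := by
  have hBart : IsArtinianRing B := hB.isArtinian
  have hloc : IsLocalHom (φ : S.R →+* B) :=
    isLocalHom_of_algHom inferInstance S.residue_surjective_R hB.isLocalHom
      hB.residue_surjective φ
  have hX : ∀ i, φ (Ideal.Quotient.mk S.univIdeal (MvPowerSeries.X i)) =
      φ' (Ideal.Quotient.mk S.univIdeal (MvPowerSeries.X i)) := by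
    intro i
    rw [S.mk_X_eq, map_sub, map_sub, h, AlgHom.commutes, AlgHom.commutes]
  have hmem : ∀ i, φ (Ideal.Quotient.mk S.univIdeal (MvPowerSeries.X i)) ∈ maximalIdeal B := by
    intro i
    have h1 : (Ideal.Quotient.mk S.univIdeal (MvPowerSeries.X i) : S.R) ∈ maximalIdeal S.R := by
      rw [mem_maximalIdeal, mem_nonunits_iff]
      intro hu
      -- map to the base pair: the image `varImage` is in the maximal ideal
      have hu' : IsUnit (S.barpsi S.base (Ideal.Quotient.mk S.univIdeal (MvPowerSeries.X i))) :=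
        hu.map (S.barpsi S.base)
      rw [S.mk_X] at hu'
      exact (mem_maximalIdeal _).mp (S.varImage_mem S.base i) hu'
    have h2 : φ (Ideal.Quotient.mk S.univIdeal (MvPowerSeries.X i)) ∈ maximalIdeal B := by
      rw [mem_maximalIdeal, mem_nonunits_iff]
      intro hu
      exact (mem_maximalIdeal _).mp h1 (hloc.map_nonunit _ hu)
    exact h2
  have : IsHausdorff (maximalIdeal B) B := by
    obtain ⟨n, hn⟩ := exists_maximalIdeal_pow_eq_bot B
    refine ⟨fun x hx => ?_⟩
    have := hx n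
    rw [smul_eq_mul, Ideal.mul_top, hn, SModEq.zero, Ideal.mem_bot] at this
    exact this
  exact quotient_algHom_ext S.univIdeal (maximalIdeal B) hmem hX

end

end Fermat.Agent.S53Lib
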