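/- S53 trunk, final assembly (helper5). -/
import Fermat.Agent.Lib.S53.LeafBase
import Fermat.Agent.Lib.S53.LeafLevels
import Fermat.Agent.Lib.S53.LeafUniq
import Fermat.Agent.Lib.S53.Assembly

set_option autoImplicit false
set_option linter.unusedSectionVars false

namespace Fermat.Agent.S53Lib

open Matrix IsLocalRing GaloisRep

noncomputable section

variable {𝒪 : Type} [CommRing 𝒪] [IsDomain 𝒪] [IsDiscreteValuationRing 𝒪]
  [IsAdicComplete (maximalIdeal 𝒪) 𝒪] [Finite (ResidueField 𝒪)]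

/-- the frame for `resMat` -/
theorem exists_gram_resMat_ne_zero (ρbar : ResidualGaloisRep (ResidueField 𝒪))
    (b : Module.Basis (Fin 2) (ResidueField 𝒪) ρbar.V)
    (habs : ρbar.IsAbsolutelyIrreducible) :
    ∃ g : FrameIdx → GQ, (gram (fun σ => (resMat ρbar b σ).trace) g).det ≠ 0 := by
  obtain ⟨g, hg⟩ := exists_gram_ne_zero ρbar habs
  refine ⟨g, ?_⟩
  have h : (fun σ => (resMat ρbar b σ).trace) =
      fun σ => LinearMap.trace (ResidueField 𝒪) ρbar.V (ρbar.ρ σ) := by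
    funext σ
    rw [resMat_apply, LinearMap.trace_eq_matrix_trace (ResidueField 𝒪) b]
  rw [h]
  exact hg

theorem nonempty_deformationRingData
    (ρbar : ResidualGaloisRep (ResidueField 𝒪))
    (𝒟 : ∀ ⦃A : Type⦄ [CommRing A] [IsLocalRing A] [Algebra 𝒪 A], GaloisRepAdic A → Prop)
    (habs : ρbar.IsAbsolutelyIrreducible)
    (h𝒟 : IsDeformationCondition 𝒪 𝒟)
    (hbar : 𝒟 (GaloisRepAdic.ofResidualGaloisRep ρbar))
    (hfin : TangentFinite 𝒪 ρbar 𝒟) :
    Nonempty (DeformationRingData 𝒪 ρbar 𝒟) := by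
  let b : Module.Basis (Fin 2) (ResidueField 𝒪) ρbar.V :=
    Module.finBasisOfFinrankEq (ResidueField 𝒪) ρbar.V ρbar.finrank_eq
  obtain ⟨g, hg⟩ := exists_gram_resMat_ne_zero ρbar b habs
  obtain ⟨d, γ, hsep⟩ := exists_separating h𝒟 ρbar b hfin
  obtain ⟨P₀⟩ := exists_base_dpair h𝒟 ρbar b hbar
  choose c hc using fun i : Fin d => residue_surjective (R := 𝒪) ((resMat ρbar b (γ i)).trace)
  have S : Setup (resMat ρbar b) 𝒟 :=
    { h𝒟 := h𝒟, g := g, hg := hg, d := d, γ := γ, c := c, hc := hc, hsep := hsep, base := P₀ }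
  exact nonempty_deformationRingData_of_universal_trace 𝒪 ρbar 𝒟 habs h𝒟 b S.R
    S.residue_surjective_R S.τ S.exists_level_dpair
    (fun P => ⟨S.barpsi P, S.barpsi_τ P⟩)
    (fun B _ _ _ hB φ φ' h => S.algHom_ext_of_τ B hB φ φ' h)

end

end Fermat.Agent.S53Lib

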